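import Mathlib

/-!
# S23 (Plan Q), package HANKEL: the Vandermonde/Hankel interpolation identity

Pure algebra in an arbitrary commutative ring `R`.  For `u f : Q → R` (`Q` a finite type with
`n` elements) put

* `S m = ∑ q, u q ^ m` (power sums),
* `H i j = S (i + j)` for `i j : Fin n` (Hankel matrix),
* `t j = ∑ q, u q ^ j * f q`.

Then `det H * f q = ∑ i, u q ^ i * (adj H *ᵥ t) i` for every `q`, and
`det H = (∏_{i<j} (u j - u i)) ^ 2` (after enumerating `Q`).
-/

set_option autoImplicit false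

namespace Fermat.Agent.S23

open Matrix Finset

variable {R : Type*} [CommRing R]

/-- The Hankel matrix `Vᵀ V` of the power sums of `u : Fin n → R`. -/
def hk_H {n : ℕ} (u : Fin n → R) : Matrix (Fin n) (Fin n) R :=
  (Matrix.vandermonde u)ᵀ * Matrix.vandermonde u

theorem hk_H_apply {n : ℕ} (u : Fin n → R) (i j : Fin n) :
    hk_H u i j = ∑ q, u q ^ ((i : ℕ) + (j : ℕ)) := by
  simp [hk_H, Matrix.mul_apply, Matrix.vandermonde_apply, pow_add]

/-- The vector of twisted traces `t j = ∑ q, u q ^ j * f q`. -/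
def hk_t {n : ℕ} (u f : Fin n → R) : Fin n → R :=
  (Matrix.vandermonde u)ᵀ *ᵥ f

theorem hk_t_apply {n : ℕ} (u f : Fin n → R) (j : Fin n) :
    hk_t u f j = ∑ q, u q ^ (j : ℕ) * f q := by
  simp [hk_t, Matrix.mulVec, dotProduct, Matrix.vandermonde_apply]

theorem hk_det {n : ℕ} (u : Fin n → R) :
    (hk_H u).det = (∏ i : Fin n, ∏ j ∈ Finset.Ioi i, (u j - u i)) ^ 2 := by
  rw [hk_H, Matrix.det_mul, Matrix.det_transpose, Matrix.det_vandermonde, sq]

theorem hk_sandwich {n : ℕ} (u : Fin n → R) :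
    Matrix.vandermonde u * (hk_H u).adjugate * (Matrix.vandermonde u)ᵀ =
      (hk_H u).det • (1 : Matrix (Fin n) (Fin n) R) := by
  have h1 : (hk_H u).adjugate =
      (Matrix.vandermonde u).adjugate * ((Matrix.vandermonde u)ᵀ).adjugate := by
    rw [hk_H, Matrix.adjugate_mul_distrib]
  rw [h1]
  have h2 : Matrix.vandermonde u *
      ((Matrix.vandermonde u).adjugate * ((Matrix.vandermonde u)ᵀ).adjugate) *
        (Matrix.vandermonde u)ᵀ =
      (Matrix.vandermonde u * (Matrix.vandermonde u).adjugate) *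
        (((Matrix.vandermonde u)ᵀ).adjugate * (Matrix.vandermonde u)ᵀ) := by
    simp only [Matrix.mul_assoc]
  rw [h2, Matrix.mul_adjugate, Matrix.adjugate_mul, hk_H, Matrix.det_mul, Matrix.det_transpose]
  simp [smul_smul]

/-- **Interpolation identity** (`Fin n`-indexed version). -/
theorem hk_main {n : ℕ} (u f : Fin n → R) (q : Fin n) :
    (hk_H u).det * f q = ∑ i : Fin n, u q ^ (i : ℕ) * ((hk_H u).adjugate *ᵥ hk_t u f) i := by
  have h := congrArg (fun M => (M *ᵥ f) q) (hk_sandwich u)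
  simp only [Matrix.smul_mulVec, Matrix.one_mulVec, Pi.smul_apply, smul_eq_mul] at h
  rw [← h, ← Matrix.mulVec_mulVec, ← Matrix.mulVec_mulVec]
  simp only [Matrix.mulVec, dotProduct, Matrix.vandermonde_apply]
  rfl

/-! ### Version for an arbitrary finite index type -/

section general

variable {Q : Type*} [Fintype Q]

/-- Hankel matrix of the power sums of `u : Q → R`, of size `n`. -/
def hk_HQ (n : ℕ) (u : Q → R) : Matrix (Fin n) (Fin n) R :=
  Matrix.of fun i j => ∑ q, u q ^ ((i : ℕ) + (j : ℕ))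

theorem hk_HQ_apply (n : ℕ) (u : Q → R) (i j : Fin n) :
    hk_HQ n u i j = ∑ q, u q ^ ((i : ℕ) + (j : ℕ)) := rfl

/-- twisted traces `t j = ∑ q, u q ^ j * f q`. -/
def hk_tQ (n : ℕ) (u f : Q → R) : Fin n → R := fun j => ∑ q, u q ^ (j : ℕ) * f q

theorem hk_tQ_apply (n : ℕ) (u f : Q → R) (j : Fin n) :
    hk_tQ n u f j = ∑ q, u q ^ (j : ℕ) * f q := rfl

theorem hk_HQ_eq {n : ℕ} (e : Q ≃ Fin n) (u : Q → R) :
    hk_HQ n u = hk_H (u ∘ e.symm) := by
  ext i j
  rw [hk_HQ_apply, hk_H_apply]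
  exact (Equiv.sum_comp e.symm (fun q => u q ^ ((i : ℕ) + (j : ℕ)))).symm

theorem hk_tQ_eq {n : ℕ} (e : Q ≃ Fin n) (u f : Q → R) :
    hk_tQ n u f = hk_t (u ∘ e.symm) (f ∘ e.symm) := by
  ext j
  rw [hk_tQ_apply, hk_t_apply]
  exact (Equiv.sum_comp e.symm (fun q => u q ^ (j : ℕ) * f q)).symm

/-- **Interpolation identity**, for a finite index type `Q` with `n` elements. -/
theorem hk_mainQ {n : ℕ} (hn : Fintype.card Q = n) (u f : Q → R) (q : Q) :
    (hk_HQ n u).det * f q =
      ∑ i : Fin n, u q ^ (i : ℕ) * ((hk_HQ n u).adjugate *ᵥ hk_tQ n u f) i := by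
  classical
  let e : Q ≃ Fin n := (Fintype.equivFin Q).trans (finCongr hn)
  rw [hk_HQ_eq e, hk_tQ_eq e]
  have h := hk_main (u ∘ e.symm) (f ∘ e.symm) (e q)
  simpa using h

/-- The Hankel determinant is the square of the Vandermonde product (after enumeration). -/
theorem hk_detQ {n : ℕ} (e : Q ≃ Fin n) (u : Q → R) :
    (hk_HQ n u).det =
      (∏ i : Fin n, ∏ j ∈ Finset.Ioi i, (u (e.symm j) - u (e.symm i))) ^ 2 := by
  rw [hk_HQ_eq e, hk_det]
  rfl

/-- If `R` is a domain and `u` is injective then the Hankel determinant is nonzero. -/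
theorem hk_detQ_ne_zero [IsDomain R] {n : ℕ} (hn : Fintype.card Q = n) (u : Q → R)
    (hu : Function.Injective u) : (hk_HQ n u).det ≠ 0 := by
  classical
  let e : Q ≃ Fin n := (Fintype.equivFin Q).trans (finCongr hn)
  rw [hk_detQ e]
  refine pow_ne_zero _ ?_
  rw [Finset.prod_ne_zero_iff]
  intro i _
  rw [Finset.prod_ne_zero_iff]
  intro j hj
  rw [Finset.mem_Ioi] at hj
  intro h
  have := hu (sub_eq_zero.mp h)
  exact (ne_of_gt hj) (e.symm.injective this)

end general

end Fermat.Agent.S23
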