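import Mathlib

/-!
# S23 (Plan Q), package QRING: the ring of `q`-expandable functions

`qr_ring` is the subring of `ℍ → ℂ` of holomorphic functions, invariant under `τ ↦ τ + 1`, bounded
at `i∞`; `qr_hom : qr_ring →+* PowerSeries ℂ` is the `q`-expansion, an injective ring
homomorphism.  Every modular form on a group having `1` as a strict period belongs to `qr_ring`.
`qr_twist s` is the coefficientwise action of a ring automorphism `s` of `ℂ` on power series.
-/

set_option autoImplicit false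

noncomputable section

namespace Fermat.Agent.S23

open UpperHalfPlane Filter Function Topology
open scoped Manifold MatrixGroups ModularForm

/-- periodicity of `F ∘ ofComplex` from invariance under `τ ↦ 1 + τ` -/
theorem qr_periodic_of_vadd {F : ℍ → ℂ} (hF : ∀ τ : ℍ, F ((1 : ℝ) +ᵥ τ) = F τ) :
    Periodic (F ∘ ofComplex) ((1 : ℝ) : ℂ) := by
  intro w
  by_cases hw : 0 < w.im
  · have hw' : 0 < (w + ((1 : ℝ) : ℂ)).im := by simpa using hw
    simp only [comp_apply, ofComplex_apply_of_im_pos hw', ofComplex_apply_of_im_pos hw]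
    rw [← hF ⟨w, hw⟩]
    congr 1
    ext
    simp [add_comm]
  · have hw0 : w.im ≤ 0 := not_lt.mp hw
    have hw' : (w + ((1 : ℝ) : ℂ)).im ≤ 0 := by simpa using hw0
    simp only [comp_apply]
    rw [ofComplex_apply_of_im_nonpos hw', ofComplex_apply_of_im_nonpos hw0]

theorem qr_vadd_of_periodic {F : ℍ → ℂ} (hF : Periodic (F ∘ ofComplex) ((1 : ℝ) : ℂ)) (τ : ℍ) :
    F ((1 : ℝ) +ᵥ τ) = F τ := by
  have h := hF (τ : ℂ)
  simp only [comp_apply, ofComplex_apply] at h
  rw [← h]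
  have hpos : 0 < ((τ : ℂ) + ((1 : ℝ) : ℂ)).im := by simpa using τ.im_pos
  rw [ofComplex_apply_of_im_pos hpos]
  congr 1
  ext
  simp [add_comm]

/-- The predicate defining `qr_ring`. -/
def qr_IsNice (F : ℍ → ℂ) : Prop :=
  MDiff F ∧ (∀ τ : ℍ, F ((1 : ℝ) +ᵥ τ) = F τ) ∧ IsBoundedAtImInfty F

theorem qr_IsNice.analyticAt {F : ℍ → ℂ} (hF : qr_IsNice F) :
    AnalyticAt ℂ (cuspFunction 1 F) 0 :=
  analyticAt_cuspFunction_zero one_pos (qr_periodic_of_vadd hF.2.1) hF.1 hF.2.2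

/-- The ring of holomorphic, `1`-periodic functions on `ℍ` bounded at `i∞`. -/
def qr_ring : Subring (ℍ → ℂ) where
  carrier := {F | qr_IsNice F}
  mul_mem' {F G} hF hG := ⟨hF.1.mul hG.1, fun τ => by
    simp only [Pi.mul_apply, hF.2.1 τ, hG.2.1 τ], hF.2.2.mul hG.2.2⟩
  one_mem' := ⟨mdifferentiable_const, fun _ => rfl, Filter.const_boundedAtFilter _ (1 : ℂ)⟩
  add_mem' {F G} hF hG := ⟨hF.1.add hG.1, fun τ => by
    simp only [Pi.add_apply, hF.2.1 τ, hG.2.1 τ], hF.2.2.add hG.2.2⟩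
  zero_mem' := ⟨mdifferentiable_const, fun _ => rfl, Filter.const_boundedAtFilter _ (0 : ℂ)⟩
  neg_mem' {F} hF := ⟨hF.1.neg, fun τ => by
    simp only [Pi.neg_apply, hF.2.1 τ], hF.2.2.neg_left⟩

theorem qr_mem_iff {F : ℍ → ℂ} : F ∈ qr_ring ↔ qr_IsNice F := Iff.rfl

theorem qr_mem_iff' {F : ℍ → ℂ} : F ∈ qr_ring ↔
    MDiff F ∧ (∀ τ : ℍ, F ((1 : ℝ) +ᵥ τ) = F τ) ∧ IsBoundedAtImInfty F := Iff.rfl

theorem qr_const_mem (c : ℂ) : (fun _ : ℍ => c) ∈ qr_ring :=
  ⟨mdifferentiable_const, fun _ => rfl, Filter.const_boundedAtFilter _ c⟩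

theorem qr_smul_mem (c : ℂ) {F : ℍ → ℂ} (hF : F ∈ qr_ring) : c • F ∈ qr_ring := by
  have : c • F = (fun _ : ℍ => c) * F := by
    ext τ
    simp
  rw [this]
  exact qr_ring.mul_mem (qr_const_mem c) hF

/-- The `q`-expansion as a ring homomorphism on `qr_ring`. -/
def qr_hom : qr_ring →+* PowerSeries ℂ where
  toFun F := qExpansion 1 (F : ℍ → ℂ)
  map_one' := qExpansion_one 1
  map_mul' F G := qExpansion_mul (qr_IsNice.analyticAt F.2) (qr_IsNice.analyticAt G.2)
  map_zero' := qExpansion_zero 1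
  map_add' F G := qExpansion_add (qr_IsNice.analyticAt F.2) (qr_IsNice.analyticAt G.2)

@[simp]
theorem qr_hom_apply (F : qr_ring) : qr_hom F = qExpansion 1 (F : ℍ → ℂ) := rfl

theorem qr_hom_mk {F : ℍ → ℂ} (hF : F ∈ qr_ring) : qr_hom ⟨F, hF⟩ = qExpansion 1 F := rfl

theorem qr_qExpansion_eq_zero_iff {F : ℍ → ℂ} (hF : F ∈ qr_ring) :
    qExpansion 1 F = 0 ↔ F = 0 :=
  qExpansion_eq_zero_iff one_pos (qr_periodic_of_vadd hF.2.1) hF.1 hF.2.2

theorem qr_hom_injective : Function.Injective qr_hom := by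
  rw [injective_iff_map_eq_zero]
  intro F hF
  have := (qr_qExpansion_eq_zero_iff F.2).mp hF
  exact Subtype.ext this

/-- two elements of `qr_ring` with the same `q`-expansion are equal -/
theorem qr_eq_of_qExpansion_eq {F G : ℍ → ℂ} (hF : F ∈ qr_ring) (hG : G ∈ qr_ring)
    (h : qExpansion 1 F = qExpansion 1 G) : F = G :=
  congrArg Subtype.val (qr_hom_injective (a₁ := ⟨F, hF⟩) (a₂ := ⟨G, hG⟩) h)

theorem qr_qExpansion_mul {F G : ℍ → ℂ} (hF : F ∈ qr_ring) (hG : G ∈ qr_ring) :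
    qExpansion 1 (F * G) = qExpansion 1 F * qExpansion 1 G :=
  qExpansion_mul (qr_IsNice.analyticAt hF) (qr_IsNice.analyticAt hG)

theorem qr_qExpansion_add {F G : ℍ → ℂ} (hF : F ∈ qr_ring) (hG : G ∈ qr_ring) :
    qExpansion 1 (F + G) = qExpansion 1 F + qExpansion 1 G :=
  qExpansion_add (qr_IsNice.analyticAt hF) (qr_IsNice.analyticAt hG)

theorem qr_qExpansion_sub {F G : ℍ → ℂ} (hF : F ∈ qr_ring) (hG : G ∈ qr_ring) :
    qExpansion 1 (F - G) = qExpansion 1 F - qExpansion 1 G :=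
  qExpansion_sub (qr_IsNice.analyticAt hF) (qr_IsNice.analyticAt hG)

theorem qr_qExpansion_neg {F : ℍ → ℂ} (hF : F ∈ qr_ring) :
    qExpansion 1 (-F) = -qExpansion 1 F :=
  qExpansion_neg (qr_IsNice.analyticAt hF)

theorem qr_qExpansion_smul (c : ℂ) {F : ℍ → ℂ} (hF : F ∈ qr_ring) :
    qExpansion 1 (c • F) = c • qExpansion 1 F :=
  qExpansion_smul (qr_IsNice.analyticAt hF) c

theorem qr_qExpansion_pow {F : ℍ → ℂ} (hF : F ∈ qr_ring) (n : ℕ) :
    qExpansion 1 (F ^ n) = qExpansion 1 F ^ n := by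
  have := map_pow qr_hom ⟨F, hF⟩ n
  simpa using this

theorem qr_qExpansion_const (c : ℂ) :
    qExpansion 1 (fun _ : ℍ => c) = PowerSeries.C c := by
  have h1 : (fun _ : ℍ => c) = c • (1 : ℍ → ℂ) := by
    ext τ
    simp
  rw [h1, qr_qExpansion_smul c qr_ring.one_mem, qExpansion_one]
  ext n
  simp [PowerSeries.coeff_C, PowerSeries.coeff_one]

theorem qr_qExpansion_sum {ι : Type*} (s : Finset ι) {F : ι → ℍ → ℂ}
    (hF : ∀ i ∈ s, F i ∈ qr_ring) :
    qExpansion 1 (∑ i ∈ s, F i) = ∑ i ∈ s, qExpansion 1 (F i) := by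
  classical
  induction s using Finset.induction_on with
  | empty => simpa using qExpansion_zero 1
  | insert a s ha ih =>
    rw [Finset.sum_insert ha, Finset.sum_insert ha,
      qr_qExpansion_add (hF a (Finset.mem_insert_self a s))
        (qr_ring.sum_mem fun i hi => hF i (Finset.mem_insert_of_mem hi)),
      ih fun i hi => hF i (Finset.mem_insert_of_mem hi)]

theorem qr_qExpansion_prod {ι : Type*} (s : Finset ι) {F : ι → ℍ → ℂ}
    (hF : ∀ i ∈ s, F i ∈ qr_ring) :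
    qExpansion 1 (∏ i ∈ s, F i) = ∏ i ∈ s, qExpansion 1 (F i) := by
  classical
  induction s using Finset.induction_on with
  | empty => simpa using qExpansion_one 1
  | insert a s ha ih =>
    rw [Finset.prod_insert ha, Finset.prod_insert ha,
      qr_qExpansion_mul (hF a (Finset.mem_insert_self a s))
        (qr_ring.prod_mem fun i hi => hF i (Finset.mem_insert_of_mem hi)),
      ih fun i hi => hF i (Finset.mem_insert_of_mem hi)]

/-- The value of an element of `qr_ring` is the sum of its `q`-expansion. -/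
theorem qr_hasSum {F : ℍ → ℂ} (hF : F ∈ qr_ring) (τ : ℍ) :
    HasSum (fun m : ℕ => (qExpansion 1 F).coeff m • Periodic.qParam 1 τ ^ m) (F τ) :=
  hasSum_qExpansion one_pos (qr_periodic_of_vadd hF.2.1) hF.1 hF.2.2 τ

theorem qr_coeff_zero {F : ℍ → ℂ} (hF : F ∈ qr_ring) :
    (qExpansion 1 F).coeff 0 = valueAtInfty F :=
  qExpansion_coeff_zero one_pos (qr_IsNice.analyticAt hF) (qr_periodic_of_vadd hF.2.1)

theorem qr_tendsto_coeff_zero {F : ℍ → ℂ} (hF : F ∈ qr_ring) :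
    Tendsto F atImInfty (𝓝 ((qExpansion 1 F).coeff 0)) := by
  have han := qr_IsNice.analyticAt hF
  have hper := qr_periodic_of_vadd hF.2.1
  have h0 : (qExpansion 1 F).coeff 0 = cuspFunction 1 F 0 := by
    rw [qr_coeff_zero hF, cuspFunction_apply_zero one_pos han hper]
  have hcomp : (cuspFunction 1 F ∘ fun τ : ℍ => Periodic.qParam 1 τ) = F := by
    funext τ
    simpa using eq_cuspFunction τ one_ne_zero hper
  rw [h0]
  have := han.continuousAt.tendsto.comp (qParam_tendsto_atImInfty one_pos)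
  rwa [hcomp] at this

/-- An element of `qr_ring` vanishes at `i∞` iff its constant `q`-coefficient is zero. -/
theorem qr_isZeroAtImInfty_iff {F : ℍ → ℂ} (hF : F ∈ qr_ring) :
    IsZeroAtImInfty F ↔ (qExpansion 1 F).coeff 0 = 0 := by
  constructor
  · intro h
    rw [qr_coeff_zero hF]
    exact h.valueAtInfty_eq_zero
  · intro h
    have := qr_tendsto_coeff_zero hF
    rw [h] at this
    exact this

/-- Modular forms on a group with strict period `1` lie in `qr_ring`. -/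
theorem qr_mem_of_modularForm {Γ : Subgroup (GL (Fin 2) ℝ)} {k : ℤ} {F : Type*}
    [FunLike F ℍ ℂ] [ModularFormClass F Γ k] (hΓ : (1 : ℝ) ∈ Γ.strictPeriods) (f : F) :
    (f : ℍ → ℂ) ∈ qr_ring := by
  have : Fact (IsCusp OnePoint.infty Γ) := ⟨Γ.isCusp_of_mem_strictPeriods one_pos hΓ⟩
  refine ⟨ModularFormClass.holo f, fun τ => ?_, ModularFormClass.bdd_at_infty f⟩
  exact SlashInvariantForm.vAdd_apply_of_mem_strictPeriods f τ hΓ

theorem qr_mem_of_cuspForm {Γ : Subgroup (GL (Fin 2) ℝ)} {k : ℤ} {F : Type*}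
    [FunLike F ℍ ℂ] [CuspFormClass F Γ k] (hΓ : (1 : ℝ) ∈ Γ.strictPeriods) (f : F) :
    (f : ℍ → ℂ) ∈ qr_ring := by
  have : Fact (IsCusp OnePoint.infty Γ) := ⟨Γ.isCusp_of_mem_strictPeriods one_pos hΓ⟩
  refine ⟨CuspFormClass.holo f, fun τ => ?_, (CuspFormClass.zero_at_infty f).isBoundedAtImInfty⟩
  exact SlashInvariantForm.vAdd_apply_of_mem_strictPeriods f τ hΓ

/-! ### Twisting power series by a ring automorphism of `ℂ` -/

/-- coefficientwise action of a ring automorphism of `ℂ` on power series -/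
def qr_twist (s : ℂ ≃+* ℂ) : PowerSeries ℂ →+* PowerSeries ℂ :=
  PowerSeries.map (s : ℂ →+* ℂ)

@[simp]
theorem qr_twist_coeff (s : ℂ ≃+* ℂ) (φ : PowerSeries ℂ) (n : ℕ) :
    (qr_twist s φ).coeff n = s (φ.coeff n) := by
  simp [qr_twist, PowerSeries.coeff_map]

theorem qr_twist_injective (s : ℂ ≃+* ℂ) : Function.Injective (qr_twist s) := by
  intro φ ψ h
  ext n
  have := congrArg (fun χ : PowerSeries ℂ => χ.coeff n) h
  simp only [qr_twist_coeff] at this
  exact s.injective this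

theorem qr_twist_symm_twist (s : ℂ ≃+* ℂ) (φ : PowerSeries ℂ) :
    qr_twist s.symm (qr_twist s φ) = φ := by
  ext n
  simp

theorem qr_twist_twist_symm (s : ℂ ≃+* ℂ) (φ : PowerSeries ℂ) :
    qr_twist s (qr_twist s.symm φ) = φ := by
  ext n
  simp

/-- A power series with rational coefficients is fixed by every twist. -/
theorem qr_twist_eq_self_of_rat (s : ℂ ≃+* ℂ) {φ : PowerSeries ℂ}
    (hφ : ∀ n, ∃ r : ℚ, φ.coeff n = (r : ℂ)) : qr_twist s φ = φ := by
  ext n
  obtain ⟨r, hr⟩ := hφ n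
  rw [qr_twist_coeff, hr]
  exact map_ratCast s r

theorem qr_twist_eq_self_of_int (s : ℂ ≃+* ℂ) {φ : PowerSeries ℂ}
    (hφ : ∀ n, ∃ m : ℤ, φ.coeff n = (m : ℂ)) : qr_twist s φ = φ := by
  refine qr_twist_eq_self_of_rat s fun n => ?_
  obtain ⟨m, hm⟩ := hφ n
  exact ⟨(m : ℚ), by rw [hm]; simp⟩

theorem qr_twist_C (s : ℂ ≃+* ℂ) (c : ℂ) :
    qr_twist s (PowerSeries.C c) = PowerSeries.C (s c) := by
  simp [qr_twist]

theorem qr_twist_X (s : ℂ ≃+* ℂ) : qr_twist s PowerSeries.X = PowerSeries.X := by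
  simp [qr_twist]

/-- cancellation in `qr_ring` through `q`-expansions: if `G ≠ 0` and the `q`-expansions satisfy
`φ * qexp G = qexp A` and `F * G = A`, then `qexp F = φ`. -/
theorem qr_qExpansion_eq_of_mul_eq {F G A : ℍ → ℂ} (hF : F ∈ qr_ring) (hG : G ∈ qr_ring)
    (hG0 : G ≠ 0) (hFG : F * G = A) {φ : PowerSeries ℂ}
    (hφ : φ * qExpansion 1 G = qExpansion 1 A) : qExpansion 1 F = φ := by
  have h1 : qExpansion 1 F * qExpansion 1 G = qExpansion 1 A := by
    rw [← qr_qExpansion_mul hF hG, hFG]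
  have hG' : qExpansion 1 G ≠ 0 := fun h => hG0 ((qr_qExpansion_eq_zero_iff hG).mp h)
  exact mul_right_cancel₀ hG' (h1.trans hφ.symm)

end Fermat.Agent.S23
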