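import Mathlib
import Fermat.Agent.S23.QRing
import Fermat.Agent.S23.Hankel

/-!
# S23 (Plan Q), package INTERP-A: conjugates, traces and the diagonal trick

* `cj_mkModularForm`, `cj_mkCuspForm`: bundle a holomorphic `SL(2,ℤ)`-invariant function bounded
  (zero) at `i∞` into a level-one modular (cusp) form.
* `cj_conj f q`: the conjugates of a form on `Γ₀(N)` (Mathlib's `quotientFunc`), with their
  basic properties.
* `cj_exists_trace_pow`, `cj_exists_trace_pow_mul`: the power sums `∑ q, u_q ^ m` and the twisted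
  traces `∑ q, u_q ^ j * f_q` are level-one modular (cusp) forms.
* `cj_diag_det`, `cj_diag_adj`: the diagonal trick (pure algebra).
* `cj_slash_det`, `cj_slash_adj`: slash-invariance of `B = det H` and
  `A = ∑ i, u ^ i * (adj H *ᵥ t) i` for arbitrary families of level-one forms.
-/

set_option autoImplicit false
set_option linter.unusedSectionVars false

noncomputable section

namespace Fermat.Agent.S23

open UpperHalfPlane Filter Function Topology CongruenceSubgroup Matrix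
open scoped Manifold MatrixGroups ModularForm

/-! ## Part 1: pointwise form of slash-invariance for `SL(2,ℤ)` -/

/-- the automorphy factor of `γ : SL(2,ℤ)` at `τ` -/
def cj_denom (γ : SL(2, ℤ)) (τ : ℍ) : ℂ :=
  denom (Matrix.SpecialLinearGroup.toGL ((Matrix.SpecialLinearGroup.map (Int.castRingHom ℝ)) γ)) τ

theorem cj_denom_ne_zero (γ : SL(2, ℤ)) (τ : ℍ) : cj_denom γ τ ≠ 0 :=
  denom_ne_zero _ τ

theorem cj_slash_apply (F : ℍ → ℂ) (w : ℤ) (γ : SL(2, ℤ)) (τ : ℍ) :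
    (F ∣[w] γ) τ = F (γ • τ) * cj_denom γ τ ^ (-w) :=
  ModularForm.SL_slash_apply F γ τ

/-- `F ∣[w] γ = F` iff `F (γ τ) = (c τ + d) ^ w * F τ` for all `τ`. -/
theorem cj_slash_eq_iff (F : ℍ → ℂ) (w : ℤ) (γ : SL(2, ℤ)) :
    F ∣[w] γ = F ↔ ∀ τ : ℍ, F (γ • τ) = cj_denom γ τ ^ w * F τ := by
  constructor
  · intro h τ
    have h1 := congrFun h τ
    rw [cj_slash_apply] at h1
    rw [← h1, mul_comm, mul_assoc, ← zpow_add₀ (cj_denom_ne_zero γ τ)]
    simp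
  · intro h
    ext τ
    rw [cj_slash_apply, h τ, mul_comm, ← mul_assoc, ← zpow_add₀ (cj_denom_ne_zero γ τ)]
    simp

theorem cj_slash_mul (F G : ℍ → ℂ) (a b : ℤ) (γ : SL(2, ℤ)) :
    (F * G) ∣[a + b] γ = (F ∣[a] γ) * (G ∣[b] γ) :=
  ModularForm.mul_slash_SL2 a b γ F G

theorem cj_slash_one_fun (γ : SL(2, ℤ)) : (1 : ℍ → ℂ) ∣[(0 : ℤ)] γ = 1 := by
  ext τ
  rw [cj_slash_apply]
  simp

theorem cj_slash_pow (F : ℍ → ℂ) (a : ℤ) (m : ℕ) (γ : SL(2, ℤ)) :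
    (F ^ m) ∣[a * m] γ = (F ∣[a] γ) ^ m := by
  induction m with
  | zero => simpa using cj_slash_one_fun γ
  | succ m ih =>
    have : a * ((m + 1 : ℕ) : ℤ) = a * m + a := by push_cast; ring
    rw [this, pow_succ, cj_slash_mul, ih, pow_succ]

theorem cj_slash_sum {ι : Type*} (s : Finset ι) (F : ι → ℍ → ℂ) (w : ℤ) (γ : SL(2, ℤ)) :
    (∑ i ∈ s, F i) ∣[w] γ = ∑ i ∈ s, (F i ∣[w] γ) :=
  SlashAction.sum_slash w γ

/-! ## Part 2: bundling level-one forms -/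

theorem cj_slash_eq_of_mem_SL {F : ℍ → ℂ} {w : ℤ} (hinv : ∀ γ : SL(2, ℤ), F ∣[w] γ = F)
    (g : GL (Fin 2) ℝ) (hg : g ∈ 𝒮ℒ) : F ∣[w] g = F := by
  obtain ⟨γ, rfl⟩ := hg
  have := hinv γ
  rwa [ModularForm.SL_slash] at this

/-- A holomorphic function, invariant of weight `w` under `SL(2,ℤ)` and bounded at `i∞`, is a
level-one modular form. -/
theorem cj_mkModularForm {F : ℍ → ℂ} {w : ℤ} (hF : MDiff F)
    (hinv : ∀ γ : SL(2, ℤ), F ∣[w] γ = F) (hbdd : IsBoundedAtImInfty F) :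
    ∃ G : ModularForm 𝒮ℒ w, ⇑G = F := by
  refine ⟨{ toFun := F
            slash_action_eq' := fun g hg => cj_slash_eq_of_mem_SL hinv g hg
            holo' := hF
            bdd_at_cusps' := fun {c} hc => ?_ }, rfl⟩
  rw [OnePoint.isBoundedAt_iff_forall_SL2Z hc]
  intro γ _
  rw [hinv γ]
  exact hbdd

/-- A holomorphic function, invariant of weight `w` under `SL(2,ℤ)` and zero at `i∞`, is a
level-one cusp form. -/
theorem cj_mkCuspForm {F : ℍ → ℂ} {w : ℤ} (hF : MDiff F)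
    (hinv : ∀ γ : SL(2, ℤ), F ∣[w] γ = F) (hzero : IsZeroAtImInfty F) :
    ∃ G : CuspForm 𝒮ℒ w, ⇑G = F := by
  refine ⟨{ toFun := F
            slash_action_eq' := fun g hg => cj_slash_eq_of_mem_SL hinv g hg
            holo' := hF
            zero_at_cusps' := fun {c} hc => ?_ }, rfl⟩
  rw [OnePoint.isZeroAt_iff_forall_SL2Z hc]
  intro γ _
  rw [hinv γ]
  exact hzero

theorem cj_slash_eq_of_modularForm {w : ℤ} (G : ModularForm 𝒮ℒ w) (γ : SL(2, ℤ)) :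
    (⇑G) ∣[w] γ = ⇑G := by
  rw [ModularForm.SL_slash]
  exact SlashInvariantForm.slash_action_eqn G _ ⟨γ, rfl⟩

theorem cj_slash_eq_of_cuspForm {w : ℤ} (G : CuspForm 𝒮ℒ w) (γ : SL(2, ℤ)) :
    (⇑G) ∣[w] γ = ⇑G := by
  rw [ModularForm.SL_slash]
  exact SlashInvariantForm.slash_action_eqn G _ ⟨γ, rfl⟩

/-! ## Part 3: conjugates of forms on `Γ₀(N)` -/

section conj

variable (N : ℕ) [NeZero N]

/-- the coset space `SL(2,ℤ) / Γ₀(N)` in the form used by Mathlib's norm and trace maps -/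
abbrev cj_Q : Type :=
  ↥𝒮ℒ ⧸ ((Gamma0 N : Subgroup (GL (Fin 2) ℝ)).subgroupOf 𝒮ℒ)

instance cj_instFintypeQ : Fintype (cj_Q N) := Fintype.ofFinite _

/-- the index of `Γ₀(N)` in `SL(2,ℤ)` -/
def cj_index : ℕ := Fintype.card (cj_Q N)

theorem cj_index_pos : 0 < cj_index N :=
  Fintype.card_pos_iff.mpr ⟨(QuotientGroup.mk (1 : ↥𝒮ℒ) : cj_Q N)⟩

/-- the element of `𝒮ℒ` attached to `γ : SL(2,ℤ)` -/
def cj_toSL (γ : SL(2, ℤ)) : ↥𝒮ℒ := ⟨Matrix.SpecialLinearGroup.mapGL ℝ γ, ⟨γ, rfl⟩⟩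

/-- the base coset -/
def cj_one : cj_Q N := (QuotientGroup.mk (1 : ↥𝒮ℒ) : cj_Q N)

variable {N}
variable {k : ℤ} {F : Type*} [FunLike F ℍ ℂ]

/-- The conjugates `f_q = f ∣[k] h⁻¹` (`q = h Γ₀(N)`) of a form on `Γ₀(N)`. -/
def cj_conj [SlashInvariantFormClass F (Gamma0 N : Subgroup (GL (Fin 2) ℝ)) k] (f : F)
    (q : cj_Q N) : ℍ → ℂ :=
  SlashInvariantForm.quotientFunc f q

theorem cj_conj_one [SlashInvariantFormClass F (Gamma0 N : Subgroup (GL (Fin 2) ℝ)) k] (f : F) :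
    cj_conj f (cj_one N) = ⇑f := by
  show SlashInvariantForm.quotientFunc f ⟦(1 : ↥𝒮ℒ)⟧ = ⇑f
  rw [SlashInvariantForm.quotientFunc_mk]
  simp

theorem cj_conj_slash [SlashInvariantFormClass F (Gamma0 N : Subgroup (GL (Fin 2) ℝ)) k] (f : F)
    (γ : SL(2, ℤ)) (q : cj_Q N) :
    cj_conj f q ∣[k] γ = cj_conj f ((cj_toSL γ)⁻¹ • q) := by
  rw [ModularForm.SL_slash]
  exact SlashInvariantForm.quotientFunc_smul f (cj_toSL γ).2 q

theorem cj_conj_exists_slash [SlashInvariantFormClass F (Gamma0 N : Subgroup (GL (Fin 2) ℝ)) k]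
    (f : F) (q : cj_Q N) : ∃ γ : SL(2, ℤ), cj_conj f q = ⇑f ∣[k] γ := by
  induction q using Quotient.inductionOn with
  | h r =>
    obtain ⟨γ, hγ⟩ := r.2
    refine ⟨γ⁻¹, ?_⟩
    show SlashInvariantForm.quotientFunc f ⟦r⟧ = _
    rw [SlashInvariantForm.quotientFunc_mk, ModularForm.SL_slash]
    congr 1
    rw [← hγ]
    simp [Matrix.SpecialLinearGroup.mapGL]

theorem cj_isBoundedAtImInfty_slash
    [ModularFormClass F (Gamma0 N : Subgroup (GL (Fin 2) ℝ)) k] (f : F) (γ : SL(2, ℤ)) :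
    IsBoundedAtImInfty (⇑f ∣[k] γ) := by
  have hc : IsCusp (Matrix.SpecialLinearGroup.mapGL ℝ γ • OnePoint.infty)
      (Gamma0 N : Subgroup (GL (Fin 2) ℝ)) :=
    (Subgroup.IsArithmetic.isCusp_iff_isCusp_SL2Z _).mpr (isCusp_SL2Z_iff'.mpr ⟨γ, rfl⟩)
  have := ModularFormClass.bdd_at_cusps f hc (Matrix.SpecialLinearGroup.mapGL ℝ γ) rfl
  rwa [ModularForm.SL_slash]

theorem cj_isZeroAtImInfty_slash
    [CuspFormClass F (Gamma0 N : Subgroup (GL (Fin 2) ℝ)) k] (f : F) (γ : SL(2, ℤ)) :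
    IsZeroAtImInfty (⇑f ∣[k] γ) := by
  have hc : IsCusp (Matrix.SpecialLinearGroup.mapGL ℝ γ • OnePoint.infty)
      (Gamma0 N : Subgroup (GL (Fin 2) ℝ)) :=
    (Subgroup.IsArithmetic.isCusp_iff_isCusp_SL2Z _).mpr (isCusp_SL2Z_iff'.mpr ⟨γ, rfl⟩)
  have := CuspFormClass.zero_at_cusps f hc (Matrix.SpecialLinearGroup.mapGL ℝ γ) rfl
  rwa [ModularForm.SL_slash]

theorem cj_conj_mdiff [ModularFormClass F (Gamma0 N : Subgroup (GL (Fin 2) ℝ)) k] (f : F)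
    (q : cj_Q N) : MDiff (cj_conj f q) := by
  obtain ⟨γ, hγ⟩ := cj_conj_exists_slash f q
  rw [hγ, ModularForm.SL_slash]
  exact (ModularFormClass.holo f).slash k _

theorem cj_conj_mdiff' [CuspFormClass F (Gamma0 N : Subgroup (GL (Fin 2) ℝ)) k] (f : F)
    (q : cj_Q N) : MDiff (cj_conj f q) := by
  obtain ⟨γ, hγ⟩ := cj_conj_exists_slash f q
  rw [hγ, ModularForm.SL_slash]
  exact (CuspFormClass.holo f).slash k _

theorem cj_conj_isBoundedAtImInfty [ModularFormClass F (Gamma0 N : Subgroup (GL (Fin 2) ℝ)) k]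
    (f : F) (q : cj_Q N) : IsBoundedAtImInfty (cj_conj f q) := by
  obtain ⟨γ, hγ⟩ := cj_conj_exists_slash f q
  rw [hγ]
  exact cj_isBoundedAtImInfty_slash f γ

theorem cj_conj_isZeroAtImInfty [CuspFormClass F (Gamma0 N : Subgroup (GL (Fin 2) ℝ)) k]
    (f : F) (q : cj_Q N) : IsZeroAtImInfty (cj_conj f q) := by
  obtain ⟨γ, hγ⟩ := cj_conj_exists_slash f q
  rw [hγ]
  exact cj_isZeroAtImInfty_slash f γ

/-! ## Part 4: power sums and twisted traces are level-one forms -/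

theorem cj_mdiff_sum {ι : Type*} (s : Finset ι) {G : ι → ℍ → ℂ} (hG : ∀ i ∈ s, MDiff (G i)) :
    MDiff (∑ i ∈ s, G i) := by
  classical
  induction s using Finset.induction_on with
  | empty =>
    rw [Finset.sum_empty]
    exact (mdifferentiable_const : MDiff (fun _ : ℍ => (0 : ℂ)))
  | insert a s ha ih =>
    rw [Finset.sum_insert ha]
    exact (hG a (Finset.mem_insert_self a s)).add
      (ih fun i hi => hG i (Finset.mem_insert_of_mem hi))

theorem cj_mdiff_pow {G : ℍ → ℂ} (hG : MDiff G) (m : ℕ) : MDiff (G ^ m) := by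
  induction m with
  | zero =>
    rw [pow_zero]
    exact (mdifferentiable_const : MDiff (fun _ : ℍ => (1 : ℂ)))
  | succ m ih =>
    rw [pow_succ]
    exact ih.mul hG

theorem cj_isBounded_sum {ι : Type*} (s : Finset ι) {G : ι → ℍ → ℂ}
    (hG : ∀ i ∈ s, IsBoundedAtImInfty (G i)) : IsBoundedAtImInfty (∑ i ∈ s, G i) :=
  (boundedAtImInftySubalgebra ℂ).sum_mem hG

theorem cj_isBounded_pow {G : ℍ → ℂ} (hG : IsBoundedAtImInfty G) (m : ℕ) :
    IsBoundedAtImInfty (G ^ m) :=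
  (boundedAtImInftySubalgebra ℂ).pow_mem hG m

theorem cj_isZero_sum {ι : Type*} (s : Finset ι) {G : ι → ℍ → ℂ}
    (hG : ∀ i ∈ s, IsZeroAtImInfty (G i)) : IsZeroAtImInfty (∑ i ∈ s, G i) :=
  (zeroAtImInftySubmodule ℂ).sum_mem hG

/-- an equivariant family of weight `w`: `G q ∣[w] γ = G (γ⁻¹ q)` -/
def cj_IsEquivariant (w : ℤ) (G : cj_Q N → ℍ → ℂ) : Prop :=
  ∀ (γ : SL(2, ℤ)) (q : cj_Q N), G q ∣[w] γ = G ((cj_toSL γ)⁻¹ • q)

theorem cj_isEquivariant_conj [SlashInvariantFormClass F (Gamma0 N : Subgroup (GL (Fin 2) ℝ)) k]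
    (f : F) : cj_IsEquivariant k (cj_conj (N := N) f) :=
  fun γ q => cj_conj_slash f γ q

theorem cj_IsEquivariant.mul {a b : ℤ} {G₁ G₂ : cj_Q N → ℍ → ℂ} (h₁ : cj_IsEquivariant a G₁)
    (h₂ : cj_IsEquivariant b G₂) : cj_IsEquivariant (a + b) (fun q => G₁ q * G₂ q) := by
  intro γ q
  rw [cj_slash_mul, h₁ γ q, h₂ γ q]

theorem cj_IsEquivariant.pow {a : ℤ} {G : cj_Q N → ℍ → ℂ} (h : cj_IsEquivariant a G) (m : ℕ) :
    cj_IsEquivariant (a * m) (fun q => G q ^ m) := by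
  intro γ q
  rw [cj_slash_pow, h γ q]

theorem cj_IsEquivariant.sum_slash {w : ℤ} {G : cj_Q N → ℍ → ℂ} (h : cj_IsEquivariant w G)
    (γ : SL(2, ℤ)) : (∑ q, G q) ∣[w] γ = ∑ q, G q := by
  rw [cj_slash_sum]
  simp only [h γ]
  exact Equiv.sum_comp (MulAction.toPerm ((cj_toSL γ)⁻¹ : ↥𝒮ℒ)) G

/-- The power sums of the conjugates of a modular form on `Γ₀(N)` are level-one modular forms. -/
theorem cj_exists_trace_pow {w₀ : ℤ} {U : Type*} [FunLike U ℍ ℂ]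
    [ModularFormClass U (Gamma0 N : Subgroup (GL (Fin 2) ℝ)) w₀] (u : U) (m : ℕ) :
    ∃ S : ModularForm 𝒮ℒ (w₀ * m), ⇑S = ∑ q : cj_Q N, cj_conj u q ^ m := by
  refine cj_mkModularForm ?_ ?_ ?_
  · exact cj_mdiff_sum _ fun q _ => cj_mdiff_pow (cj_conj_mdiff u q) m
  · exact fun γ => ((cj_isEquivariant_conj u).pow m).sum_slash γ
  · exact cj_isBounded_sum _ fun q _ => cj_isBounded_pow (cj_conj_isBoundedAtImInfty u q) m

/-- The twisted traces `∑ q, u_q ^ j * f_q` (`f` a cusp form) are level-one cusp forms. -/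
theorem cj_exists_trace_pow_mul {w₀ : ℤ} {U : Type*} [FunLike U ℍ ℂ]
    [ModularFormClass U (Gamma0 N : Subgroup (GL (Fin 2) ℝ)) w₀] (u : U)
    [CuspFormClass F (Gamma0 N : Subgroup (GL (Fin 2) ℝ)) k] (f : F) (j : ℕ) :
    ∃ T : CuspForm 𝒮ℒ (w₀ * j + k), ⇑T = ∑ q : cj_Q N, cj_conj u q ^ j * cj_conj f q := by
  refine cj_mkCuspForm ?_ ?_ ?_
  · exact cj_mdiff_sum _ fun q _ => (cj_mdiff_pow (cj_conj_mdiff u q) j).mul (cj_conj_mdiff' f q)
  · exact fun γ => (((cj_isEquivariant_conj u).pow j).mul (cj_isEquivariant_conj f)).sum_slash γ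
  · exact cj_isZero_sum _ fun q _ =>
      (cj_isBounded_pow (cj_conj_isBoundedAtImInfty u q) j).mul_zeroAtFilter
        (cj_conj_isZeroAtImInfty f q)

/-- variant with the weight written `k + w₀ * j` -/
theorem cj_exists_trace_pow_mul' {w₀ : ℤ} {U : Type*} [FunLike U ℍ ℂ]
    [ModularFormClass U (Gamma0 N : Subgroup (GL (Fin 2) ℝ)) w₀] (u : U)
    [CuspFormClass F (Gamma0 N : Subgroup (GL (Fin 2) ℝ)) k] (f : F) (j : ℕ) :
    ∃ T : CuspForm 𝒮ℒ (k + w₀ * j), ⇑T = ∑ q : cj_Q N, cj_conj u q ^ j * cj_conj f q := by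
  rw [add_comm]
  exact cj_exists_trace_pow_mul u f j

/-- the twisted traces as level-one modular forms -/
theorem cj_exists_trace_pow_mul_modularForm {w₀ : ℤ} {U : Type*} [FunLike U ℍ ℂ]
    [ModularFormClass U (Gamma0 N : Subgroup (GL (Fin 2) ℝ)) w₀] (u : U)
    [CuspFormClass F (Gamma0 N : Subgroup (GL (Fin 2) ℝ)) k] (f : F) (j : ℕ) :
    ∃ T : ModularForm 𝒮ℒ (k + w₀ * j), ⇑T = ∑ q : cj_Q N, cj_conj u q ^ j * cj_conj f q := by
  obtain ⟨T, hT⟩ := cj_exists_trace_pow_mul' u f j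
  exact ⟨ModularFormClass.modularForm T, hT⟩

end conj

/-! ## Part 5: the interpolation expressions `A`, `B` in an arbitrary commutative ring -/

section generic

variable {R : Type*} [CommRing R] {R' : Type*} [CommRing R']

/-- the Hankel matrix `(S (i + j))` of a sequence -/
def cj_H (n : ℕ) (S : ℕ → R) : Matrix (Fin n) (Fin n) R :=
  Matrix.of fun i j => S ((i : ℕ) + (j : ℕ))

/-- `B = det (S (i + j))` -/
def cj_B (n : ℕ) (S : ℕ → R) : R := (cj_H n S).det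

/-- `A = ∑ i, u ^ i * (adj (S (i + j)) *ᵥ T) i` -/
def cj_A (n : ℕ) (u : R) (S T : ℕ → R) : R :=
  ∑ i : Fin n, u ^ (i : ℕ) * ((cj_H n S).adjugate *ᵥ fun j : Fin n => T (j : ℕ)) i

theorem cj_H_map (φ : R →+* R') (n : ℕ) (S : ℕ → R) :
    φ.mapMatrix (cj_H n S) = cj_H n (fun m => φ (S m)) := by
  ext i j
  simp [cj_H]

theorem cj_B_map (φ : R →+* R') (n : ℕ) (S : ℕ → R) :
    φ (cj_B n S) = cj_B n (fun m => φ (S m)) := by
  rw [cj_B, RingHom.map_det, cj_H_map, cj_B]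

theorem cj_A_map (φ : R →+* R') (n : ℕ) (u : R) (S T : ℕ → R) :
    φ (cj_A n u S T) = cj_A n (φ u) (fun m => φ (S m)) (fun m => φ (T m)) := by
  simp only [cj_A, map_sum, map_mul, map_pow, Matrix.mulVec, dotProduct]
  refine Finset.sum_congr rfl fun i _ => ?_
  congr 1
  refine Finset.sum_congr rfl fun j _ => ?_
  congr 1
  have := congrFun (congrFun (RingHom.map_adjugate φ (cj_H n S)) i) j
  rw [cj_H_map] at this
  simpa using this

/-- The interpolation identity in terms of `cj_A`, `cj_B`: for a finite family `(u_q, f_q)` with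
`n` members, `S m = ∑ q, u_q ^ m` and `T j = ∑ q, u_q ^ j * f_q` one has `B * f_q = A(u_q)`. -/
theorem cj_interp_identity {Q : Type*} [Fintype Q] {n : ℕ} (hn : Fintype.card Q = n)
    (u f : Q → R) (q : Q) :
    cj_B n (fun m => ∑ q, u q ^ m) * f q =
      cj_A n (u q) (fun m => ∑ q, u q ^ m) (fun j => ∑ q, u q ^ j * f q) :=
  hk_mainQ hn u f q

theorem cj_B_eq_hk {Q : Type*} [Fintype Q] (n : ℕ) (u : Q → R) :
    cj_B n (fun m => ∑ q, u q ^ m) = (hk_HQ n u).det := rfl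

/-! ### the diagonal trick -/

theorem cj_diag_matrix (n : ℕ) (d : Fin n → R) (M : Matrix (Fin n) (Fin n) R) :
    (Matrix.of fun i j => d i * d j * M i j) = Matrix.diagonal d * M * Matrix.diagonal d := by
  ext i j
  simp [Matrix.mul_apply, Matrix.diagonal_apply, mul_comm, mul_left_comm]

theorem cj_diag_det (n : ℕ) (d : Fin n → R) (M : Matrix (Fin n) (Fin n) R) :
    (Matrix.of fun i j => d i * d j * M i j).det = (∏ i, d i) ^ 2 * M.det := by
  rw [cj_diag_matrix, Matrix.det_mul, Matrix.det_mul, Matrix.det_diagonal]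
  ring

theorem cj_diag_adj (n : ℕ) (d : Fin n → R) (M : Matrix (Fin n) (Fin n) R) (r t : Fin n → R)
    (c : R) :
    ∑ i, (d i * r i) *
        ((Matrix.of fun i j => d i * d j * M i j).adjugate *ᵥ fun j => c * (d j * t j)) i =
      c * (∏ i, d i) ^ 2 * ∑ i, r i * (M.adjugate *ᵥ t) i := by
  set D := Matrix.diagonal d with hD
  have hadj : (Matrix.of fun i j => d i * d j * M i j).adjugate =
      D.adjugate * (M.adjugate * D.adjugate) := by
    rw [cj_diag_matrix, Matrix.adjugate_mul_distrib, Matrix.adjugate_mul_distrib]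
  have hr : (fun i => d i * r i) = Matrix.vecMul r D := by
    ext i
    simp [hD, Matrix.vecMul_diagonal, mul_comm]
  have ht : (fun j => c * (d j * t j)) = c • (D *ᵥ t) := by
    ext j
    simp [hD, Matrix.mulVec_diagonal]
  have hlhs : ∑ i, (d i * r i) *
        ((Matrix.of fun i j => d i * d j * M i j).adjugate *ᵥ fun j => c * (d j * t j)) i =
      (Matrix.vecMul r D) ⬝ᵥ ((D.adjugate * (M.adjugate * D.adjugate)) *ᵥ (c • (D *ᵥ t))) := by
    rw [hadj, ← hr, ← ht]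
    rfl
  have hrhs : ∑ i, r i * (M.adjugate *ᵥ t) i = r ⬝ᵥ (M.adjugate *ᵥ t) := rfl
  rw [hlhs, hrhs, Matrix.mulVec_smul, dotProduct_smul, Matrix.mulVec_mulVec,
    ← Matrix.dotProduct_mulVec, Matrix.mulVec_mulVec]
  have hmat : D * (D.adjugate * (M.adjugate * D.adjugate) * D) =
      ((∏ i, d i) ^ 2) • M.adjugate := by
    have h1 : D * (D.adjugate * (M.adjugate * D.adjugate) * D) =
        (D * D.adjugate) * M.adjugate * (D.adjugate * D) := by
      simp only [Matrix.mul_assoc]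
    rw [h1, Matrix.mul_adjugate, Matrix.adjugate_mul, hD, Matrix.det_diagonal]
    simp [smul_smul, sq]
  rw [hmat, Matrix.smul_mulVec, dotProduct_smul]
  simp only [smul_eq_mul]
  ring

end generic

/-! ## Part 6: slash-invariance of `A` and `B` -/

section slash

theorem cj_sum_fin_mul_two (n : ℕ) : (∑ i : Fin n, (i : ℕ)) * 2 = n * (n - 1) := by
  rw [Fin.sum_univ_eq_sum_range (fun i => i) n]
  exact Finset.sum_range_id_mul_two n

theorem cj_prod_pow_sq (μ : ℂ) (n : ℕ) :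
    (∏ i : Fin n, μ ^ (i : ℕ)) ^ 2 = μ ^ (n * (n - 1)) := by
  rw [Finset.prod_pow_eq_pow_sum, ← pow_mul, cj_sum_fin_mul_two]

theorem cj_eval_of_slash {G : ℍ → ℂ} {w₀ : ℤ} {m : ℕ} {γ : SL(2, ℤ)}
    (h : G ∣[w₀ * m] γ = G) (τ : ℍ) :
    G (γ • τ) = (cj_denom γ τ ^ w₀) ^ m * G τ := by
  rw [(cj_slash_eq_iff G _ γ).mp h τ, _root_.zpow_mul, zpow_natCast]

theorem cj_eval_of_slash' {G : ℍ → ℂ} {w₀ k : ℤ} {m : ℕ} {γ : SL(2, ℤ)}
    (h : G ∣[w₀ * m + k] γ = G) (τ : ℍ) :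
    G (γ • τ) = cj_denom γ τ ^ k * ((cj_denom γ τ ^ w₀) ^ m * G τ) := by
  rw [(cj_slash_eq_iff G _ γ).mp h τ, zpow_add₀ (cj_denom_ne_zero γ τ), _root_.zpow_mul, zpow_natCast]
  ring

/-- `B = det (S (i + j))` is invariant of weight `w₀ n (n - 1)` if `S m` has weight `w₀ m`. -/
theorem cj_B_slash {w₀ : ℤ} (n : ℕ) {S : ℕ → ℍ → ℂ} (γ : SL(2, ℤ))
    (hS : ∀ m : ℕ, S m ∣[w₀ * m] γ = S m) :
    cj_B n S ∣[w₀ * ((n * (n - 1) : ℕ) : ℤ)] γ = cj_B n S := by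
  rw [cj_slash_eq_iff]
  intro τ
  set μ : ℂ := cj_denom γ τ ^ w₀ with hμ
  have h1 : cj_B n S (γ • τ) = cj_B n (fun m => S m (γ • τ)) :=
    cj_B_map (Pi.evalRingHom (fun _ : ℍ => ℂ) (γ • τ)) n S
  have h2 : cj_B n S τ = cj_B n (fun m => S m τ) :=
    cj_B_map (Pi.evalRingHom (fun _ : ℍ => ℂ) τ) n S
  have h3 : cj_H n (fun m => S m (γ • τ)) =
      Matrix.of fun i j : Fin n => μ ^ (i : ℕ) * μ ^ (j : ℕ) * (cj_H n (fun m => S m τ)) i j := by
    ext i j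
    simp only [cj_H, Matrix.of_apply]
    rw [cj_eval_of_slash (hS _) τ, pow_add]
  rw [h1, h2, cj_B, h3, cj_diag_det, cj_prod_pow_sq, ← cj_B, _root_.zpow_mul, zpow_natCast]

/-- `A = ∑ i, u ^ i * (adj (S (i + j)) *ᵥ T) i` is invariant of weight `w₀ n (n - 1) + k` under
every `γ` fixing `u` (weight `w₀`), `S m` (weight `w₀ m`) and `T j` (weight `w₀ j + k`). -/
theorem cj_A_slash {w₀ k : ℤ} (n : ℕ) {u : ℍ → ℂ} {S T : ℕ → ℍ → ℂ} (γ : SL(2, ℤ))
    (hu : u ∣[w₀] γ = u) (hS : ∀ m : ℕ, S m ∣[w₀ * m] γ = S m)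
    (hT : ∀ j : ℕ, T j ∣[w₀ * j + k] γ = T j) :
    cj_A n u S T ∣[w₀ * ((n * (n - 1) : ℕ) : ℤ) + k] γ = cj_A n u S T := by
  rw [cj_slash_eq_iff]
  intro τ
  set μ : ℂ := cj_denom γ τ ^ w₀ with hμ
  have h1 : cj_A n u S T (γ • τ) =
      cj_A n (u (γ • τ)) (fun m => S m (γ • τ)) (fun m => T m (γ • τ)) :=
    cj_A_map (Pi.evalRingHom (fun _ : ℍ => ℂ) (γ • τ)) n u S T
  have h2 : cj_A n u S T τ = cj_A n (u τ) (fun m => S m τ) (fun m => T m τ) :=
    cj_A_map (Pi.evalRingHom (fun _ : ℍ => ℂ) τ) n u S T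
  have h3 : cj_H n (fun m => S m (γ • τ)) =
      Matrix.of fun i j : Fin n => μ ^ (i : ℕ) * μ ^ (j : ℕ) * (cj_H n (fun m => S m τ)) i j := by
    ext i j
    simp only [cj_H, Matrix.of_apply]
    rw [cj_eval_of_slash (hS _) τ, pow_add]
  have hu' : u (γ • τ) = μ * u τ := (cj_slash_eq_iff u _ γ).mp hu τ
  have h4 : (fun j : Fin n => T (j : ℕ) (γ • τ)) =
      fun j : Fin n => cj_denom γ τ ^ k * (μ ^ (j : ℕ) * T (j : ℕ) τ) := by
    ext j
    exact cj_eval_of_slash' (hT _) τ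
  rw [h1, h2]
  simp only [cj_A]
  rw [h3, h4]
  have h5 : ∀ i : Fin n, u (γ • τ) ^ (i : ℕ) = μ ^ (i : ℕ) * u τ ^ (i : ℕ) := by
    intro i
    rw [hu', mul_pow]
  simp only [h5]
  rw [cj_diag_adj n (fun i : Fin n => μ ^ (i : ℕ)) (cj_H n fun m => S m τ)
    (fun i : Fin n => u τ ^ (i : ℕ)) (fun j : Fin n => T (j : ℕ) τ) (cj_denom γ τ ^ k),
    cj_prod_pow_sq, zpow_add₀ (cj_denom_ne_zero γ τ), _root_.zpow_mul, zpow_natCast]
  ring

end slash

/-! ## Part 7: `A` and `B` in `qr_ring`, and their `q`-expansions -/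

section qexp

theorem cj_B_mem (n : ℕ) {S : ℕ → ℍ → ℂ} (hS : ∀ m, S m ∈ qr_ring) : cj_B n S ∈ qr_ring := by
  have := cj_B_map qr_ring.subtype n (fun m => (⟨S m, hS m⟩ : qr_ring))
  simp only [Subring.coe_subtype] at this
  rw [← this]
  exact Subtype.mem _

theorem cj_A_mem (n : ℕ) {u : ℍ → ℂ} {S T : ℕ → ℍ → ℂ} (hu : u ∈ qr_ring)
    (hS : ∀ m, S m ∈ qr_ring) (hT : ∀ m, T m ∈ qr_ring) : cj_A n u S T ∈ qr_ring := by
  have := cj_A_map qr_ring.subtype n (⟨u, hu⟩ : qr_ring) (fun m => (⟨S m, hS m⟩ : qr_ring))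
    (fun m => (⟨T m, hT m⟩ : qr_ring))
  simp only [Subring.coe_subtype] at this
  rw [← this]
  exact Subtype.mem _

theorem cj_B_qExpansion (n : ℕ) {S : ℕ → ℍ → ℂ} (hS : ∀ m, S m ∈ qr_ring) :
    qExpansion 1 (cj_B n S) = cj_B n (fun m => qExpansion 1 (S m)) := by
  have h1 := cj_B_map qr_ring.subtype n (fun m => (⟨S m, hS m⟩ : qr_ring))
  simp only [Subring.coe_subtype] at h1
  have h2 := cj_B_map qr_hom n (fun m => (⟨S m, hS m⟩ : qr_ring))
  rw [← h1, ← qr_hom_apply, h2]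
  rfl

theorem cj_A_qExpansion (n : ℕ) {u : ℍ → ℂ} {S T : ℕ → ℍ → ℂ} (hu : u ∈ qr_ring)
    (hS : ∀ m, S m ∈ qr_ring) (hT : ∀ m, T m ∈ qr_ring) :
    qExpansion 1 (cj_A n u S T) =
      cj_A n (qExpansion 1 u) (fun m => qExpansion 1 (S m)) (fun m => qExpansion 1 (T m)) := by
  have h1 := cj_A_map qr_ring.subtype n (⟨u, hu⟩ : qr_ring) (fun m => (⟨S m, hS m⟩ : qr_ring))
    (fun m => (⟨T m, hT m⟩ : qr_ring))
  simp only [Subring.coe_subtype] at h1
  have h2 := cj_A_map qr_hom n (⟨u, hu⟩ : qr_ring) (fun m => (⟨S m, hS m⟩ : qr_ring))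
    (fun m => (⟨T m, hT m⟩ : qr_ring))
  rw [← h1, ← qr_hom_apply, h2]
  rfl

end qexp

end Fermat.Agent.S23
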