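import Mathlib

/-!
# S23, package LEVELONE: twisting level-one modular forms by ring endomorphisms of `ℂ`

For every ring homomorphism `s : ℂ →+* ℂ` and every level-one modular form `f` of weight `k`
there is a level-one modular form `f'` of weight `k` whose `q`-expansion is obtained from the
`q`-expansion of `f` by applying `s` to all coefficients.
-/

set_option autoImplicit false

noncomputable section

namespace Fermat.Agent.S23

open UpperHalfPlane ModularForm ModularFormClass MatrixGroups EisensteinSeries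

/-- The `q`-expansion of a normalised Eisenstein series of level one has rational coefficients,
hence is fixed by every ring endomorphism of `ℂ`. -/
theorem lo_map_qExpansion_E (s : ℂ →+* ℂ) {k : ℕ} (hk : 3 ≤ k) (hk2 : Even k) :
    PowerSeries.map s (qExpansion 1 (E hk)) = qExpansion 1 (E hk) := by
  ext m
  rw [PowerSeries.coeff_map, E_qExpansion_coeff hk hk2]
  split_ifs with h
  · simp
  · have h2 : s 2 = 2 := map_ofNat s 2
    simp [map_div₀, h2]

/-- `1728 Δ = E₄³ - E₆²` on the level of `q`-expansions. -/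
theorem lo_qExpansion_discriminant :
    (1728 : ℂ) • qExpansion 1 ModularForm.discriminant =
      qExpansion 1 E₄ ^ 3 - qExpansion 1 E₆ ^ 2 := by
  have h1 : qExpansion 1 ((1728 : ℂ) • CuspForm.discriminant : CuspForm 𝒮ℒ 12) =
      (1728 : ℂ) • qExpansion 1 CuspForm.discriminant :=
    ModularForm.qExpansion_smul one_pos one_mem_strictPeriods_SL 1728 CuspForm.discriminant
  have h2 : qExpansion 1 (ModularForm.mcast (by decide) (E₄.pow 3) -
      ModularForm.mcast (by decide) (E₆.pow 2) : ModularForm 𝒮ℒ 12) =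
      qExpansion 1 E₄ ^ 3 - qExpansion 1 E₆ ^ 2 := by
    simp only [FunLike.coe_sub, coe_mcast,
      ModularForm.qExpansion_sub one_pos one_mem_strictPeriods_SL,
      ModularForm.qExpansion_pow one_pos one_mem_strictPeriods_SL]
  have h3 : (((1728 : ℂ) • CuspForm.discriminant : CuspForm 𝒮ℒ 12) : ℍ → ℂ) =
      ((ModularForm.mcast (by decide) (E₄.pow 3) -
      ModularForm.mcast (by decide) (E₆.pow 2) : ModularForm 𝒮ℒ 12) : ℍ → ℂ) := by
    funext z
    have := discriminant_eq_E₄_cube_sub_E₆_sq z
    simp only [FunLike.coe_smul, Pi.smul_apply, smul_eq_mul, FunLike.coe_sub, coe_mcast,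
      coe_pow, Pi.sub_apply, Pi.pow_apply, CuspForm.coe_discriminant]
    rw [this]
    ring
  rw [← h2, ← h3, h1, CuspForm.coe_discriminant]

/-- The `q`-expansion of the discriminant is fixed by every ring endomorphism of `ℂ`. -/
theorem lo_map_qExpansion_discriminant (s : ℂ →+* ℂ) :
    PowerSeries.map s (qExpansion 1 ModularForm.discriminant) =
      qExpansion 1 ModularForm.discriminant := by
  have h := congrArg (PowerSeries.map s) lo_qExpansion_discriminant
  have h1728 : s 1728 = 1728 := map_ofNat s 1728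
  have hs : PowerSeries.map s ((1728 : ℂ) • qExpansion 1 ModularForm.discriminant) =
      (1728 : ℂ) • PowerSeries.map s (qExpansion 1 ModularForm.discriminant) := by
    ext n
    simp [h1728]
  rw [hs, map_sub, map_pow, map_pow, lo_map_qExpansion_E s (by norm_num) ⟨2, rfl⟩,
    lo_map_qExpansion_E s (by norm_num) ⟨3, rfl⟩, ← lo_qExpansion_discriminant] at h
  have h0 : (1728 : ℂ) ≠ 0 := by norm_num
  ext n
  have := congrArg (PowerSeries.coeff n) h
  simpa [h0] using this

/-- Applying a ring endomorphism of `ℂ` coefficientwise is semilinear for scalar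
multiplication. -/
theorem lo_map_smul (s : ℂ →+* ℂ) (a : ℂ) (p : PowerSeries ℂ) :
    PowerSeries.map s (a • p) = s a • PowerSeries.map s p := by
  ext n
  simp

/-- The zero form is a twist of any form whose underlying function vanishes. -/
theorem lo_exists_twist_of_coe_eq_zero (s : ℂ →+* ℂ) {k : ℤ} (f : ModularForm 𝒮ℒ k)
    (hf : (f : ℍ → ℂ) = 0) :
    ∃ f' : ModularForm 𝒮ℒ k, qExpansion 1 f' = PowerSeries.map s (qExpansion 1 f) := by
  refine ⟨0, ?_⟩
  rw [hf]
  simp [qExpansion_zero]

/-- Twists of constants. -/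
theorem lo_exists_twist_weight_zero (s : ℂ →+* ℂ) (f : ModularForm 𝒮ℒ 0) :
    ∃ f' : ModularForm 𝒮ℒ 0, qExpansion 1 f' = PowerSeries.map s (qExpansion 1 f) := by
  obtain ⟨c, hc⟩ := levelOne_weight_zero_const f
  have hf : (f : ℍ → ℂ) = ((c • (1 : ModularForm 𝒮ℒ 0) : ModularForm 𝒮ℒ 0) : ℍ → ℂ) := by
    rw [hc]
    funext z
    simp
  refine ⟨s c • (1 : ModularForm 𝒮ℒ 0), ?_⟩
  rw [hf, FunLike.coe_smul, FunLike.coe_smul,
    ModularForm.qExpansion_smul one_pos one_mem_strictPeriods_SL,
    ModularForm.qExpansion_smul one_pos one_mem_strictPeriods_SL, lo_map_smul,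
    ModularForm.qExpansion_one, map_one]

/-- The inductive step: twisting in weight `k ≥ 4` (even) given twisting in weight `k - 12`. -/
theorem lo_exists_twist_step (s : ℂ →+* ℂ) {k : ℕ} (hk : 3 ≤ k) (hk2 : Even k)
    (ih : ∀ h : ModularForm 𝒮ℒ ((k : ℤ) - 12),
      ∃ h' : ModularForm 𝒮ℒ ((k : ℤ) - 12),
        qExpansion 1 h' = PowerSeries.map s (qExpansion 1 h))
    (f : ModularForm 𝒮ℒ (k : ℤ)) :
    ∃ f' : ModularForm 𝒮ℒ (k : ℤ), qExpansion 1 f' = PowerSeries.map s (qExpansion 1 f) := by
  set a₀ : ℂ := (qExpansion 1 f).coeff 0 with ha₀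
  have h0 : (qExpansion 1 (f - a₀ • E hk : ModularForm 𝒮ℒ (k : ℤ))).coeff 0 = 0 := by
    rw [FunLike.coe_sub, ModularForm.qExpansion_sub one_pos one_mem_strictPeriods_SL,
      FunLike.coe_smul, ModularForm.qExpansion_smul one_pos one_mem_strictPeriods_SL, map_sub,
      PowerSeries.coeff_smul, E_qExpansion_coeff_zero hk hk2, smul_eq_mul, mul_one, sub_self]
  have hfac := qExpansion_eq_qExpansion_discriminant_mul (f - a₀ • E hk) h0
  obtain ⟨h', hh'⟩ := ih (CuspForm.discriminantEquiv (toCuspForm (f - a₀ • E hk) h0))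
  refine ⟨s a₀ • E hk + CuspForm.toModularFormₗ (CuspForm.ofMulDiscriminant h'), ?_⟩
  have hf : qExpansion 1 f = qExpansion 1 (f - a₀ • E hk : ModularForm 𝒮ℒ (k : ℤ)) +
      a₀ • qExpansion 1 (E hk) := by
    rw [FunLike.coe_sub, ModularForm.qExpansion_sub one_pos one_mem_strictPeriods_SL,
      FunLike.coe_smul, ModularForm.qExpansion_smul one_pos one_mem_strictPeriods_SL]
    ring
  have hmul : qExpansion 1 (CuspForm.toModularFormₗ (CuspForm.ofMulDiscriminant h')) =
      qExpansion 1 ModularForm.discriminant * qExpansion 1 h' := by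
    have : ((CuspForm.toModularFormₗ (CuspForm.ofMulDiscriminant h') : ModularForm 𝒮ℒ (k : ℤ)) : ℍ → ℂ) =
        (CuspForm.discriminant : ℍ → ℂ) * (h' : ℍ → ℂ) := by
      funext z
      simp [CuspForm.toModularFormₗ_apply, CuspForm.ofMulDiscriminant_apply]
    rw [this, ModularForm.qExpansion_mul_coe one_pos one_mem_strictPeriods_SL,
      CuspForm.coe_discriminant]
  rw [FunLike.coe_add, ModularForm.qExpansion_add one_pos one_mem_strictPeriods_SL,
    FunLike.coe_smul, ModularForm.qExpansion_smul one_pos one_mem_strictPeriods_SL, hmul, hh',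
    hf, hfac, map_add, map_mul, lo_map_smul, lo_map_qExpansion_E s hk hk2,
    lo_map_qExpansion_discriminant]
  ring

/-- Auxiliary form of `lo_exists_twist` for the induction on the weight. -/
theorem lo_exists_twist_aux (s : ℂ →+* ℂ) :
    ∀ n : ℕ, ∀ k : ℤ, k < n → ∀ f : ModularForm 𝒮ℒ k,
      ∃ f' : ModularForm 𝒮ℒ k, qExpansion 1 f' = PowerSeries.map s (qExpansion 1 f) := by
  intro n
  induction n with
  | zero =>
    intro k hk f
    exact lo_exists_twist_of_coe_eq_zero s f (levelOne_neg_weight_eq_zero (by simpa using hk) f)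
  | succ n ih =>
    intro k hk f
    rcases lt_or_ge k n with hlt | hge
    · exact ih k hlt f
    have hkn : k = n := by push_cast at hk; omega
    rcases Int.even_or_odd k with hev | hodd
    · rcases (show k = 0 ∨ k = 2 ∨ 4 ≤ k by
        obtain ⟨r, hr⟩ := hev
        omega) with h0 | h2 | h4
      · subst h0
        exact lo_exists_twist_weight_zero s f
      · subst h2
        refine lo_exists_twist_of_coe_eq_zero s f ?_
        have := rank_zero_iff_forall_zero.mp levelOne_weight_two_rank_zero f
        rw [this]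
        rfl
      · subst hkn
        refine lo_exists_twist_step s (by omega) (by exact_mod_cast hev) (fun h => ?_) f
        exact ih _ (by omega) h
    · refine lo_exists_twist_of_coe_eq_zero s f ?_
      rw [levelOne_odd_weight_eq_zero hodd f]
      rfl

/-- **Level-one twist.** For every ring endomorphism `s` of `ℂ` and every level-one modular form
`f` there is a level-one modular form of the same weight whose `q`-expansion is the
coefficientwise image of the `q`-expansion of `f` under `s`. -/
theorem lo_exists_twist (s : ℂ →+* ℂ) (k : ℤ) (f : ModularForm 𝒮ℒ k) :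
    ∃ f' : ModularForm 𝒮ℒ k, qExpansion 1 f' = PowerSeries.map s (qExpansion 1 f) :=
  lo_exists_twist_aux s (k.toNat + 1) k (by push_cast; omega) f

/-- Coefficient form of `lo_exists_twist`. -/
theorem lo_exists_twist_coeff (s : ℂ →+* ℂ) (k : ℤ) (f : ModularForm 𝒮ℒ k) :
    ∃ f' : ModularForm 𝒮ℒ k, ∀ n : ℕ,
      (qExpansion 1 f').coeff n = s ((qExpansion 1 f).coeff n) := by
  obtain ⟨f', hf'⟩ := lo_exists_twist s k f
  exact ⟨f', fun n => by rw [hf', PowerSeries.coeff_map]⟩

/-- Cusp form version of `lo_exists_twist`. -/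
theorem lo_exists_twist_cuspForm (s : ℂ →+* ℂ) (k : ℤ) (f : CuspForm 𝒮ℒ k) :
    ∃ f' : CuspForm 𝒮ℒ k, qExpansion 1 f' = PowerSeries.map s (qExpansion 1 f) := by
  obtain ⟨g, hg⟩ := lo_exists_twist s k (CuspForm.toModularFormₗ f)
  have hcoe : ((CuspForm.toModularFormₗ f : ModularForm 𝒮ℒ k) : ℍ → ℂ) = (f : ℍ → ℂ) := by
    funext z
    simp [CuspForm.toModularFormₗ_apply]
  rw [hcoe] at hg
  have h0 : (qExpansion 1 g).coeff 0 = 0 := by
    rw [hg, PowerSeries.coeff_map,
      CuspFormClass.qExpansion_coeff_zero f one_pos one_mem_strictPeriods_SL, map_zero]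
  refine ⟨toCuspForm g h0, ?_⟩
  have : ((toCuspForm g h0 : CuspForm 𝒮ℒ k) : ℍ → ℂ) = (g : ℍ → ℂ) := by
    funext z
    simp [toCuspForm_apply]
  rw [this, hg]

end Fermat.Agent.S23

end
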