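import Mathlib
import Fermat.Prelude.Def_CuspForm_IntegralStructure
import Fermat.Prelude.Thm_CongruenceSubgroup_one_mem_strictPeriods_Gamma0
import Fermat.Agent.S23.LevelOne

/-!
# S23 helper [S23-PRIMELT]: the primitive element `u(z) = Δ(N z)` (Plan Q)

* `pe_hermite`: Hermite normal form of `diag(N, 1) * g` for `g ∈ SL(2, ℤ)`.
* `pe_slash_formula`: `(u ∣[12] g)(z) = d⁻¹² Δ((a z + b) / d)` for the Hermite data of `g`.
* `pe_u N`: the cusp form `z ↦ Δ(N z)` of weight `12` on `Γ₀(N)`.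
* `pe_mem_Gamma0_of_slash_eq`, `pe_slash_eq_iff`: `u ∣[12] g = u` for `g ∈ SL(2, ℤ)` iff
  `g ∈ Γ₀(N)`.
* `pe_qExpansion_coeff`, `pe_map_qExpansion`, `pe_qCoeff_map`: the `q`-expansion of `u` is
  `∑ τ(m) q ^ (N m)`; it is fixed by every ring endomorphism of `ℂ`.
* `pe_quotientFunc_injective`, `pe_exists_injective`: the conjugates of `u` under
  `SL(2, ℤ) / Γ₀(N)` (Mathlib `SlashInvariantForm.quotientFunc`) are pairwise distinct, and
  there is a point where their values are pairwise distinct.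
-/

set_option autoImplicit false

namespace Fermat.Agent.S23

open UpperHalfPlane CongruenceSubgroup ModularFormClass ModularForm
open scoped MatrixGroups ModularForm Manifold Real

local notation "Δ" => ModularForm.discriminant

/-- Hermite normal form: for `g ∈ SL(2, ℤ)` and `N > 0`, the integral matrix
`diag(N, 1) * g` is of the form `γ * [[a, b], [0, d]]` with `γ ∈ SL(2, ℤ)`, `a, d > 0`,
`a * d = N` and `a = gcd(N * g₀₀, g₁₀)`. -/
theorem pe_hermite (N : ℕ) (hN : 0 < N) (g : SL(2, ℤ)) :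
    ∃ (γ : SL(2, ℤ)) (a b d : ℤ), 0 < a ∧ 0 < d ∧ a * d = N ∧
      a = Int.gcd ((N : ℤ) * g 0 0) (g 1 0) ∧
      (N : ℤ) * g 0 0 = γ 0 0 * a ∧ (N : ℤ) * g 0 1 = γ 0 0 * b + γ 0 1 * d ∧
      g 1 0 = γ 1 0 * a ∧ g 1 1 = γ 1 0 * b + γ 1 1 * d := by
  have hdet : g 0 0 * g 1 1 - g 0 1 * g 1 0 = 1 := by
    have := g.det_coe
    rw [Matrix.det_fin_two] at this
    exact this
  set A : ℤ := (N : ℤ) * g 0 0 with hA
  set C : ℤ := g 1 0 with hC
  set g0 : ℤ := (Int.gcd A C : ℤ) with hg0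
  have hNz : (N : ℤ) ≠ 0 := by exact_mod_cast hN.ne'
  have hg0pos : 0 < g0 := by
    have : Int.gcd A C ≠ 0 := by
      intro h0
      rw [Int.gcd_eq_zero_iff] at h0
      obtain ⟨h1, h2⟩ := h0
      have h3 : g 0 0 = 0 := by
        rcases mul_eq_zero.mp h1 with h | h
        · exact absurd h hNz
        · exact h
      rw [h3, h2] at hdet
      simp at hdet
    have h4 : 0 < Int.gcd A C := Nat.pos_of_ne_zero this
    rw [hg0]
    exact_mod_cast h4
  obtain ⟨A', hA'⟩ : g0 ∣ A := Int.gcd_dvd_left A C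
  obtain ⟨C', hC'⟩ : g0 ∣ C := Int.gcd_dvd_right A C
  have hbez : g0 = A * Int.gcdA A C + C * Int.gcdB A C := Int.gcd_eq_gcd_ab A C
  set x := Int.gcdA A C
  set y := Int.gcdB A C
  have hbez' : A' * x + C' * y = 1 := by
    have h1 : g0 * (A' * x + C' * y) = g0 * 1 := by
      rw [mul_one]
      calc g0 * (A' * x + C' * y) = (g0 * A') * x + (g0 * C') * y := by ring
        _ = A * x + C * y := by rw [← hA', ← hC']
        _ = g0 := hbez.symm
    exact mul_left_cancel₀ hg0pos.ne' h1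
  -- the determinant of `diag(N,1) * g` is `N`
  have hdetM : A * g 1 1 - (N : ℤ) * g 0 1 * C = N := by
    rw [hA, hC]
    linear_combination (N : ℤ) * hdet
  -- `N = g0 * d'`
  have hd : g0 * (A' * g 1 1 - (N : ℤ) * g 0 1 * C') = N := by
    calc g0 * (A' * g 1 1 - (N : ℤ) * g 0 1 * C')
        = (g0 * A') * g 1 1 - (N : ℤ) * g 0 1 * (g0 * C') := by ring
      _ = A * g 1 1 - (N : ℤ) * g 0 1 * C := by rw [← hA', ← hC']
      _ = N := hdetM
  set d' : ℤ := A' * g 1 1 - (N : ℤ) * g 0 1 * C' with hd'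
  have hd'pos : 0 < d' := by
    by_contra hcon
    rw [not_lt] at hcon
    have : g0 * d' ≤ 0 := mul_nonpos_of_nonneg_of_nonpos hg0pos.le hcon
    rw [hd] at this
    have : (0 : ℤ) < N := by exact_mod_cast hN
    omega
  refine ⟨⟨!![A', -y; C', x], ?_⟩, g0, x * ((N : ℤ) * g 0 1) + y * g 1 1, d', hg0pos, hd'pos, hd,
    rfl, ?_, ?_, ?_, ?_⟩
  · rw [Matrix.det_fin_two_of]
    linear_combination hbez'
  · show A = A' * g0
    rw [hA']; ring
  · show (N : ℤ) * g 0 1 = A' * (x * ((N : ℤ) * g 0 1) + y * g 1 1) + (-y) * d'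
    rw [hd']
    linear_combination (-((N : ℤ) * g 0 1)) * hbez'
  · show C = C' * g0
    rw [hC']; ring
  · show g 1 1 = C' * (x * ((N : ℤ) * g 0 1) + y * g 1 1) + x * d'
    rw [hd']
    linear_combination (-(g 1 1)) * hbez'


theorem pe_aff_im_pos (a b d : ℤ) (ha : 0 < a) (hd : 0 < d) (z : ℍ) :
    0 < ((((a : ℂ) * z + b) / d)).im := by
  rw [Complex.div_intCast_im]
  have h1 : ((a : ℂ) * z + b).im = a * z.im := by
    simp
  rw [h1]
  have ha' : (0 : ℝ) < a := by exact_mod_cast ha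
  have hd' : (0 : ℝ) < d := by exact_mod_cast hd
  have := z.im_pos
  positivity

/-- The point `(a z + b) / d` of the upper half plane, for integers `a, d > 0`. -/
noncomputable def pe_aff (a b d : ℤ) (ha : 0 < a) (hd : 0 < d) (z : ℍ) : ℍ :=
  ⟨((a : ℂ) * z + b) / d, pe_aff_im_pos a b d ha hd z⟩

@[simp] theorem pe_aff_coe (a b d : ℤ) (ha : 0 < a) (hd : 0 < d) (z : ℍ) :
    ((pe_aff a b d ha hd z : ℍ) : ℂ) = ((a : ℂ) * z + b) / d := rfl

theorem pe_aff_im (a b d : ℤ) (ha : 0 < a) (hd : 0 < d) (z : ℍ) :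
    (pe_aff a b d ha hd z).im = a * z.im / d := by
  show ((((a : ℂ) * z + b) / d)).im = _
  rw [Complex.div_intCast_im]
  simp

/-- `z ↦ N z` on the upper half plane. -/
noncomputable def pe_mulN (N : ℕ) (hN : 0 < N) (z : ℍ) : ℍ :=
  pe_aff N 0 1 (by exact_mod_cast hN) one_pos z

@[simp] theorem pe_mulN_coe (N : ℕ) (hN : 0 < N) (z : ℍ) :
    ((pe_mulN N hN z : ℍ) : ℂ) = (N : ℂ) * z := by
  simp [pe_mulN]

/-- The function `z ↦ Δ(N z)`. -/
noncomputable def pe_uFun (N : ℕ) (hN : 0 < N) (z : ℍ) : ℂ := Δ (pe_mulN N hN z)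

theorem pe_smul_eq (N : ℕ) (hN : 0 < N) (g γ : SL(2, ℤ)) (a b d : ℤ) (ha : 0 < a) (hd : 0 < d)
    (h00 : (N : ℤ) * g 0 0 = γ 0 0 * a) (h01 : (N : ℤ) * g 0 1 = γ 0 0 * b + γ 0 1 * d)
    (h10 : g 1 0 = γ 1 0 * a) (h11 : g 1 1 = γ 1 0 * b + γ 1 1 * d) (z : ℍ) :
    pe_mulN N hN (g • z) = γ • pe_aff a b d ha hd z := by
  apply UpperHalfPlane.ext
  rw [pe_mulN_coe, UpperHalfPlane.coe_specialLinearGroup_apply,
    UpperHalfPlane.coe_specialLinearGroup_apply]
  simp only [pe_aff_coe, algebraMap_int_eq, Int.coe_castRingHom,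
    Complex.ofReal_intCast]
  have hd' : (d : ℂ) ≠ 0 := by exact_mod_cast hd.ne'
  have hden1 : ((g 1 0 : ℤ) : ℂ) * z + (g 1 1 : ℤ) ≠ 0 := by
    have := UpperHalfPlane.denom_ne_zero (g : GL (Fin 2) ℝ) z
    simpa [UpperHalfPlane.denom] using this
  have hden2 : ((γ 1 0 : ℤ) : ℂ) * (((a : ℂ) * z + b) / d) + (γ 1 1 : ℤ) ≠ 0 := by
    have := UpperHalfPlane.denom_ne_zero (γ : GL (Fin 2) ℝ) (pe_aff a b d ha hd z)
    simpa [UpperHalfPlane.denom] using this
  have e00 : ((N : ℂ)) * (g 0 0 : ℤ) = (γ 0 0 : ℤ) * a := by exact_mod_cast h00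
  have e01 : ((N : ℂ)) * (g 0 1 : ℤ) = (γ 0 0 : ℤ) * b + (γ 0 1 : ℤ) * d := by exact_mod_cast h01
  have e10 : ((g 1 0 : ℤ) : ℂ) = (γ 1 0 : ℤ) * a := by exact_mod_cast h10
  have e11 : ((g 1 1 : ℤ) : ℂ) = (γ 1 0 : ℤ) * b + (γ 1 1 : ℤ) * d := by exact_mod_cast h11
  rw [mul_div_assoc', div_eq_div_iff hden1 hden2]
  field_simp
  rw [e10, e11]
  linear_combination (((γ 1 0 : ℤ) : ℂ) * (a * z + b) + (γ 1 1 : ℤ) * d) * (z * e00 + e01)


theorem pe_discriminant_smul (γ : SL(2, ℤ)) (w : ℍ) :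
    Δ (γ • w) = (((γ 1 0 : ℤ) : ℂ) * w + (γ 1 1 : ℤ)) ^ (12 : ℕ) * Δ w := by
  have hmem : Matrix.SpecialLinearGroup.mapGL ℝ γ ∈ (𝒮ℒ : Subgroup (GL (Fin 2) ℝ)) := ⟨γ, rfl⟩
  have h := SlashInvariantForm.slash_action_eqn'' (k := 12) (Γ := 𝒮ℒ) CuspForm.discriminant
    hmem w
  rw [CuspForm.coe_discriminant] at h
  have h2 : (Matrix.SpecialLinearGroup.mapGL ℝ γ) • w = γ • w := rfl
  rw [h2] at h
  rw [h]
  congr 1

/-- The slash formula: if `diag(N,1) * g = γ * [[a, b], [0, d]]` then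
`(u ∣[12] g)(z) = d⁻¹² Δ((a z + b) / d)`. -/
theorem pe_slash_formula (N : ℕ) (hN : 0 < N) (g γ : SL(2, ℤ)) (a b d : ℤ) (ha : 0 < a)
    (hd : 0 < d)
    (h00 : (N : ℤ) * g 0 0 = γ 0 0 * a) (h01 : (N : ℤ) * g 0 1 = γ 0 0 * b + γ 0 1 * d)
    (h10 : g 1 0 = γ 1 0 * a) (h11 : g 1 1 = γ 1 0 * b + γ 1 1 * d) (z : ℍ) :
    ((pe_uFun N hN) ∣[(12 : ℤ)] g) z = ((d : ℂ) ^ (12 : ℕ))⁻¹ * Δ (pe_aff a b d ha hd z) := by
  rw [ModularForm.SL_slash_apply, pe_uFun, pe_smul_eq N hN g γ a b d ha hd h00 h01 h10 h11 z,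
    pe_discriminant_smul, ModularGroup.denom_apply]
  have hd' : (d : ℂ) ≠ 0 := by exact_mod_cast hd.ne'
  have hden1 : ((g 1 0 : ℤ) : ℂ) * z + (g 1 1 : ℤ) ≠ 0 := by
    have := UpperHalfPlane.denom_ne_zero (g : GL (Fin 2) ℝ) z
    simpa [UpperHalfPlane.denom] using this
  have e10 : ((g 1 0 : ℤ) : ℂ) = (γ 1 0 : ℤ) * a := by exact_mod_cast h10
  have e11 : ((g 1 1 : ℤ) : ℂ) = (γ 1 0 : ℤ) * b + (γ 1 1 : ℤ) * d := by exact_mod_cast h11
  have hrel : ((γ 1 0 : ℤ) : ℂ) * (pe_aff a b d ha hd z : ℍ) + (γ 1 1 : ℤ)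
      = (((g 1 0 : ℤ) : ℂ) * z + (g 1 1 : ℤ)) / d := by
    rw [pe_aff_coe, e10, e11]
    field_simp
    ring
  rw [hrel, zpow_neg, div_pow]
  have : (((g 1 0 : ℤ) : ℂ) * z + (g 1 1 : ℤ)) ^ (12 : ℤ)
      = (((g 1 0 : ℤ) : ℂ) * z + (g 1 1 : ℤ)) ^ (12 : ℕ) := by
    norm_cast
  rw [this]
  have h12 : (((g 1 0 : ℤ) : ℂ) * z + (g 1 1 : ℤ)) ^ (12 : ℕ) ≠ 0 := pow_ne_zero _ hden1
  field_simp

theorem pe_tendsto_aff (a b d : ℤ) (ha : 0 < a) (hd : 0 < d) :
    Filter.Tendsto (pe_aff a b d ha hd) atImInfty atImInfty := by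
  rw [UpperHalfPlane.atImInfty, Filter.tendsto_comap_iff]
  have h1 : (UpperHalfPlane.im ∘ pe_aff a b d ha hd) = fun z : ℍ => (a : ℝ) * z.im / d := by
    funext z
    exact pe_aff_im a b d ha hd z
  rw [h1]
  have ha' : (0 : ℝ) < a := by exact_mod_cast ha
  have hd' : (0 : ℝ) < d := by exact_mod_cast hd
  have h2 : Filter.Tendsto (fun z : ℍ => z.im) (Filter.comap UpperHalfPlane.im Filter.atTop)
      Filter.atTop := Filter.tendsto_comap
  exact (h2.const_mul_atTop ha').atTop_div_const hd'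

theorem pe_tendsto_mulN (N : ℕ) (hN : 0 < N) :
    Filter.Tendsto (pe_mulN N hN) atImInfty atImInfty :=
  pe_tendsto_aff N 0 1 (by exact_mod_cast hN) one_pos

theorem pe_discriminant_isBigO_exp :
    Δ =O[atImInfty] fun τ : ℍ => Real.exp (-2 * π * τ.im) := by
  have h := CuspFormClass.exp_decay_atImInfty (h := 1) CuspForm.discriminant one_pos
    one_mem_strictPeriods_SL
  simpa using h

/-- The slash translates of `u` all vanish at `i∞`. -/
theorem pe_isZeroAtImInfty_slash (N : ℕ) (hN : 0 < N) (g : SL(2, ℤ)) :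
    IsZeroAtImInfty ((pe_uFun N hN) ∣[(12 : ℤ)] g) := by
  obtain ⟨γ, a, b, d, ha, hd, -, -, h00, h01, h10, h11⟩ := pe_hermite N hN g
  have hfun : ((pe_uFun N hN) ∣[(12 : ℤ)] g)
      = fun z => ((d : ℂ) ^ (12 : ℕ))⁻¹ * Δ (pe_aff a b d ha hd z) := by
    funext z
    exact pe_slash_formula N hN g γ a b d ha hd h00 h01 h10 h11 z
  rw [hfun]
  have h1 : Filter.Tendsto (fun z => Δ (pe_aff a b d ha hd z)) atImInfty (nhds 0) :=
    ModularForm.discriminant_isZeroAtImInfty.comp (pe_tendsto_aff a b d ha hd)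
  have h2 := h1.const_mul ((d : ℂ) ^ (12 : ℕ))⁻¹
  rw [mul_zero] at h2
  exact h2

/-- If `u ∣[12] g = u` for `g ∈ SL(2, ℤ)`, then the lower left entry of `g` is divisible
by `N`. -/
theorem pe_dvd_of_slash_eq (N : ℕ) (hN : 0 < N) (g : SL(2, ℤ))
    (h : (pe_uFun N hN) ∣[(12 : ℤ)] g = pe_uFun N hN) : (N : ℤ) ∣ g 1 0 := by
  obtain ⟨γ, a, b, d, ha, hd, had, -, h00, h01, h10, h11⟩ := pe_hermite N hN g
  have hfun : ∀ z : ℍ, Δ (pe_aff a b d ha hd z) = (d : ℂ) ^ (12 : ℕ) * Δ (pe_mulN N hN z) := by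
    intro z
    have h1 := pe_slash_formula N hN g γ a b d ha hd h00 h01 h10 h11 z
    rw [h] at h1
    have hd' : (d : ℂ) ^ (12 : ℕ) ≠ 0 := pow_ne_zero _ (by exact_mod_cast hd.ne')
    rw [pe_uFun] at h1
    rw [h1, ← mul_assoc, mul_inv_cancel₀ hd', one_mul]
  have ha' : (0 : ℝ) < a := by exact_mod_cast ha
  have hd' : (0 : ℝ) < d := by exact_mod_cast hd
  have hN' : (0 : ℝ) < N := by exact_mod_cast hN
  -- the chain of `O`-estimates
  have hO1 : (fun z : ℍ => Real.exp (-2 * π * ((a : ℝ) * z.im / d)))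
      =O[atImInfty] fun z : ℍ => Δ (pe_aff a b d ha hd z) := by
    have := ModularForm.exp_isBigO_discriminant.comp_tendsto (pe_tendsto_aff a b d ha hd)
    refine this.congr_left ?_
    intro z
    simp only [Function.comp_apply, pe_aff_im]
  have hO2 : (fun z : ℍ => Δ (pe_aff a b d ha hd z))
      =O[atImInfty] fun z : ℍ => Δ (pe_mulN N hN z) := by
    have h1 : (fun z : ℍ => Δ (pe_aff a b d ha hd z))
        = fun z : ℍ => (d : ℂ) ^ (12 : ℕ) * Δ (pe_mulN N hN z) := funext hfun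
    rw [h1]
    exact (Asymptotics.isBigO_refl _ _).const_mul_left _
  have hO3 : (fun z : ℍ => Δ (pe_mulN N hN z))
      =O[atImInfty] fun z : ℍ => Real.exp (-2 * π * ((N : ℝ) * z.im)) := by
    have := pe_discriminant_isBigO_exp.comp_tendsto (pe_tendsto_mulN N hN)
    refine this.congr_right ?_
    intro z
    simp only [Function.comp_apply, pe_mulN, pe_aff_im]
    simp
  have hO := (hO1.trans hO2).trans hO3
  obtain ⟨C, hC⟩ := hO.bound
  rw [Filter.Eventually, UpperHalfPlane.atImInfty_mem] at hC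
  obtain ⟨A, hA⟩ := hC
  -- `N ≤ a / d`
  have hkey : (N : ℝ) ≤ a / d := by
    by_contra hcon
    rw [not_le] at hcon
    set c : ℝ := 2 * π * ((N : ℝ) - a / d) with hc
    have hcpos : 0 < c := by
      have : 0 < (N : ℝ) - a / d := sub_pos.mpr hcon
      positivity
    -- choose `y` large
    set y : ℝ := max (max A 1) ((|C| + 1) / c) with hy
    have hy1 : A ≤ y := le_trans (le_max_left _ _) (le_max_left _ _)
    have hy2 : 1 ≤ y := le_trans (le_max_right _ _) (le_max_left _ _)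
    have hy3 : (|C| + 1) / c ≤ y := le_max_right _ _
    have hypos : 0 < y := lt_of_lt_of_le one_pos hy2
    have hz := hA ⟨Complex.I * y, by simpa using hypos⟩ (by simpa using hy1)
    simp only [Set.mem_ofPred_eq, Real.norm_eq_abs, abs_of_pos (Real.exp_pos _)] at hz
    have him : (⟨Complex.I * y, by simpa using hypos⟩ : ℍ).im = y := by
      show (Complex.I * y).im = y
      simp
    rw [him] at hz
    -- `exp (c y) ≤ C`
    have h3 : Real.exp (c * y) ≤ C := by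
      have h4 : Real.exp (c * y)
          = Real.exp (-2 * π * ((a : ℝ) * y / d)) / Real.exp (-2 * π * ((N : ℝ) * y)) := by
        rw [← Real.exp_sub]
        congr 1
        rw [hc]
        field_simp
        ring
      rw [h4, div_le_iff₀ (Real.exp_pos _)]
      exact hz
    have h5 : c * y + 1 ≤ Real.exp (c * y) := Real.add_one_le_exp _
    have h6 : |C| + 1 ≤ c * y := by
      rw [div_le_iff₀ hcpos] at hy3
      linarith
    have h7 : C ≤ |C| := le_abs_self C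
    linarith
  -- conclude `d = 1`, `a = N`
  have h1 : (N : ℝ) * d ≤ a := by
    rw [le_div_iff₀ hd'] at hkey
    exact hkey
  have h1' : (N : ℤ) * d ≤ a := by exact_mod_cast h1
  have hNpos : (0 : ℤ) < N := by exact_mod_cast hN
  have hd1 : d = 1 := by
    by_contra hne
    have hd2 : 2 ≤ d := by omega
    have : a ≤ N := by
      have : a * 1 ≤ a * d := mul_le_mul_of_nonneg_left (by omega) ha.le
      rw [had] at this
      simpa using this
    nlinarith
  rw [hd1, mul_one] at had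
  rw [h10, had]
  exact Dvd.intro_left _ rfl

theorem pe_mem_Gamma0_of_slash_eq' (N : ℕ) (hN : 0 < N) (g : SL(2, ℤ))
    (h : (pe_uFun N hN) ∣[(12 : ℤ)] g = pe_uFun N hN) : g ∈ Gamma0 N := by
  rw [Gamma0_mem]
  have := pe_dvd_of_slash_eq N hN g h
  exact (ZMod.intCast_zmod_eq_zero_iff_dvd _ _).mpr this

/-- `u` is invariant under `Γ₀(N)`. -/
theorem pe_slash_eq_of_mem_Gamma0 (N : ℕ) (hN : 0 < N) (g : SL(2, ℤ)) (hg : g ∈ Gamma0 N) :
    (pe_uFun N hN) ∣[(12 : ℤ)] g = pe_uFun N hN := by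
  rw [Gamma0_mem, ZMod.intCast_zmod_eq_zero_iff_dvd] at hg
  obtain ⟨c', hc'⟩ := hg
  have hdet : g 0 0 * g 1 1 - g 0 1 * g 1 0 = 1 := by
    have := g.det_coe
    rw [Matrix.det_fin_two] at this
    exact this
  have hdet' : Matrix.det !![g 0 0, (N : ℤ) * g 0 1; c', g 1 1] = 1 := by
    rw [Matrix.det_fin_two_of]
    rw [hc'] at hdet
    linear_combination hdet
  funext z
  have hNpos : (0 : ℤ) < N := by exact_mod_cast hN
  have := pe_slash_formula N hN g ⟨!![g 0 0, (N : ℤ) * g 0 1; c', g 1 1], hdet'⟩ N 0 1 hNpos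
    one_pos (by simp [mul_comm]) (by simp) (by simp [hc', mul_comm]) (by simp) z
  rw [this]
  simp [pe_uFun, pe_mulN]

theorem pe_mdifferentiable (N : ℕ) (hN : 0 < N) : MDiff (pe_uFun N hN) := by
  rw [UpperHalfPlane.mdifferentiable_iff]
  have h1 : DifferentiableOn ℂ (Δ ∘ ofComplex) {z | 0 < z.im} :=
    UpperHalfPlane.mdifferentiable_iff.mp CuspForm.discriminant.holo'
  have h2 : DifferentiableOn ℂ (fun z : ℂ => (N : ℂ) * z) {z | 0 < z.im} := by
    fun_prop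
  have hN' : (0 : ℝ) < N := by exact_mod_cast hN
  have hmaps : Set.MapsTo (fun z : ℂ => (N : ℂ) * z) {z | 0 < z.im} {z | 0 < z.im} := by
    intro z hz
    simp only [Set.mem_ofPred_eq] at hz ⊢
    simp only [Complex.mul_im, Complex.natCast_re, Complex.natCast_im, zero_mul, add_zero]
    positivity
  have h3 := h1.comp h2 hmaps
  refine h3.congr ?_
  intro z hz
  simp only [Set.mem_ofPred_eq] at hz
  have hz' : 0 < ((N : ℂ) * z).im := hmaps hz
  simp only [Function.comp_apply, pe_uFun]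
  congr 1
  apply UpperHalfPlane.ext
  rw [pe_mulN_coe, ofComplex_apply_of_im_pos hz, ofComplex_apply_of_im_pos hz']

/-- The primitive element `u(z) = Δ(N z)`, a cusp form of weight `12` on `Γ₀(N)`. -/
noncomputable def pe_u (N : ℕ) [NeZero N] : CuspForm (Gamma0 N) 12 where
  toFun := pe_uFun N (NeZero.pos N)
  slash_action_eq' := by
    rintro γ ⟨g, hg, rfl⟩
    exact pe_slash_eq_of_mem_Gamma0 N (NeZero.pos N) g hg
  holo' := pe_mdifferentiable N (NeZero.pos N)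
  zero_at_cusps' := by
    intro c hc
    rw [Subgroup.IsArithmetic.isCusp_iff_isCusp_SL2Z] at hc
    rw [OnePoint.isZeroAt_iff_forall_SL2Z hc]
    intro γ _
    exact pe_isZeroAtImInfty_slash N (NeZero.pos N) γ

theorem pe_u_apply (N : ℕ) [NeZero N] (z : ℍ) :
    pe_u N z = Δ (pe_mulN N (NeZero.pos N) z) := rfl

theorem pe_u_coe (N : ℕ) [NeZero N] :
    (pe_u N : ℍ → ℂ) = pe_uFun N (NeZero.pos N) := rfl

/-- **The stabiliser of the primitive element.** If `u ∣[12] g = u` for `g ∈ SL(2, ℤ)`,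
then `g ∈ Γ₀(N)`. -/
theorem pe_mem_Gamma0_of_slash_eq (N : ℕ) [NeZero N] (g : SL(2, ℤ))
    (h : (pe_u N : ℍ → ℂ) ∣[(12 : ℤ)] g = pe_u N) : g ∈ Gamma0 N :=
  pe_mem_Gamma0_of_slash_eq' N (NeZero.pos N) g h

theorem pe_slash_eq_iff (N : ℕ) [NeZero N] (g : SL(2, ℤ)) :
    (pe_u N : ℍ → ℂ) ∣[(12 : ℤ)] g = pe_u N ↔ g ∈ Gamma0 N :=
  ⟨pe_mem_Gamma0_of_slash_eq N g, pe_slash_eq_of_mem_Gamma0 N (NeZero.pos N) g⟩

/-! ### The `q`-expansion of `u` -/

theorem pe_qParam_mulN (N : ℕ) (hN : 0 < N) (z : ℍ) :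
    Function.Periodic.qParam 1 (pe_mulN N hN z : ℂ) = Function.Periodic.qParam 1 (z : ℂ) ^ N := by
  rw [pe_mulN_coe, Function.Periodic.qParam, Function.Periodic.qParam, ← Complex.exp_nat_mul]
  congr 1
  ring

/-- The `q`-expansion of `u(z) = Δ(N z)` is `∑ τ(m) q ^ (N m)`. -/
theorem pe_qExpansion_coeff (N : ℕ) [NeZero N] (n : ℕ) :
    (qExpansion 1 (pe_u N)).coeff n
      = if N ∣ n then (qExpansion 1 Δ).coeff (n / N) else 0 := by
  have hN : 0 < N := NeZero.pos N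
  symm
  refine ModularFormClass.qExpansion_coeff_unique (f := pe_u N)
    (c := fun n => if N ∣ n then (qExpansion 1 Δ).coeff (n / N) else 0) one_pos
    (CongruenceSubgroup.one_mem_strictPeriods_Gamma0 N) ?_ n
  intro z
  have h1 := ModularForm.hasSum_qExpansion CuspForm.discriminant one_pos
    one_mem_strictPeriods_SL (pe_mulN N hN z)
  rw [CuspForm.coe_discriminant, pe_qParam_mulN] at h1
  have hinj : Function.Injective (fun m : ℕ => N * m) := by
    intro m m' hmm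
    exact Nat.eq_of_mul_eq_mul_left hN hmm
  rw [pe_u_apply]
  refine (hinj.hasSum_iff ?_).mp ?_
  · intro x hx
    have hx' : ¬ N ∣ x := by
      rintro ⟨m, rfl⟩
      exact hx ⟨m, rfl⟩
    simp [hx']
  · convert h1 using 2 with m
    simp only [Function.comp_apply, Nat.dvd_mul_right, if_true, Nat.mul_div_cancel_left _ hN,
      smul_eq_mul, pow_mul]

/-- The `q`-expansion of `u` is fixed by every ring endomorphism of `ℂ` (it has rational, in
fact integral, coefficients). -/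
theorem pe_map_qExpansion (N : ℕ) [NeZero N] (s : ℂ →+* ℂ) :
    PowerSeries.map s (qExpansion 1 (pe_u N)) = qExpansion 1 (pe_u N) := by
  ext n
  rw [PowerSeries.coeff_map, pe_qExpansion_coeff]
  split_ifs with h
  · have := congrArg (fun p => PowerSeries.coeff (n / N) p) (lo_map_qExpansion_discriminant s)
    simpa [PowerSeries.coeff_map] using this
  · exact map_zero s

theorem pe_qCoeff_map (N : ℕ) [NeZero N] (s : ℂ →+* ℂ) (n : ℕ) :
    s (ModularFormClass.qCoeff (pe_u N) n) = ModularFormClass.qCoeff (pe_u N) n := by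
  have := congrArg (fun p => PowerSeries.coeff n p) (pe_map_qExpansion N s)
  simpa [PowerSeries.coeff_map, ModularFormClass.qCoeff] using this

/-! ### The conjugates of `u` are pairwise distinct -/

section Conjugates

open SlashInvariantForm

/-- The conjugates `u ∣[12] h⁻¹`, `h` running over `SL(2, ℤ) / Γ₀(N)`, are pairwise distinct. -/
theorem pe_quotientFunc_injective (N : ℕ) [NeZero N] :
    Function.Injective
      (fun q : (𝒮ℒ : Subgroup (GL (Fin 2) ℝ)) ⧸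
          ((Gamma0 N : Subgroup (GL (Fin 2) ℝ)).subgroupOf 𝒮ℒ) =>
        SlashInvariantForm.quotientFunc (pe_u N) q) := by
  intro q q' hqq
  induction q using Quotient.inductionOn with
  | h r =>
  induction q' using Quotient.inductionOn with
  | h r' =>
  simp only [SlashInvariantForm.quotientFunc_mk] at hqq
  rw [Quotient.eq, QuotientGroup.leftRel_apply]
  -- `u ∣ (r⁻¹ r') = u`
  have h1 : ((pe_u N : ℍ → ℂ) ∣[(12 : ℤ)] (r.val⁻¹ * r'.val)) = pe_u N := by
    rw [SlashAction.slash_mul, hqq, ← SlashAction.slash_mul, inv_mul_cancel, SlashAction.slash_one]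
  obtain ⟨g, hg⟩ : (r⁻¹ * r').val ∈ (𝒮ℒ : Subgroup (GL (Fin 2) ℝ)) := (r⁻¹ * r').2
  have h2 : (r⁻¹ * r').val = r.val⁻¹ * r'.val := rfl
  rw [← h2, ← hg] at h1
  have h3 : g ∈ Gamma0 N := pe_mem_Gamma0_of_slash_eq N g h1
  rw [Subgroup.mem_subgroupOf, ← hg]
  exact ⟨g, h3, rfl⟩

theorem pe_quotientFunc_mdiff (N : ℕ) [NeZero N]
    (q : (𝒮ℒ : Subgroup (GL (Fin 2) ℝ)) ⧸
          ((Gamma0 N : Subgroup (GL (Fin 2) ℝ)).subgroupOf 𝒮ℒ)) :
    MDiff (SlashInvariantForm.quotientFunc (pe_u N) q) := by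
  induction q using Quotient.inductionOn with
  | h r =>
  rw [SlashInvariantForm.quotientFunc_mk]
  exact (ModularForm.translate (pe_u N) r.val⁻¹).holo'

/-- There is a point of the upper half plane at which the conjugates of `u` take pairwise
distinct values. -/
theorem pe_exists_injective (N : ℕ) [NeZero N] :
    ∃ τ : ℍ, Function.Injective
      (fun q : (𝒮ℒ : Subgroup (GL (Fin 2) ℝ)) ⧸
          ((Gamma0 N : Subgroup (GL (Fin 2) ℝ)).subgroupOf 𝒮ℒ) =>
        SlashInvariantForm.quotientFunc (pe_u N) q τ) := by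
  classical
  set Q := (𝒮ℒ : Subgroup (GL (Fin 2) ℝ)) ⧸
          ((Gamma0 N : Subgroup (GL (Fin 2) ℝ)).subgroupOf 𝒮ℒ) with hQ
  have : Finite Q := inferInstance
  let : Fintype Q := Fintype.ofFinite Q
  let s : Finset (Q × Q) := Finset.univ.filter (fun p => p.1 ≠ p.2)
  let F : Q × Q → ℍ → ℂ := fun p =>
    SlashInvariantForm.quotientFunc (pe_u N) p.1 - SlashInvariantForm.quotientFunc (pe_u N) p.2
  have hF : ∀ p ∈ s, MDiff (F p) := fun p _ =>
    (pe_quotientFunc_mdiff N p.1).sub (pe_quotientFunc_mdiff N p.2)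
  have hne : ∏ p ∈ s, F p ≠ 0 := by
    intro h0
    rw [UpperHalfPlane.prod_eq_zero_iff hF] at h0
    obtain ⟨p, hp, hp0⟩ := h0
    have hp' : p.1 ≠ p.2 := (Finset.mem_filter.mp hp).2
    exact hp' (pe_quotientFunc_injective N (sub_eq_zero.mp hp0))
  obtain ⟨τ, hτ⟩ : ∃ τ, (∏ p ∈ s, F p) τ ≠ 0 := by
    by_contra hcon
    push Not at hcon
    exact hne (funext hcon)
  refine ⟨τ, fun q q' hqq => ?_⟩
  by_contra hne'
  apply hτ
  rw [Finset.prod_apply]
  refine Finset.prod_eq_zero (i := (q, q')) (Finset.mem_filter.mpr ⟨Finset.mem_univ _, hne'⟩) ?_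
  simp only [F, Pi.sub_apply]
  exact sub_eq_zero.mpr hqq

end Conjugates

end Fermat.Agent.S23
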