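import Mathlib

/-!
# S23, package RECON: reconstruction of a cusp form from a quotient `A / B`

Given holomorphic `A B : ℍ → ℂ` (`B` not identically zero), `A` of weight `k + w` for `Γ₀(N)`,
`B` of weight `w` for `SL(2, ℤ)`, and a monic relation
`A ^ n + ∑ i, c i * A ^ i * B ^ (n - i) = 0` whose coefficients `c i` are level one of weight
`k (n - i)` and vanish at `i∞`, we construct a cusp form `f'` of weight `k` on `Γ₀(N)` with
`f' * B = A`.
-/

set_option autoImplicit false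

open UpperHalfPlane Complex Filter Topology ModularForm CongruenceSubgroup
open scoped MatrixGroups Manifold

namespace Fermat.Agent.S23

/-! ### Root bounds for monic polynomials -/

/-- A root of a monic polynomial is bounded by `max 1 (∑ ‖cᵢ‖)`. -/
theorem rc_root_bound (n : ℕ) (c : Fin n → ℂ) (x : ℂ)
    (h : x ^ n + ∑ i : Fin n, c i * x ^ (i : ℕ) = 0) :
    ‖x‖ ≤ max 1 (∑ i, ‖c i‖) := by
  by_contra hcon
  rw [not_le, max_lt_iff] at hcon
  obtain ⟨h1, h2⟩ := hcon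
  have hx0 : 0 < ‖x‖ := lt_trans zero_lt_one h1
  rcases Nat.eq_zero_or_pos n with hn | hn
  · subst hn
    simp at h
  have hxn : x ^ n = -∑ i : Fin n, c i * x ^ (i : ℕ) := eq_neg_of_add_eq_zero_left h
  have hle : ‖x‖ ^ n ≤ (∑ i : Fin n, ‖c i‖) * ‖x‖ ^ (n - 1) := by
    calc ‖x‖ ^ n = ‖x ^ n‖ := (norm_pow _ _).symm
      _ = ‖∑ i : Fin n, c i * x ^ (i : ℕ)‖ := by rw [hxn, norm_neg]
      _ ≤ ∑ i : Fin n, ‖c i * x ^ (i : ℕ)‖ := norm_sum_le _ _
      _ ≤ ∑ i : Fin n, ‖c i‖ * ‖x‖ ^ (n - 1) := by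
          refine Finset.sum_le_sum fun i _ => ?_
          rw [norm_mul, norm_pow]
          refine mul_le_mul_of_nonneg_left ?_ (norm_nonneg _)
          exact pow_le_pow_right₀ h1.le (by have := i.2; omega)
      _ = (∑ i : Fin n, ‖c i‖) * ‖x‖ ^ (n - 1) := by rw [Finset.sum_mul]
  have hpow : ‖x‖ ^ n = ‖x‖ * ‖x‖ ^ (n - 1) := by
    rw [← pow_succ', Nat.sub_add_cancel hn]
  rw [hpow] at hle
  have := le_of_mul_le_mul_right hle (pow_pos hx0 _)
  linarith

/-- If the coefficients of a monic polynomial are small, so are its roots. -/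
theorem rc_root_small (n : ℕ) (c : Fin n → ℂ) (x : ℂ)
    (h : x ^ n + ∑ i : Fin n, c i * x ^ (i : ℕ) = 0) (e : ℝ)
    (he : ∑ i, ‖c i‖ ≤ e) (he1 : e ≤ 1) : ‖x‖ ^ n ≤ e := by
  have hx1 : ‖x‖ ≤ 1 := by
    refine (rc_root_bound n c x h).trans ?_
    exact max_le le_rfl (he.trans he1)
  have hxn : x ^ n = -∑ i : Fin n, c i * x ^ (i : ℕ) := eq_neg_of_add_eq_zero_left h
  calc ‖x‖ ^ n = ‖x ^ n‖ := (norm_pow _ _).symm
    _ = ‖∑ i : Fin n, c i * x ^ (i : ℕ)‖ := by rw [hxn, norm_neg]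
    _ ≤ ∑ i : Fin n, ‖c i * x ^ (i : ℕ)‖ := norm_sum_le _ _
    _ ≤ ∑ i : Fin n, ‖c i‖ := by
        refine Finset.sum_le_sum fun i _ => ?_
        rw [norm_mul, norm_pow]
        exact mul_le_of_le_one_right (norm_nonneg _) (pow_le_one₀ (norm_nonneg _) hx1)
    _ ≤ e := he

/-! ### Removable singularities -/


/-- Removable singularities for a quotient `a / b` of holomorphic functions on a connected
open set, locally bounded off the zeros of `b`. -/
theorem rc_exists_quot_aux {U : Set ℂ} (hU : IsOpen U) (hUc : IsPreconnected U)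
    (a b : ℂ → ℂ) (ha : DifferentiableOn ℂ a U) (hb : DifferentiableOn ℂ b U)
    (hb0 : ∃ z ∈ U, b z ≠ 0)
    (hbdd : ∀ z ∈ U, ∃ M : ℝ, ∀ᶠ w in 𝓝 z, b w ≠ 0 → ‖a w / b w‖ ≤ M)
    (hzero : ∀ z ∈ U, b z = 0 → a z = 0) :
    ∃ g : ℂ → ℂ, DifferentiableOn ℂ g U ∧ ∀ z ∈ U, g z * b z = a z := by
  classical
  set f : ℂ → ℂ := fun w => a w / b w with hf
  set g : ℂ → ℂ := fun z => limUnder (𝓝[≠] z) f with hg
  have hban : AnalyticOnNhd ℂ b U := hb.analyticOnNhd hU
  -- `f` is continuous where `b ≠ 0`, so `g = f` there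
  have hgf : ∀ w ∈ U, b w ≠ 0 → g w = f w := by
    intro w hw hbw
    have hda : DifferentiableAt ℂ a w := ha.differentiableAt (hU.mem_nhds hw)
    have hdb : DifferentiableAt ℂ b w := hb.differentiableAt (hU.mem_nhds hw)
    have hcont : ContinuousAt f w := (hda.div hdb hbw).continuousAt
    have ht : Tendsto f (𝓝[≠] w) (𝓝 (f w)) := hcont.tendsto.mono_left nhdsWithin_le_nhds
    exact ht.limUnder_eq
  have key : ∀ z₀ ∈ U, DifferentiableAt ℂ g z₀ := by
    intro z₀ hz₀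
    have hne : ∀ᶠ w in 𝓝[≠] z₀, b w ≠ 0 := by
      rcases (hban z₀ hz₀).eventually_eq_zero_or_eventually_ne_zero with h0 | h0
      · exfalso
        obtain ⟨z, hz, hbz⟩ := hb0
        exact hbz (hban.eqOn_zero_of_preconnected_of_eventuallyEq_zero hUc hz₀ h0 hz)
      · exact h0
    obtain ⟨M, hM⟩ := hbdd z₀ hz₀
    -- a good open neighbourhood
    have hne' : ∀ᶠ w in 𝓝 z₀, w ≠ z₀ → b w ≠ 0 := by
      rw [eventually_nhdsWithin_iff] at hne
      filter_upwards [hne] with w hw hwz using hw hwz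
    have hall : ∀ᶠ w in 𝓝 z₀, w ∈ U ∧ (w ≠ z₀ → b w ≠ 0) ∧ (b w ≠ 0 → ‖a w / b w‖ ≤ M) := by
      filter_upwards [hU.mem_nhds hz₀, hne', hM] with w h1 h2 h3 using ⟨h1, h2, h3⟩
    obtain ⟨s, hs, hsopen, hz₀s⟩ := eventually_nhds_iff.mp hall
    have hsn : s ∈ 𝓝 z₀ := hsopen.mem_nhds hz₀s
    have hd : DifferentiableOn ℂ f (s \ {z₀}) := by
      intro w hw
      have hwU := (hs w hw.1).1
      have hbw := (hs w hw.1).2.1 hw.2
      exact ((ha.differentiableAt (hU.mem_nhds hwU)).div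
        (hb.differentiableAt (hU.mem_nhds hwU)) hbw).differentiableWithinAt
    have hbd : BddAbove (norm ∘ f '' (s \ {z₀})) := by
      refine ⟨M, ?_⟩
      rintro _ ⟨w, hw, rfl⟩
      exact (hs w hw.1).2.2 ((hs w hw.1).2.1 hw.2)
    have hupd := Complex.differentiableOn_update_limUnder_of_bddAbove hsn hd hbd
    have heq : g =ᶠ[𝓝 z₀] Function.update f z₀ (limUnder (𝓝[≠] z₀) f) := by
      filter_upwards [hsn] with w hw
      by_cases hwz : w = z₀
      · subst hwz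
        simp [hg]
      · rw [Function.update_of_ne hwz]
        exact hgf w (hs w hw).1 ((hs w hw).2.1 hwz)
    exact ((hupd.differentiableAt hsn).congr_of_eventuallyEq heq)
  refine ⟨g, fun z hz => (key z hz).differentiableWithinAt, fun z hz => ?_⟩
  by_cases hbz : b z = 0
  · rw [hbz, mul_zero, hzero z hz hbz]
  · rw [hgf z hz hbz, hf]
    simp only
    field_simp


theorem rc_tendsto_ofComplex {z : ℂ} (hz : 0 < z.im) :
    Tendsto ofComplex (𝓝 z) (𝓝 (⟨z, hz⟩ : ℍ)) := by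
  have h := (contMDiffAt_ofComplex (n := 0) hz).continuousAt
  have h2 : ofComplex z = ⟨z, hz⟩ := ofComplex_apply_of_im_pos hz
  rw [ContinuousAt, h2] at h
  exact h

/-- Holomorphic quotient on the upper half plane. -/
theorem rc_exists_holo_quot (A B : ℍ → ℂ) (hA : MDiff A) (hB : MDiff B)
    (hB0 : ∃ τ, B τ ≠ 0)
    (hbdd : ∀ τ : ℍ, ∃ M : ℝ, ∀ᶠ w in 𝓝 τ, B w ≠ 0 → ‖A w / B w‖ ≤ M)
    (hzero : ∀ τ, B τ = 0 → A τ = 0) :
    ∃ G : ℍ → ℂ, MDiff G ∧ ∀ τ, G τ * B τ = A τ := by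
  have ha := UpperHalfPlane.mdifferentiable_iff.mp hA
  have hb := UpperHalfPlane.mdifferentiable_iff.mp hB
  obtain ⟨g, hg, hgb⟩ := rc_exists_quot_aux isOpen_upperHalfPlaneSet
    (convex_halfSpace_im_gt 0).isPreconnected (A ∘ ofComplex) (B ∘ ofComplex) ha hb
    (by
      obtain ⟨τ, hτ⟩ := hB0
      exact ⟨(τ : ℂ), τ.im_pos, by simpa [ofComplex_apply] using hτ⟩)
    (by
      intro z hz
      obtain ⟨M, hM⟩ := hbdd ⟨z, hz⟩
      exact ⟨M, (rc_tendsto_ofComplex hz).eventually hM⟩)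
    (by
      intro z hz h
      have : ofComplex z = ⟨z, hz⟩ := ofComplex_apply_of_im_pos hz
      simp only [Function.comp_apply, this] at h ⊢
      exact hzero _ h)
  refine ⟨fun τ => g (τ : ℂ), ?_, fun τ => ?_⟩
  · rw [UpperHalfPlane.mdifferentiable_iff]
    refine hg.congr fun z hz => ?_
    simp [Function.comp_apply, ofComplex_apply_of_im_pos hz]
  · have := hgb (τ : ℂ) τ.im_pos
    simpa [ofComplex_apply] using this


/-! ### Density of the non-vanishing locus -/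

/-- A continuous function vanishing off the zero set of a non-zero holomorphic function
vanishes identically. -/
theorem rc_eq_zero_of_forall_ne (H B : ℍ → ℂ) (hH : Continuous H) (hB : MDiff B)
    (hB0 : ∃ τ, B τ ≠ 0) (h : ∀ τ, B τ ≠ 0 → H τ = 0) : ∀ τ, H τ = 0 := by
  intro τ₀
  have hb := UpperHalfPlane.mdifferentiable_iff.mp hB
  have hban : AnalyticOnNhd ℂ (B ∘ ofComplex) upperHalfPlaneSet :=
    hb.analyticOnNhd isOpen_upperHalfPlaneSet
  have hfreq : ∃ᶠ w in 𝓝 τ₀, B w ≠ 0 := by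
    intro hcon
    have hcon' : ∀ᶠ w in 𝓝 τ₀, B w = 0 := by
      filter_upwards [hcon] with w hw using not_not.mp hw
    have h1 : ∀ᶠ z in 𝓝 (τ₀ : ℂ), (B ∘ ofComplex) z = 0 :=
      (rc_tendsto_ofComplex τ₀.im_pos).eventually hcon'
    obtain ⟨τ, hτ⟩ := hB0
    have h2 := hban.eqOn_zero_of_preconnected_of_eventuallyEq_zero
      (convex_halfSpace_im_gt 0).isPreconnected τ₀.im_pos h1 τ.im_pos
    exact hτ (by simpa [ofComplex_apply] using h2)
  have hcl : IsClosed {τ : ℍ | H τ = 0} := isClosed_eq hH continuous_const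
  have hmem : τ₀ ∈ closure {τ : ℍ | H τ = 0} := by
    rw [mem_closure_iff_frequently]
    exact hfreq.mono fun w hw => h w hw
  exact hcl.closure_subset hmem

/-! ### The monic relation for the quotient -/

/-- Dividing the homogeneous relation by `B ^ n`. -/
theorem rc_rel_div (n : ℕ) (c : Fin n → ℂ) (a b : ℂ) (hb : b ≠ 0)
    (h : a ^ n + ∑ i : Fin n, c i * a ^ (i : ℕ) * b ^ (n - (i : ℕ)) = 0) :
    (a / b) ^ n + ∑ i : Fin n, c i * (a / b) ^ (i : ℕ) = 0 := by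
  have hbn : b ^ n ≠ 0 := pow_ne_zero _ hb
  have : (a / b) ^ n + ∑ i : Fin n, c i * (a / b) ^ (i : ℕ)
      = (a ^ n + ∑ i : Fin n, c i * a ^ (i : ℕ) * b ^ (n - (i : ℕ))) / b ^ n := by
    rw [add_div, Finset.sum_div, div_pow]
    congr 1
    refine Finset.sum_congr rfl fun i _ => ?_
    have hi : (i : ℕ) ≤ n := i.2.le
    have hsplit : b ^ n = b ^ (i : ℕ) * b ^ (n - (i : ℕ)) := by
      rw [← pow_add, Nat.add_sub_cancel' hi]
    rw [div_pow, hsplit]
    have h1 : b ^ (i : ℕ) ≠ 0 := pow_ne_zero _ hb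
    have h2 : b ^ (n - (i : ℕ)) ≠ 0 := pow_ne_zero _ hb
    field_simp
  rw [this, h, zero_div]

/-- The relation forces `A` to vanish at the zeros of `B`. -/
theorem rc_zero_of_rel (n : ℕ) (c : Fin n → ℂ) (a b : ℂ) (hb : b = 0)
    (h : a ^ n + ∑ i : Fin n, c i * a ^ (i : ℕ) * b ^ (n - (i : ℕ)) = 0) : a = 0 := by
  have hs : ∑ i : Fin n, c i * a ^ (i : ℕ) * b ^ (n - (i : ℕ)) = 0 := by
    refine Finset.sum_eq_zero fun i _ => ?_
    have : n - (i : ℕ) ≠ 0 := by have := i.2; omega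
    rw [hb, zero_pow this, mul_zero]
  rw [hs, add_zero] at h
  exact pow_eq_zero_iff (n := n) (by
    rintro rfl
    simp at h) |>.mp h

/-! ### Main reconstruction theorem -/

/-- **Reconstruction.**  From holomorphic `A` (weight `k + w` on `Γ₀(N)`), `B ≠ 0` (weight `w`,
level one) and a monic relation `A ^ n + ∑ cᵢ A ^ i B ^ (n - i) = 0` with level-one coefficients
`cᵢ` of weight `k (n - i)` vanishing at `i∞`, we get a cusp form `f'` of weight `k` on `Γ₀(N)`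
with `f' * B = A`. -/
theorem rc_exists_cuspForm (N : ℕ) [NeZero N] (k w : ℤ) (n : ℕ) (hn : 0 < n)
    (A B : ℍ → ℂ) (hA : MDiff A) (hB : MDiff B) (hB0 : ∃ τ, B τ ≠ 0)
    (hAinv : ∀ γ ∈ Gamma0 N, A ∣[k + w] (γ : SL(2, ℤ)) = A)
    (hBinv : ∀ γ : SL(2, ℤ), B ∣[w] γ = B)
    (c : Fin n → ℍ → ℂ) (hcdiff : ∀ i, MDiff (c i))
    (hcinv : ∀ (i : Fin n) (γ : SL(2, ℤ)), c i ∣[k * ((n : ℤ) - (i : ℕ))] γ = c i)
    (hc0 : ∀ i, IsZeroAtImInfty (c i))
    (hrel : ∀ τ, A τ ^ n + ∑ i : Fin n, c i τ * A τ ^ (i : ℕ) * B τ ^ (n - (i : ℕ)) = 0) :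
    ∃ f' : CuspForm (Gamma0 N) k, ∀ τ, f' τ * B τ = A τ := by
  -- continuity of the coefficient sum
  have hcsum : Continuous fun τ : ℍ => ∑ i : Fin n, ‖c i τ‖ :=
    continuous_finsetSum _ fun i _ => (hcdiff i).continuous.norm
  -- local boundedness of `A / B`
  have hbdd : ∀ τ : ℍ, ∃ M : ℝ, ∀ᶠ w in 𝓝 τ, B w ≠ 0 → ‖A w / B w‖ ≤ M := by
    intro τ
    refine ⟨max 1 ((∑ i : Fin n, ‖c i τ‖) + 1), ?_⟩
    have hev : ∀ᶠ w in 𝓝 τ, (∑ i : Fin n, ‖c i w‖) < (∑ i : Fin n, ‖c i τ‖) + 1 :=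
      hcsum.continuousAt.eventually_lt continuousAt_const (by simp)
    filter_upwards [hev] with w hw hBw
    refine (rc_root_bound n (fun i => c i w) _ (rc_rel_div n _ _ _ hBw (hrel w))).trans ?_
    exact max_le_max le_rfl hw.le
  have hzero : ∀ τ, B τ = 0 → A τ = 0 := fun τ hτ =>
    rc_zero_of_rel n (fun i => c i τ) _ _ hτ (hrel τ)
  obtain ⟨G, hG, hGB⟩ := rc_exists_holo_quot A B hA hB hB0 hbdd hzero
  have hGdiv : ∀ τ, B τ ≠ 0 → G τ = A τ / B τ := fun τ hτ => by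
    rw [eq_div_iff hτ, hGB]
  -- the monic relation for `G`
  have hGrel : ∀ τ, G τ ^ n + ∑ i : Fin n, c i τ * G τ ^ (i : ℕ) = 0 := by
    refine rc_eq_zero_of_forall_ne _ B ?_ hB hB0 fun τ hτ => ?_
    · exact (hG.continuous.pow n).add
        (continuous_finsetSum _ fun i _ => (hcdiff i).continuous.mul (hG.continuous.pow _))
    · rw [hGdiv τ hτ]
      exact rc_rel_div n _ _ _ hτ (hrel τ)
  -- slash invariance
  have hGinv : ∀ γ ∈ Gamma0 N, G ∣[k] (γ : SL(2, ℤ)) = G := by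
    intro γ hγ
    have hcont : Continuous fun τ => (G ∣[k] (γ : SL(2, ℤ))) τ - G τ :=
      ((hG.slash k _).continuous).sub hG.continuous
    have hmul : (G ∣[k] γ) * B = G * B := by
      have h1 : (G * B) ∣[k + w] γ = (G ∣[k] γ) * (B ∣[w] γ) := mul_slash_SL2 k w γ G B
      have h2 : G * B = A := funext fun τ => hGB τ
      rw [hBinv γ, h2, hAinv γ hγ] at h1
      rw [h2, ← h1]
    have := rc_eq_zero_of_forall_ne _ B hcont hB hB0 fun τ hτ => by
      have h3 := congrFun hmul τ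
      simp only [Pi.mul_apply] at h3
      have h4 := mul_right_cancel₀ hτ h3
      rw [h4, sub_self]
    funext τ
    exact sub_eq_zero.mp (this τ)
  -- the relation for the translates
  have hslashrel : ∀ (γ : SL(2, ℤ)) (τ : ℍ),
      (G ∣[k] γ) τ ^ n + ∑ i : Fin n, c i τ * (G ∣[k] γ) τ ^ (i : ℕ) = 0 := by
    intro γ τ
    have hd : denom γ τ ≠ 0 := denom_ne_zero γ τ
    have hrelγ := hGrel (γ • τ)
    have hci : ∀ i : Fin n, c i τ = c i (γ • τ) * denom γ τ ^ (-(k * ((n : ℤ) - (i : ℕ)))) := by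
      intro i
      have := congrFun (hcinv i γ) τ
      rw [SL_slash_apply] at this
      exact this.symm
    rw [SL_slash_apply]
    have hsum : ∑ i : Fin n, c i τ * (G (γ • τ) * denom γ τ ^ (-k)) ^ (i : ℕ)
        = (∑ i : Fin n, c i (γ • τ) * G (γ • τ) ^ (i : ℕ)) * (denom γ τ ^ (-k)) ^ n := by
      rw [Finset.sum_mul]
      refine Finset.sum_congr rfl fun i _ => ?_
      rw [hci i, mul_pow]
      have hi : (i : ℕ) ≤ n := i.2.le
      have hpow : denom γ τ ^ (-(k * ((n : ℤ) - (i : ℕ)))) * (denom γ τ ^ (-k)) ^ (i : ℕ)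
          = (denom γ τ ^ (-k)) ^ n := by
        rw [← zpow_natCast (denom γ τ ^ (-k)) (i : ℕ), ← zpow_natCast (denom γ τ ^ (-k)) n,
          ← zpow_mul, ← zpow_mul, ← zpow_add₀ hd]
        congr 1
        ring
      rw [← hpow]
      ring
    rw [hsum, mul_pow, ← add_mul, hrelγ, zero_mul]
  -- decay at infinity of all translates
  have hsumtend : Tendsto (fun τ : ℍ => ∑ i : Fin n, ‖c i τ‖) atImInfty (𝓝 0) := by
    have : Tendsto (fun τ : ℍ => ∑ i : Fin n, ‖c i τ‖) atImInfty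
        (𝓝 (∑ _i : Fin n, (0 : ℝ))) :=
      tendsto_finsetSum _ fun i _ => tendsto_zero_iff_norm_tendsto_zero.mp (hc0 i)
    simpa using this
  have hzeroAt : ∀ γ : SL(2, ℤ), IsZeroAtImInfty (G ∣[k] γ) := by
    intro γ
    rw [IsZeroAtImInfty, ZeroAtFilter, Metric.tendsto_nhds]
    intro ε hε
    have he : 0 < min 1 ((ε / 2) ^ n) := lt_min one_pos (pow_pos (half_pos hε) n)
    have hev : ∀ᶠ τ in atImInfty, (∑ i : Fin n, ‖c i τ‖) < min 1 ((ε / 2) ^ n) :=
      hsumtend.eventually_lt tendsto_const_nhds he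
    filter_upwards [hev] with τ hτ
    have h1 := rc_root_small n (fun i => c i τ) _ (hslashrel γ τ) _ hτ.le (min_le_left _ _)
    have h2 : ‖(G ∣[k] γ) τ‖ ^ n ≤ (ε / 2) ^ n := h1.trans (min_le_right _ _)
    have h3 : ‖(G ∣[k] γ) τ‖ ≤ ε / 2 :=
      le_of_pow_le_pow_left₀ hn.ne' (half_pos hε).le h2
    rw [dist_zero_right]
    linarith
  refine ⟨{ toFun := G
            slash_action_eq' := ?_
            holo' := hG
            zero_at_cusps' := ?_ }, hGB⟩
  · rintro _ ⟨γ, hγ, rfl⟩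
    exact hGinv γ hγ
  · intro c hc
    rw [Subgroup.IsArithmetic.isCusp_iff_isCusp_SL2Z] at hc
    rw [OnePoint.isZeroAt_iff_forall_SL2Z hc]
    exact fun γ _ => hzeroAt γ

end Fermat.Agent.S23
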