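import Fermat.Agent.S23.PrimElt

/-!
# S23 helper [S23-PRIMELT], part 2: integrality of the `q`-expansions of `Δ` and `u = Δ(N z)`

* `pe_qExpansion_discriminant_int`: `qExpansion 1 Δ` is the image of an integral power series
  (via `Δ = (E₄³ - E₆²) / 1728` and `12 ∣ 5 σ₃(n) + 7 σ₅(n)`).
* `pe_discriminant_coeff_int`, `pe_qExpansion_coeff_int`, `pe_qCoeff_int`: the coefficients of
  `Δ` and of `u` are integers.
-/

set_option autoImplicit false

namespace Fermat.Agent.S23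

open UpperHalfPlane CongruenceSubgroup ModularFormClass ModularForm EisensteinSeries
open scoped MatrixGroups ModularForm Manifold Real ArithmeticFunction.sigma

local notation "Δ" => ModularForm.discriminant

theorem pe_twelve_dvd (d : ℕ) : (12 : ℤ) ∣ 5 * (d : ℤ) ^ 3 + 7 * (d : ℤ) ^ 5 := by
  have h : ∀ x : ZMod 12, 5 * x ^ 3 + 7 * x ^ 5 = 0 := by decide
  have h2 := h (d : ZMod 12)
  have h3 : ((5 * (d : ℤ) ^ 3 + 7 * (d : ℤ) ^ 5 : ℤ) : ZMod 12) = 0 := by
    push_cast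
    exact h2
  exact (ZMod.intCast_zmod_eq_zero_iff_dvd _ 12).mp h3

theorem pe_twelve_dvd_sigma (n : ℕ) :
    (12 : ℤ) ∣ 5 * (ArithmeticFunction.sigma 3 n : ℤ) + 7 * (ArithmeticFunction.sigma 5 n : ℤ) := by
  rw [ArithmeticFunction.sigma_apply, ArithmeticFunction.sigma_apply]
  push_cast
  rw [Finset.mul_sum, Finset.mul_sum, ← Finset.sum_add_distrib]
  exact Finset.dvd_sum fun d _ => pe_twelve_dvd d

/-- The integral power series `∑ σ₃(n) qⁿ`. -/
noncomputable def pe_A : PowerSeries ℤ := PowerSeries.mk fun n => (ArithmeticFunction.sigma 3 n : ℤ)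

/-- The integral power series `∑ σ₅(n) qⁿ`. -/
noncomputable def pe_B : PowerSeries ℤ := PowerSeries.mk fun n => (ArithmeticFunction.sigma 5 n : ℤ)

/-- The integral power series `∑ (5 σ₃(n) + 7 σ₅(n)) / 12 qⁿ`. -/
noncomputable def pe_C : PowerSeries ℤ :=
  PowerSeries.mk fun n =>
    (5 * (ArithmeticFunction.sigma 3 n : ℤ) + 7 * (ArithmeticFunction.sigma 5 n : ℤ)) / 12

theorem pe_C_spec : 12 * pe_C = 5 * pe_A + 7 * pe_B := by
  ext n
  have h12 : (12 : PowerSeries ℤ) = PowerSeries.C (12 : ℤ) := by simp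
  have h5 : (5 : PowerSeries ℤ) = PowerSeries.C (5 : ℤ) := by simp
  have h7 : (7 : PowerSeries ℤ) = PowerSeries.C (7 : ℤ) := by simp
  rw [h12, h5, h7, map_add, PowerSeries.coeff_C_mul, PowerSeries.coeff_C_mul,
    PowerSeries.coeff_C_mul, pe_A, pe_B, pe_C, PowerSeries.coeff_mk, PowerSeries.coeff_mk,
    PowerSeries.coeff_mk]
  exact Int.mul_ediv_cancel' (pe_twelve_dvd_sigma n)

theorem pe_qExpansion_E4 :
    qExpansion 1 E₄ = PowerSeries.map (Int.castRingHom ℂ) (1 + 240 * pe_A) := by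
  ext n
  rw [E_qExpansion_coeff _ ⟨2, rfl⟩, PowerSeries.coeff_map]
  have h240 : (240 : PowerSeries ℤ) = PowerSeries.C (240 : ℤ) := by simp
  rw [map_add, h240, PowerSeries.coeff_C_mul, pe_A, PowerSeries.coeff_mk, PowerSeries.coeff_one]
  have hb : bernoulli 4 = -1 / 30 := by decide +kernel
  split_ifs with h
  · subst h
    simp
  · rw [hb]
    push_cast
    norm_num

theorem pe_qExpansion_E6 :
    qExpansion 1 E₆ = PowerSeries.map (Int.castRingHom ℂ) (1 - 504 * pe_B) := by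
  ext n
  rw [E_qExpansion_coeff _ ⟨3, rfl⟩, PowerSeries.coeff_map]
  have h504 : (504 : PowerSeries ℤ) = PowerSeries.C (504 : ℤ) := by simp
  rw [map_sub, h504, PowerSeries.coeff_C_mul, pe_B, PowerSeries.coeff_mk, PowerSeries.coeff_one]
  have hb : bernoulli 6 = 1 / 42 := by decide +kernel
  split_ifs with h
  · subst h
    simp
  · rw [hb]
    push_cast
    norm_num

/-- The `q`-expansion of `Δ` has integral coefficients. -/
theorem pe_qExpansion_discriminant_int :
    qExpansion 1 Δ = PowerSeries.map (Int.castRingHom ℂ)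
      (pe_C + 100 * pe_A ^ 2 + 8000 * pe_A ^ 3 - 147 * pe_B ^ 2) := by
  have h1 := lo_qExpansion_discriminant
  rw [pe_qExpansion_E4, pe_qExpansion_E6, ← map_pow, ← map_pow, ← map_sub] at h1
  have h2 : (1 + 240 * pe_A) ^ 3 - (1 - 504 * pe_B) ^ 2
      = 1728 * (pe_C + 100 * pe_A ^ 2 + 8000 * pe_A ^ 3 - 147 * pe_B ^ 2) := by
    linear_combination (-144 : PowerSeries ℤ) * pe_C_spec
  rw [h2, map_mul] at h1
  have h3 : PowerSeries.map (Int.castRingHom ℂ) (1728 : PowerSeries ℤ) = (1728 : PowerSeries ℂ) :=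
    map_ofNat (PowerSeries.map (Int.castRingHom ℂ)) 1728
  rw [h3] at h1
  ext n
  have h4 := congrArg (fun p => PowerSeries.coeff n p) h1
  simp only [PowerSeries.coeff_smul] at h4
  have h1728 : (1728 : PowerSeries ℂ) = PowerSeries.C (1728 : ℂ) :=
    (map_ofNat (PowerSeries.C (R := ℂ)) 1728).symm
  rw [h1728, PowerSeries.coeff_C_mul] at h4
  have h0 : (1728 : ℂ) ≠ 0 := by norm_num
  exact mul_left_cancel₀ h0 (by simpa using h4)

theorem pe_discriminant_coeff_int (n : ℕ) :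
    ∃ r : ℤ, (qExpansion 1 Δ).coeff n = (r : ℂ) := by
  refine ⟨(pe_C + 100 * pe_A ^ 2 + 8000 * pe_A ^ 3 - 147 * pe_B ^ 2).coeff n, ?_⟩
  rw [pe_qExpansion_discriminant_int, PowerSeries.coeff_map]
  rfl

/-- The `q`-expansion of `u(z) = Δ(N z)` has integral coefficients. -/
theorem pe_qExpansion_coeff_int (N : ℕ) [NeZero N] (n : ℕ) :
    ∃ r : ℤ, (qExpansion 1 (pe_u N)).coeff n = (r : ℂ) := by
  rw [pe_qExpansion_coeff]
  split_ifs with h
  · exact pe_discriminant_coeff_int _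
  · exact ⟨0, by simp⟩

theorem pe_qCoeff_int (N : ℕ) [NeZero N] (n : ℕ) :
    ∃ r : ℤ, ModularFormClass.qCoeff (pe_u N) n = (r : ℂ) :=
  pe_qExpansion_coeff_int N n

end Fermat.Agent.S23
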