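import Mathlib
import Fermat.Prelude.Def_CuspForm_IntegralStructure
import Fermat.Prelude.Thm_ModularForm_sturm_bound_Gamma0
import Fermat.Prelude.Thm_CongruenceSubgroup_one_mem_strictPeriods_Gamma0

/-!
# S23 helper [S23-DESCENT]: Galois descent for `Aut(ℂ)`-stable spaces (Plan Q, T2 + T3)

* `desc_exists_ringAut_ne` / `desc_mem_range_of_fixed` (**T3**): an element of an algebraically
  closed field `K` of characteristic `0` fixed by all ring automorphisms of `K` is rational.
* `desc_span_rational`, `desc_span_rational_of_injective` (**T2**): a subspace of `K^ι`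
  (`ι` finite) stable under the coordinatewise action of all ring automorphisms is spanned by its
  rational vectors.
* `desc_cuspForm_span_rational`: if the space of cusp forms `S_k(Γ₀(N))` is stable under the
  action of `Aut(ℂ)` on `q`-expansions (**T1**, a hypothesis here), then it is spanned by the forms
  all of whose `q`-coefficients are rational.
-/

set_option autoImplicit false

namespace Fermat.Agent.S23

open MvPolynomial


/-- Any ring automorphism of a subfield `A` of an algebraically closed field `K` extends to a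
ring automorphism of `K`. -/
theorem desc_exists_extension {K : Type*} [Field K] [IsAlgClosed K]
    (A : Type*) [Field A] [Algebra A K] (τ : A ≃+* A) :
    ∃ σ : K ≃+* K, ∀ a : A, σ (algebraMap A K a) = algebraMap A K (τ a) := by
  obtain ⟨ι, v, hv⟩ := exists_isTranscendenceBasis' A K
  have := IsAlgClosed.isAlgClosure_of_transcendence_basis v hv
  let e : Algebra.adjoin A (Set.range v) ≃+* Algebra.adjoin A (Set.range v) :=
    (hv.1.aevalEquiv.symm.toRingEquiv.trans (MvPolynomial.mapEquiv ι τ)).trans
      hv.1.aevalEquiv.toRingEquiv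
  refine ⟨IsAlgClosure.equivOfEquiv K K e, fun a => ?_⟩
  have h1 : algebraMap A K a
      = algebraMap (Algebra.adjoin A (Set.range v)) K (algebraMap A _ a) := rfl
  have h2 : algebraMap A K (τ a)
      = algebraMap (Algebra.adjoin A (Set.range v)) K (algebraMap A _ (τ a)) := rfl
  rw [h1, h2, IsAlgClosure.equivOfEquiv_algebraMap]
  congr 1
  have h3 : ∀ b : A, hv.1.aevalEquiv (C b) = algebraMap A _ b := by
    intro b
    rw [← MvPolynomial.algebraMap_eq, AlgEquiv.commutes]
  have h4 : hv.1.aevalEquiv.symm (algebraMap A _ a) = C a := by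
    rw [AlgEquiv.symm_apply_eq, h3]
  simp only [e, RingEquiv.trans_apply, AlgEquiv.coe_ringEquiv]
  simp [h4, h3]

/-- translation automorphism of a polynomial ring -/
theorem desc_exists_translate (ι : Type*) (R : Type*) [CommRing R] (i₀ : ι) :
    ∃ e : MvPolynomial ι R ≃+* MvPolynomial ι R, e (X i₀) = X i₀ + 1 := by
  classical
  let f : MvPolynomial ι R →ₐ[R] MvPolynomial ι R :=
    aeval (fun i => X i + (if i = i₀ then 1 else 0))
  let g : MvPolynomial ι R →ₐ[R] MvPolynomial ι R :=
    aeval (fun i => X i - (if i = i₀ then 1 else 0))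
  have hfg : f.comp g = AlgHom.id R _ := by
    apply MvPolynomial.algHom_ext
    intro i
    simp [f, g]
  have hgf : g.comp f = AlgHom.id R _ := by
    apply MvPolynomial.algHom_ext
    intro i
    simp [f, g]
  refine ⟨(AlgEquiv.ofAlgHom f g hfg hgf).toRingEquiv, ?_⟩
  simp [f]

theorem desc_exists_ringAut_ne_of_transcendental {K : Type*} [Field K] [IsAlgClosed K]
    [CharZero K] (z : K) (hz : Transcendental ℚ z) : ∃ σ : K ≃+* K, σ z ≠ z := by
  have hs : AlgebraicIndepOn ℚ id ({z} : Set K) := by
    have : AlgebraicIndependent ℚ (fun i : ({z} : Set K) => id (i : K)) := by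
      rw [algebraicIndependent_singleton_iff (⟨z, rfl⟩ : ({z} : Set K))]
      exact hz
    exact this
  obtain ⟨t, hzt, ht⟩ := exists_isTranscendenceBasis_superset hs
  have := IsAlgClosed.isAlgClosure_of_transcendence_basis _ ht
  obtain ⟨e₀, he₀⟩ := desc_exists_translate t ℚ ⟨z, hzt rfl⟩
  let e : Algebra.adjoin ℚ (Set.range ((↑) : t → K)) ≃+* Algebra.adjoin ℚ (Set.range ((↑) : t → K)) :=
    (ht.1.aevalEquiv.symm.toRingEquiv.trans e₀).trans ht.1.aevalEquiv.toRingEquiv
  refine ⟨IsAlgClosure.equivOfEquiv K K e, ?_⟩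
  have hX : ∀ i : t, ((ht.1.aevalEquiv (X i) : Algebra.adjoin ℚ (Set.range ((↑) : t → K))) : K)
      = i := by
    intro i
    simp
  have hz1 : z = algebraMap (Algebra.adjoin ℚ (Set.range ((↑) : t → K))) K
      (ht.1.aevalEquiv (X ⟨z, hzt rfl⟩)) := by
    simp
  have h5 : ht.1.aevalEquiv.symm (ht.1.aevalEquiv (X ⟨z, hzt rfl⟩)) = X ⟨z, hzt rfl⟩ := by
    simp
  have h6 : IsAlgClosure.equivOfEquiv K K e z = z + 1 := by
    conv_lhs => rw [hz1]
    rw [IsAlgClosure.equivOfEquiv_algebraMap]
    simp only [e, RingEquiv.trans_apply, AlgEquiv.coe_ringEquiv]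
    rw [h5, he₀]
    simp
  rw [h6]
  simp

theorem desc_exists_ringAut_ne_of_isAlgebraic {K : Type*} [Field K] [IsAlgClosed K]
    [CharZero K] (z : K) (hz : IsAlgebraic ℚ z) (hzq : z ∉ Set.range (algebraMap ℚ K)) :
    ∃ σ : K ≃+* K, σ z ≠ z := by
  let A := algebraicClosure ℚ K
  have hzA : z ∈ A := by
    rw [mem_algebraicClosure_iff]  -- guess
    exact hz
  have hbot : (⟨z, hzA⟩ : A) ∉ (⊥ : IntermediateField ℚ A) := by
    intro h
    rw [IntermediateField.mem_bot] at h
    obtain ⟨q, hq⟩ := h
    apply hzq
    refine ⟨q, ?_⟩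
    have := congrArg (algebraMap A K) hq
    simpa using this
  have hcl : IsAlgClosure ℚ A := algebraicClosure.isAlgClosure ℚ K
  have hgal : IsGalois ℚ A := IsAlgClosure.isGalois ℚ A
  rw [InfiniteGalois.mem_bot_iff_fixed] at hbot
  push Not at hbot
  obtain ⟨τ, hτ⟩ := hbot
  obtain ⟨σ, hσ⟩ := desc_exists_extension (K := K) A τ.toRingEquiv
  refine ⟨σ, ?_⟩
  have h1 := hσ ⟨z, hzA⟩
  intro h
  apply hτ
  apply (algebraMap A K).injective
  exact h1.symm.trans h

/-- **T3**: the fixed field of the ring automorphisms of an algebraically closed field of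
characteristic zero is `ℚ`. -/
theorem desc_exists_ringAut_ne {K : Type*} [Field K] [IsAlgClosed K]
    [CharZero K] (z : K) (hzq : z ∉ Set.range (algebraMap ℚ K)) :
    ∃ σ : K ≃+* K, σ z ≠ z := by
  by_cases hz : IsAlgebraic ℚ z
  · exact desc_exists_ringAut_ne_of_isAlgebraic z hz hzq
  · exact desc_exists_ringAut_ne_of_transcendental z hz

theorem desc_mem_range_of_fixed {K : Type*} [Field K] [IsAlgClosed K]
    [CharZero K] (z : K) (h : ∀ σ : K ≃+* K, σ z = z) : ∃ q : ℚ, (q : K) = z := by
  by_contra hcon
  obtain ⟨σ, hσ⟩ := desc_exists_ringAut_ne z (fun ⟨q, hq⟩ => hcon ⟨q, by simpa using hq⟩)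
  exact hσ (h σ)

section Descent

variable {K : Type*} [Field K] [IsAlgClosed K] [CharZero K] {ι : Type*} [Finite ι]

/-- Lemma A: a nonzero vector of a `Aut(K)`-stable subspace of `K^ι` dominates (in support) a
nonzero vector with rational coordinates of the subspace. -/
theorem desc_exists_rational_of_ne_zero (V : Submodule K (ι → K))
    (hV : ∀ (σ : K ≃+* K) (v : ι → K), v ∈ V → (fun i => σ (v i)) ∈ V) :
    ∀ (n : ℕ) (v : ι → K), v ∈ V → v ≠ 0 → (Function.support v).ncard ≤ n →
      ∃ u : ι → K, u ∈ V ∧ u ≠ 0 ∧ Function.support u ⊆ Function.support v ∧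
        ∀ i, ∃ q : ℚ, (q : K) = u i := by
  intro n
  induction n with
  | zero =>
    intro v _ hv0 hn
    exfalso
    apply hv0
    have : Function.support v = ∅ := by
      have := Nat.le_zero.mp hn
      exact (Set.ncard_eq_zero (Set.toFinite _)).mp this
    exact Function.support_eq_empty_iff.mp this
  | succ n ih =>
    intro v hvV hv0 hn
    obtain ⟨i₀, hi₀⟩ : ∃ i, v i ≠ 0 := by
      by_contra h
      push Not at h
      exact hv0 (funext h)
    set v' : ι → K := (v i₀)⁻¹ • v with hv'
    have hv'V : v' ∈ V := V.smul_mem _ hvV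
    have hv'i₀ : v' i₀ = 1 := by simp [hv', hi₀]
    have hsupp' : Function.support v' ⊆ Function.support v := by
      intro i hi
      simp only [Function.mem_support, hv', Pi.smul_apply, smul_eq_mul, ne_eq, mul_eq_zero,
        inv_eq_zero, not_or] at hi ⊢
      exact hi.2
    by_cases hfix : ∀ σ : K ≃+* K, ∀ i, σ (v' i) = v' i
    · refine ⟨v', hv'V, ?_, hsupp', fun i => ?_⟩
      · intro h
        have := congrFun h i₀
        simp [hv'i₀] at this
      · exact desc_mem_range_of_fixed (v' i) (fun σ => hfix σ i)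
    · push Not at hfix
      obtain ⟨σ, i₁, hσ⟩ := hfix
      set w : ι → K := (fun i => σ (v' i)) - v' with hw
      have hwV : w ∈ V := V.sub_mem (hV σ v' hv'V) hv'V
      have hw0 : w ≠ 0 := by
        intro h
        have := congrFun h i₁
        simp only [hw, Pi.sub_apply, Pi.zero_apply, sub_eq_zero] at this
        exact hσ this
      have hwsupp : Function.support w ⊆ Function.support v \ {i₀} := by
        intro i hi
        simp only [Function.mem_support, hw, Pi.sub_apply, ne_eq, sub_eq_zero] at hi
        refine ⟨hsupp' ?_, ?_⟩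
        · simp only [Function.mem_support, ne_eq]
          intro h
          apply hi
          rw [h, map_zero]
        · intro h
          rw [Set.mem_singleton_iff] at h
          apply hi
          rw [h, hv'i₀, map_one]
      have hcard : (Function.support w).ncard ≤ n := by
        have h1 : (Function.support v \ {i₀}).ncard < (Function.support v).ncard :=
          Set.ncard_sdiff_singleton_lt_of_mem (by simpa using hi₀) (Set.toFinite _)
        have h2 : (Function.support w).ncard ≤ (Function.support v \ {i₀}).ncard :=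
          Set.ncard_le_ncard hwsupp (Set.toFinite _)
        omega
      obtain ⟨u, huV, hu0, husupp, hurat⟩ := ih w hwV hw0 hcard
      exact ⟨u, huV, hu0, fun i hi => (hwsupp (husupp hi)).1, hurat⟩

/-- **T2** (descent): a subspace of `K^ι` (`ι` finite, `K` algebraically closed of
characteristic `0`) which is stable under the coordinatewise action of all ring automorphisms of
`K` is spanned by its vectors with rational coordinates. -/
theorem desc_span_rational (V : Submodule K (ι → K))
    (hV : ∀ (σ : K ≃+* K) (v : ι → K), v ∈ V → (fun i => σ (v i)) ∈ V) :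
    Submodule.span K {v : ι → K | v ∈ V ∧ ∀ i, ∃ q : ℚ, (q : K) = v i} = V := by
  apply le_antisymm
  · rw [Submodule.span_le]
    intro v hv
    exact hv.1
  · have key : ∀ (n : ℕ) (v : ι → K), v ∈ V → (Function.support v).ncard ≤ n →
        v ∈ Submodule.span K {v : ι → K | v ∈ V ∧ ∀ i, ∃ q : ℚ, (q : K) = v i} := by
      intro n
      induction n with
      | zero =>
        intro v _ hn
        have : Function.support v = ∅ :=
          (Set.ncard_eq_zero (Set.toFinite _)).mp (Nat.le_zero.mp hn)
        rw [Function.support_eq_empty_iff.mp this]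
        exact Submodule.zero_mem _
      | succ n ih =>
        intro v hvV hn
        by_cases hv0 : v = 0
        · rw [hv0]; exact Submodule.zero_mem _
        obtain ⟨u, huV, hu0, husupp, hurat⟩ :=
          desc_exists_rational_of_ne_zero V hV _ v hvV hv0 le_rfl
        obtain ⟨i₀, hi₀⟩ : ∃ i, u i ≠ 0 := by
          by_contra h
          push Not at h
          exact hu0 (funext h)
        set w : ι → K := v - (v i₀ / u i₀) • u with hw
        have hwV : w ∈ V := V.sub_mem hvV (V.smul_mem _ huV)
        have hwsupp : Function.support w ⊆ Function.support v \ {i₀} := by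
          intro i hi
          simp only [Function.mem_support, hw, Pi.sub_apply, Pi.smul_apply, smul_eq_mul,
            ne_eq] at hi
          refine ⟨?_, ?_⟩
          · simp only [Function.mem_support, ne_eq]
            intro h
            apply hi
            have hui : u i = 0 := by
              by_contra hui
              exact (husupp (by simpa using hui)) h
            rw [h, hui]
            simp
          · intro h
            rw [Set.mem_singleton_iff] at h
            apply hi
            rw [h]
            field_simp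
            simp
        have hcard : (Function.support w).ncard ≤ n := by
          have h1 : (Function.support v \ {i₀}).ncard < (Function.support v).ncard :=
            Set.ncard_sdiff_singleton_lt_of_mem (husupp (by simpa using hi₀)) (Set.toFinite _)
          have h2 : (Function.support w).ncard ≤ (Function.support v \ {i₀}).ncard :=
            Set.ncard_le_ncard hwsupp (Set.toFinite _)
          omega
        have hwspan := ih w hwV hcard
        have hv_eq : v = w + (v i₀ / u i₀) • u := by
          rw [hw]; abel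
        rw [hv_eq]
        exact Submodule.add_mem _ hwspan
          (Submodule.smul_mem _ _ (Submodule.subset_span ⟨huV, hurat⟩))
    intro v hv
    exact key _ v hv le_rfl

/-- **T2**, abstract form: if `Φ : W → K^ι` is an injective linear map whose image is stable under
the coordinatewise action of `Aut(K)`, then `W` is spanned by the vectors with rational
coordinates. -/
theorem desc_span_rational_of_injective {W : Type*} [AddCommGroup W] [Module K W]
    (Φ : W →ₗ[K] (ι → K)) (hΦ : Function.Injective Φ)
    (hσ : ∀ (σ : K ≃+* K) (w : W), ∃ w' : W, ∀ i, Φ w' i = σ (Φ w i)) :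
    Submodule.span K {w : W | ∀ i, ∃ q : ℚ, (q : K) = Φ w i} = ⊤ := by
  have h1 := desc_span_rational (LinearMap.range Φ) (by
    rintro σ v ⟨w, rfl⟩
    obtain ⟨w', hw'⟩ := hσ σ w
    exact ⟨w', funext hw'⟩)
  rw [eq_top_iff]
  intro w _
  have hw : Φ w ∈ Submodule.span K
      {v : ι → K | v ∈ LinearMap.range Φ ∧ ∀ i, ∃ q : ℚ, (q : K) = v i} := by
    rw [h1]; exact ⟨w, rfl⟩
  have himg : {v : ι → K | v ∈ LinearMap.range Φ ∧ ∀ i, ∃ q : ℚ, (q : K) = v i}
      = Φ '' {w : W | ∀ i, ∃ q : ℚ, (q : K) = Φ w i} := by
    ext v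
    constructor
    · rintro ⟨⟨w, rfl⟩, hq⟩
      exact ⟨w, hq, rfl⟩
    · rintro ⟨w, hq, rfl⟩
      exact ⟨⟨w, rfl⟩, hq⟩
  rw [himg, ← Submodule.map_span] at hw
  obtain ⟨w', hw', hww'⟩ := hw
  rw [← hΦ hww']
  exact hw'

end Descent

section Modular

open CongruenceSubgroup ModularFormClass

/-- `q`-coefficients are additive on cusp forms (any weight). -/
theorem desc_qCoeff_add {N : ℕ} {k : ℤ} (f g : CuspForm (Gamma0 N) k) (n : ℕ) :
    qCoeff (⇑(f + g)) n = qCoeff (⇑f) n + qCoeff (⇑g) n := by
  unfold qCoeff
  rw [FunLike.coe_add, ModularForm.qExpansion_add one_pos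
    (CongruenceSubgroup.one_mem_strictPeriods_Gamma0 N) f g, map_add]

theorem desc_qCoeff_sub {N : ℕ} {k : ℤ} (f g : CuspForm (Gamma0 N) k) (n : ℕ) :
    qCoeff (⇑(f - g)) n = qCoeff (⇑f) n - qCoeff (⇑g) n := by
  unfold qCoeff
  rw [FunLike.coe_sub, ModularForm.qExpansion_sub one_pos
    (CongruenceSubgroup.one_mem_strictPeriods_Gamma0 N) f g, map_sub]

theorem desc_qCoeff_smul {N : ℕ} {k : ℤ} (c : ℂ) (f : CuspForm (Gamma0 N) k) (n : ℕ) :
    qCoeff (⇑(c • f)) n = c * qCoeff (⇑f) n := by
  unfold qCoeff
  rw [FunLike.coe_smul, ModularForm.qExpansion_smul one_pos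
    (CongruenceSubgroup.one_mem_strictPeriods_Gamma0 N) c f, PowerSeries.coeff_smul,
    smul_eq_mul]

/-- The Sturm bound used for truncation. -/
noncomputable def descSturm (N : ℕ) (k : ℤ) : ℕ := (k * ((Gamma0 N).index : ℤ)).toNat / 12

/-- Sturm bound for cusp forms on `Γ₀(N)`, in terms of `qCoeff`. -/
theorem desc_eq_zero_of_qCoeff (N : ℕ) [NeZero N] (k : ℤ) (f : CuspForm (Gamma0 N) k)
    (h : ∀ n : ℕ, n ≤ descSturm N k → qCoeff (⇑f) n = 0) : f = 0 := by
  have hzero : CuspForm.toModularFormₗ f = 0 := by
    apply ModularForm.sturm_bound_Gamma0 N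
    intro n hn
    exact h n hn
  exact CuspForm.toModularFormₗ_injective (by rw [hzero, map_zero])

/-- Truncated `q`-expansion as a linear map. -/
noncomputable def descTrunc (N : ℕ) (k : ℤ) :
    CuspForm (Gamma0 N) k →ₗ[ℂ] (Fin (descSturm N k + 1) → ℂ) where
  toFun f i := qCoeff (⇑f) i
  map_add' f g := by
    funext i
    exact desc_qCoeff_add f g i
  map_smul' c f := by
    funext i
    simp only [Pi.smul_apply, RingHom.id_apply, smul_eq_mul]
    exact desc_qCoeff_smul c f i

theorem descTrunc_injective (N : ℕ) [NeZero N] (k : ℤ) : Function.Injective (descTrunc N k) := by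
  refine (injective_iff_map_eq_zero _).mpr fun f hf ↦ ?_
  apply desc_eq_zero_of_qCoeff N k f
  intro n hn
  exact congrFun hf ⟨n, Nat.lt_succ_of_le hn⟩

/-- **Descent for cusp forms.** If `S_k(Γ₀(N))` is stable under the action of the ring
automorphisms of `ℂ` on `q`-expansions, then it is spanned over `ℂ` by the forms with rational
`q`-coefficients. -/
theorem desc_cuspForm_span_rational (N : ℕ) [NeZero N] (k : ℤ)
    (hT1 : ∀ (σ : ℂ ≃+* ℂ) (f : CuspForm (Gamma0 N) k),
      ∃ f' : CuspForm (Gamma0 N) k, ∀ n : ℕ, qCoeff (⇑f') n = σ (qCoeff (⇑f) n)) :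
    Submodule.span ℂ {f : CuspForm (Gamma0 N) k | ∀ n : ℕ, ∃ q : ℚ, qCoeff (⇑f) n = (q : ℂ)}
      = ⊤ := by
  have h1 := desc_span_rational_of_injective (descTrunc N k) (descTrunc_injective N k)
    (fun σ w => by
      obtain ⟨w', hw'⟩ := hT1 σ w
      exact ⟨w', fun i => hw' i⟩)
  rw [eq_top_iff, ← h1]
  apply Submodule.span_mono
  intro f hf n
  have hfix : ∀ σ : ℂ ≃+* ℂ, σ (qCoeff (⇑f) n) = qCoeff (⇑f) n := by
    intro σ
    obtain ⟨f', hf'⟩ := hT1 σ f
    have hff' : f' - f = 0 := by
      apply desc_eq_zero_of_qCoeff N k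
      intro m hm
      rw [desc_qCoeff_sub, hf' m, sub_eq_zero]
      obtain ⟨q, hq⟩ := hf ⟨m, Nat.lt_succ_of_le hm⟩
      have hq' : qCoeff (⇑f) m = (q : ℂ) := hq.symm
      rw [hq']
      exact map_ratCast σ q
    have : f' = f := sub_eq_zero.mp hff'
    rw [← hf' n, this]
  obtain ⟨q, hq⟩ := desc_mem_range_of_fixed (qCoeff (⇑f) n) hfix
  exact ⟨q, hq.symm⟩

end Modular

end Fermat.Agent.S23
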