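import Mathlib
import Fermat.Prelude.Def_CuspForm_HeckeAlgebra
import Fermat.Prelude.Def_CuspForm_IntegralStructure
import Fermat.Prelude.Thm_ModularFormClass_qCoeff_heckeT
import Fermat.Prelude.Thm_ModularFormClass_qCoeff_heckeU
import Fermat.Prelude.Thm_CongruenceSubgroup_one_mem_strictPeriods_Gamma0
import Fermat.Agent.S22.Main
import Fermat.Agent.S23.Descent

/-!
# S23 helper [S23-DENOM]: bounded denominators (Plan Q, T4)

A cusp form on `Γ₀(N)` of weight `k ≥ 1` with rational `q`-coefficients has bounded denominators: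
some nonzero integer multiple has integral `q`-coefficients.  The proof uses that the Hecke
algebra is a finitely generated `ℤ`-module (S22): all coefficients `a_n(f)` lie in the finitely
generated group `{a₁(T f) : T ∈ 𝕋}`.
-/

set_option autoImplicit false

namespace Fermat.Agent.S23

open CongruenceSubgroup ModularFormClass CuspForm

section Denominators

variable {N : ℕ} {k : ℤ}

theorem den_qCoeff_heckeTLin {ℓ : ℕ} (hℓ : ℓ.Prime) (hℓN : ¬ ℓ ∣ N)
    (f : CuspForm (Gamma0 N) k) (n : ℕ) :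
    qCoeff (⇑(CuspForm.heckeTLin k hℓ hℓN f)) n =
      qCoeff (⇑f) (n * ℓ) + if ℓ ∣ n then (ℓ : ℂ) ^ (k - 1) * qCoeff (⇑f) (n / ℓ) else 0 := by
  rw [CuspForm.coe_heckeTLin_apply, ModularFormClass.qCoeff_heckeT f
    (CongruenceSubgroup.one_mem_strictPeriods_Gamma0 N) hℓ.ne_zero n, ModularForm.coeffHeckeT]

theorem den_qCoeff_heckeULin [NeZero N] {q : ℕ} (hq : q.Prime) (hqN : q ∣ N)
    (f : CuspForm (Gamma0 N) k) (n : ℕ) :
    qCoeff (⇑(CuspForm.heckeULin k hqN f)) n = qCoeff (⇑f) (n * q) := by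
  rw [CuspForm.coe_heckeULin_apply, ModularFormClass.qCoeff_heckeU f
    (CongruenceSubgroup.one_mem_strictPeriods_Gamma0 N) hq.ne_zero n, ModularForm.coeffHeckeU]

theorem den_qCoeff_zsmul (c : ℤ) (f : CuspForm (Gamma0 N) k) (n : ℕ) :
    qCoeff (⇑(c • f)) n = (c : ℂ) * qCoeff (⇑f) n := by
  have h : c • f = (c : ℂ) • f := by
    rw [Int.cast_smul_eq_zsmul]
  rw [h, desc_qCoeff_smul]

theorem den_qCoeff_zero_index (f : CuspForm (Gamma0 N) k) : qCoeff (⇑f) 0 = 0 :=
  CuspFormClass.qExpansion_coeff_zero f one_pos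
    (CongruenceSubgroup.one_mem_strictPeriods_Gamma0 N)

variable [NeZero N]

/-- The functional `T ↦ a₁(T f)` on the full Hecke algebra. -/
noncomputable def denPhi (f : CuspForm (Gamma0 N) k) : heckeAlgebra N k ∅ →ₗ[ℤ] ℂ where
  toFun T := qCoeff (⇑((T : Module.End ℂ (CuspForm (Gamma0 N) k)) f)) 1
  map_add' T T' := by
    simp only [Subalgebra.coe_add, LinearMap.add_apply]
    exact desc_qCoeff_add _ _ 1
  map_smul' c T := by
    simp only [Subalgebra.coe_smul, LinearMap.smul_apply, eq_intCast, Int.cast_id]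
    rw [den_qCoeff_zsmul, zsmul_eq_mul]

theorem denPhi_apply (f : CuspForm (Gamma0 N) k) (T : heckeAlgebra N k ∅) :
    denPhi f T = qCoeff (⇑((T : Module.End ℂ (CuspForm (Gamma0 N) k)) f)) 1 := rfl

/-- All `q`-coefficients (of positive index) of all Hecke translates of `f` lie in the group
`{a₁(T f)}`. -/
theorem den_qCoeff_mem_range (hk : 1 ≤ k) (f : CuspForm (Gamma0 N) k) :
    ∀ n : ℕ, 1 ≤ n → ∀ T : heckeAlgebra N k ∅,
      qCoeff (⇑((T : Module.End ℂ (CuspForm (Gamma0 N) k)) f)) n ∈ LinearMap.range (denPhi f) := by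
  intro n
  induction n using Nat.strong_induction_on with
  | _ n ih =>
    intro hn T
    rcases Nat.lt_or_ge 1 n with h1 | h1
    swap
    · have : n = 1 := le_antisymm h1 hn
      subst this
      exact ⟨T, rfl⟩
    -- `n > 1`: split off the smallest prime factor
    set ℓ := n.minFac with hℓdef
    have hℓ : ℓ.Prime := Nat.minFac_prime (by omega)
    have hℓn : ℓ ∣ n := Nat.minFac_dvd n
    set m := n / ℓ with hmdef
    have hmn : m * ℓ = n := Nat.div_mul_cancel hℓn
    have hm1 : 1 ≤ m := by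
      rcases Nat.eq_zero_or_pos m with h0 | h0
      · rw [h0, zero_mul] at hmn; omega
      · exact h0
    have hmlt : m < n := by
      have := hℓ.two_le
      nlinarith
    by_cases hℓN : ℓ ∣ N
    · -- `U_ℓ`
      have hU := den_qCoeff_heckeULin hℓ hℓN
        ((T : Module.End ℂ (CuspForm (Gamma0 N) k)) f) m
      rw [hmn] at hU
      rw [← hU]
      have := ih m hmlt hm1 (heckeAlgebra.U hℓ hℓN (Set.notMem_empty ℓ) * T)
      simpa using this
    · -- `T_ℓ`
      have hT := den_qCoeff_heckeTLin hℓ hℓN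
        ((T : Module.End ℂ (CuspForm (Gamma0 N) k)) f) m
      rw [hmn] at hT
      have h1' := ih m hmlt hm1 (heckeAlgebra.T hℓ hℓN (Set.notMem_empty ℓ) * T)
      have h1'' : qCoeff (⇑(CuspForm.heckeTLin k hℓ hℓN
          ((T : Module.End ℂ (CuspForm (Gamma0 N) k)) f))) m ∈ LinearMap.range (denPhi f) := by
        simpa using h1'
      by_cases hℓm : ℓ ∣ m
      · rw [if_pos hℓm] at hT
        have hm' : m / ℓ < n := lt_of_le_of_lt (Nat.div_le_self _ _) hmlt
        have hm'1 : 1 ≤ m / ℓ := Nat.div_pos (Nat.le_of_dvd hm1 hℓm) hℓ.pos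
        have h2 := ih (m / ℓ) hm' hm'1 T
        have hpow : ((ℓ : ℂ) ^ (k - 1)) = (((ℓ ^ (k - 1).toNat : ℕ) : ℤ) : ℂ) := by
          have hk1 : ((k - 1).toNat : ℤ) = k - 1 := Int.toNat_of_nonneg (by omega)
          rw [← hk1, zpow_natCast]
          push_cast
          rfl
        have h3 : (ℓ : ℂ) ^ (k - 1) *
            qCoeff (⇑((T : Module.End ℂ (CuspForm (Gamma0 N) k)) f)) (m / ℓ)
              ∈ LinearMap.range (denPhi f) := by
          rw [hpow, ← zsmul_eq_mul]
          exact Submodule.smul_mem _ _ h2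
        have h4 : qCoeff (⇑((T : Module.End ℂ (CuspForm (Gamma0 N) k)) f)) n
            = qCoeff (⇑(CuspForm.heckeTLin k hℓ hℓN
                ((T : Module.End ℂ (CuspForm (Gamma0 N) k)) f))) m
              - (ℓ : ℂ) ^ (k - 1) *
                qCoeff (⇑((T : Module.End ℂ (CuspForm (Gamma0 N) k)) f)) (m / ℓ) := by
          rw [hT]; ring
        rw [h4]
        exact Submodule.sub_mem _ h1'' h3
      · rw [if_neg hℓm, add_zero] at hT
        rw [← hT]
        exact h1''

/-- A finitely generated subgroup of `ℚ` has a common denominator. -/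
theorem den_exists_common_denominator_rat (S : Finset ℚ) :
    ∀ q ∈ Submodule.span ℤ (S : Set ℚ),
      ∃ m : ℤ, ((∏ s ∈ S, (s.den : ℤ) : ℤ) : ℚ) * q = (m : ℚ) := by
  generalize hD : (∏ s ∈ S, (s.den : ℤ) : ℤ) = D
  intro q hq
  induction hq using Submodule.span_induction with
  | mem y hy =>
    have hy' : y ∈ S := hy
    refine ⟨(∏ s ∈ S.erase y, (s.den : ℤ)) * y.num, ?_⟩
    rw [← hD, ← Finset.mul_prod_erase S _ hy']
    have := Rat.den_mul_eq_num y
    rw [Int.cast_mul, Int.cast_mul]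
    calc (((y.den : ℤ) : ℚ)) * ((∏ s ∈ S.erase y, (s.den : ℤ) : ℤ) : ℚ) * y
        = ((∏ s ∈ S.erase y, (s.den : ℤ) : ℤ) : ℚ) * ((y.den : ℚ) * y) := by
          rw [Int.cast_natCast]; ring
      _ = ((∏ s ∈ S.erase y, (s.den : ℤ) : ℤ) : ℚ) * (y.num : ℚ) := by rw [this]
  | zero => exact ⟨0, by simp⟩
  | add a b _ _ ha hb =>
    obtain ⟨ma, hma⟩ := ha
    obtain ⟨mb, hmb⟩ := hb
    exact ⟨ma + mb, by rw [mul_add, hma, hmb, Int.cast_add]⟩
  | smul c a _ ha =>
    obtain ⟨ma, hma⟩ := ha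
    refine ⟨c * ma, ?_⟩
    rw [zsmul_eq_mul, Int.cast_mul, ← hma]; ring

/-- A finitely generated subgroup of `ℂ` has a common denominator for its rational elements. -/
theorem den_exists_common_denominator (L : Submodule ℤ ℂ) (hL : L.FG) :
    ∃ D : ℤ, D ≠ 0 ∧ ∀ x ∈ L, ∀ q : ℚ, x = (q : ℂ) → ∃ m : ℤ, (D : ℂ) * x = (m : ℂ) := by
  -- the rational elements form a finitely generated subgroup of `ℚ`
  let ι : ℚ →ₗ[ℤ] ℂ := (algebraMap ℚ ℂ).toIntAlgHom.toLinearMap
  have hιq : ∀ q : ℚ, ι q = (q : ℂ) := fun q => rfl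
  have hι : Function.Injective ι := fun a b h => by
    have : (a : ℂ) = (b : ℂ) := h
    exact_mod_cast this
  let P : Submodule ℤ ℚ := L.comap ι
  have hLfin : Module.Finite ℤ L := Module.Finite.iff_fg.mpr hL
  have hPfin : Module.Finite ℤ P := by
    let j : P →ₗ[ℤ] L := (ι.comp P.subtype).codRestrict L (fun x => x.2)
    have hj : Function.Injective j := fun a b h => by
      have : ι a.1 = ι b.1 := congrArg Subtype.val h
      exact Subtype.ext (hι this)
    exact Module.Finite.of_injective j hj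
  have hPfg : P.FG := Module.Finite.iff_fg.mp hPfin
  obtain ⟨S, hS⟩ := hPfg
  refine ⟨∏ s ∈ S, (s.den : ℤ), ?_, ?_⟩
  · exact Finset.prod_ne_zero_iff.mpr fun s _ => by exact_mod_cast s.den_nz
  · intro x hx q hq
    have hqP : q ∈ P := by
      change ι q ∈ L
      rw [hιq, ← hq]; exact hx
    rw [← hS] at hqP
    obtain ⟨m, hm⟩ := den_exists_common_denominator_rat S q hqP
    refine ⟨m, ?_⟩
    rw [hq]
    exact_mod_cast hm

/-- **T4** (bounded denominators): a cusp form of weight `k ≥ 1` on `Γ₀(N)` with rational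
`q`-coefficients has a nonzero integer multiple with integral `q`-coefficients. -/
theorem den_exists_integral_multiple (hk : 1 ≤ k) (f : CuspForm (Gamma0 N) k)
    (hf : ∀ n : ℕ, ∃ q : ℚ, qCoeff (⇑f) n = (q : ℂ)) :
    ∃ D : ℤ, D ≠ 0 ∧ ∀ n : ℕ, ∃ m : ℤ, qCoeff (⇑(D • f)) n = (m : ℂ) := by
  have hfin : Module.Finite ℤ (heckeAlgebra N k ∅) :=
    Fermat.Agent.S22.moduleFinite_heckeAlgebra N k ∅
  have hfg : (LinearMap.range (denPhi f)).FG := by
    have := Module.Finite.range (denPhi f)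
    exact Module.Finite.iff_fg.mp this
  obtain ⟨D, hD0, hD⟩ := den_exists_common_denominator _ hfg
  refine ⟨D, hD0, fun n => ?_⟩
  rw [den_qCoeff_zsmul]
  rcases Nat.eq_zero_or_pos n with h0 | h0
  · subst h0
    exact ⟨0, by rw [den_qCoeff_zero_index]; simp⟩
  · obtain ⟨q, hq⟩ := hf n
    have hmem := den_qCoeff_mem_range hk f n h0 1
    have h1 : ((1 : heckeAlgebra N k ∅) : Module.End ℂ (CuspForm (Gamma0 N) k)) f = f := by
      simp
    rw [h1] at hmem
    exact hD _ hmem q hq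

theorem den_exists_smul_mem_intLattice (hk : 1 ≤ k) (f : CuspForm (Gamma0 N) k)
    (hf : ∀ n : ℕ, ∃ q : ℚ, qCoeff (⇑f) n = (q : ℂ)) :
    ∃ D : ℤ, D ≠ 0 ∧ D • f ∈ CuspForm.intLattice N k := by
  obtain ⟨D, hD0, hD⟩ := den_exists_integral_multiple hk f hf
  exact ⟨D, hD0, Submodule.subset_span hD⟩

end Denominators

end Fermat.Agent.S23
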