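import Mathlib
import Fermat.Prelude.Def_CuspForm_IntegralStructure
import Fermat.Agent.S23.Descent
import Fermat.Agent.S23.Denominators

/-!
# S23 helper [S23-ASSEMBLY]: end game of Plan Q (T5)

If the space of cusp forms `S_k(Γ₀(N))` (`k ≥ 1`) is stable under the action of `Aut(ℂ)` on
`q`-expansions (T1), then it has an integral structure: it is spanned over `ℂ` by the forms with
integral `q`-coefficients.
-/

set_option autoImplicit false

namespace Fermat.Agent.S23

open CongruenceSubgroup ModularFormClass CuspForm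

/-- **T5**: T1 implies the integral structure, any weight `k ≥ 1`. -/
theorem asm_hasIntegralStructure_of_T1 (N : ℕ) [NeZero N] (k : ℤ) (hk : 1 ≤ k)
    (hT1 : ∀ (σ : ℂ ≃+* ℂ) (f : CuspForm (Gamma0 N) k),
      ∃ f' : CuspForm (Gamma0 N) k, ∀ n : ℕ, qCoeff (⇑f') n = σ (qCoeff (⇑f) n)) :
    CuspForm.HasIntegralStructure N k := by
  unfold CuspForm.HasIntegralStructure
  rw [eq_top_iff, ← desc_cuspForm_span_rational N k hT1, Submodule.span_le]
  intro f hf
  obtain ⟨D, hD0, hD⟩ := den_exists_smul_mem_intLattice hk f hf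
  have hDC : (D : ℂ) ≠ 0 := by exact_mod_cast hD0
  have h1 : f = (D : ℂ)⁻¹ • (D • f) := by
    rw [← Int.cast_smul_eq_zsmul ℂ D f, smul_smul, inv_mul_cancel₀ hDC, one_smul]
  rw [SetLike.mem_coe, h1]
  exact Submodule.smul_mem _ _ (Submodule.subset_span hD)

/-- **T5** for weight `2`: the exact reduction of S23 to T1. -/
theorem s23_of_T1 (N : ℕ) [NeZero N]
    (hT1 : ∀ (σ : ℂ ≃+* ℂ) (f : CuspForm (Gamma0 N) 2),
      ∃ f' : CuspForm (Gamma0 N) 2, ∀ n : ℕ, qCoeff (⇑f') n = σ (qCoeff (⇑f) n)) :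
    CuspForm.HasIntegralStructure N 2 :=
  asm_hasIntegralStructure_of_T1 N 2 (by norm_num) hT1

end Fermat.Agent.S23
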