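import Mathlib
import Fermat.Agent.S23.LevelOne

/-!
# S23, package MONIC: the monic relation of a cusp form over level one

For a cusp form `f` of weight `k` on an arithmetic group `𝒢` (e.g. `Γ₀(N)`), the conjugates
`f_q = f ∣[k] g⁻¹`, `q = [g] ∈ SL(2,ℤ)/𝒢`, have elementary symmetric functions which are level-one
cusp forms; `f` is a root of the monic polynomial `∏_q (X - f_q)`.  We also provide the twists of
the coefficients by a ring endomorphism of `ℂ`.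
-/

set_option autoImplicit false

noncomputable section

namespace Fermat.Agent.S23

open UpperHalfPlane ModularForm ModularFormClass MatrixGroups SlashInvariantForm Finset
open scoped ModularForm Manifold

variable {𝒢 : Subgroup (GL (Fin 2) ℝ)} {k : ℤ}

/-- The `m`-th elementary symmetric function of the conjugates of `f` under `SL(2,ℤ)`. -/
def mon_esymm [𝒢.IsFiniteRelIndex 𝒮ℒ] (f : CuspForm 𝒢 k) (m : ℕ) : ℍ → ℂ :=
  letI := Fintype.ofFinite (𝒮ℒ ⧸ 𝒢.subgroupOf 𝒮ℒ)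
  ∑ T ∈ powersetCard m (univ : Finset (𝒮ℒ ⧸ 𝒢.subgroupOf 𝒮ℒ)), ∏ q ∈ T, quotientFunc f q

theorem mon_esymm_apply [𝒢.IsFiniteRelIndex 𝒮ℒ] [Fintype (𝒮ℒ ⧸ 𝒢.subgroupOf 𝒮ℒ)]
    (f : CuspForm 𝒢 k) (m : ℕ) (τ : ℍ) :
    mon_esymm f m τ =
      ∑ T ∈ powersetCard m (univ : Finset (𝒮ℒ ⧸ 𝒢.subgroupOf 𝒮ℒ)),
        ∏ q ∈ T, quotientFunc f q τ := by
  unfold mon_esymm
  simp only [Finset.sum_apply, Finset.prod_apply]
  congr!

theorem mon_det_of_mem_SL {h : GL (Fin 2) ℝ} (hh : h ∈ 𝒮ℒ) : |h.det.val| = 1 := by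
  obtain ⟨γ, rfl⟩ := hh
  simp

/-- The elementary symmetric functions are slash-invariant under `SL(2,ℤ)`. -/
theorem mon_esymm_slash [𝒢.IsFiniteRelIndex 𝒮ℒ] (f : CuspForm 𝒢 k) (m : ℕ)
    {h : GL (Fin 2) ℝ} (hh : h ∈ 𝒮ℒ) :
    mon_esymm f m ∣[k * m] h = mon_esymm f m := by
  let := Fintype.ofFinite (𝒮ℒ ⧸ 𝒢.subgroupOf 𝒮ℒ)
  classical
  have hdef : mon_esymm f m =
      ∑ T ∈ powersetCard m (univ : Finset (𝒮ℒ ⧸ 𝒢.subgroupOf 𝒮ℒ)),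
        ∏ q ∈ T, quotientFunc f q := by
    unfold mon_esymm
    congr!
  rw [hdef, SlashAction.sum_slash]
  set σ : Equiv.Perm (𝒮ℒ ⧸ 𝒢.subgroupOf 𝒮ℒ) := MulAction.toPerm ((⟨h, hh⟩ : 𝒮ℒ)⁻¹) with hσ
  have key : ∀ T ∈ powersetCard m (univ : Finset (𝒮ℒ ⧸ 𝒢.subgroupOf 𝒮ℒ)),
      (∏ q ∈ T, quotientFunc f q) ∣[k * m] h =
        ∏ q ∈ T.map σ.toEmbedding, quotientFunc f q := by
    intro T hT
    have hcard : #T = m := (mem_powersetCard.mp hT).2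
    rw [← hcard, ModularForm.prod_slash, mon_det_of_mem_SL hh, one_zpow, one_smul,
      Finset.prod_map]
    refine Finset.prod_congr rfl fun q _ => ?_
    rw [quotientFunc_smul f hh q]
    rfl
  rw [Finset.sum_congr rfl key]
  have hmap : (powersetCard m (univ : Finset (𝒮ℒ ⧸ 𝒢.subgroupOf 𝒮ℒ))).map
      (mapEmbedding σ.toEmbedding).toEmbedding =
      powersetCard m (univ : Finset (𝒮ℒ ⧸ 𝒢.subgroupOf 𝒮ℒ)) := by
    rw [← Finset.powersetCard_map, Finset.map_univ_equiv]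
  conv_rhs => rw [← hmap]
  rw [Finset.sum_map]
  rfl

theorem mon_mdiff_quotientFunc [𝒢.IsFiniteRelIndex 𝒮ℒ] (f : CuspForm 𝒢 k)
    (q : 𝒮ℒ ⧸ 𝒢.subgroupOf 𝒮ℒ) : MDiff (quotientFunc f q) := by
  induction q using Quotient.inductionOn with
  | h r => exact (ModularForm.translate f (r : GL (Fin 2) ℝ)⁻¹).holo'

theorem mon_esymm_eq [𝒢.IsFiniteRelIndex 𝒮ℒ] [Fintype (𝒮ℒ ⧸ 𝒢.subgroupOf 𝒮ℒ)]
    (f : CuspForm 𝒢 k) (m : ℕ) :
    mon_esymm f m =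
      ∑ T ∈ powersetCard m (univ : Finset (𝒮ℒ ⧸ 𝒢.subgroupOf 𝒮ℒ)),
        ∏ q ∈ T, quotientFunc f q := by
  unfold mon_esymm
  congr!

theorem mon_esymm_mdiff [𝒢.IsFiniteRelIndex 𝒮ℒ] (f : CuspForm 𝒢 k) (m : ℕ) :
    MDiff (mon_esymm f m) := by
  let := Fintype.ofFinite (𝒮ℒ ⧸ 𝒢.subgroupOf 𝒮ℒ)
  rw [mon_esymm_eq]
  exact .sum fun T _ => .prod fun q _ => mon_mdiff_quotientFunc f q

/-- every conjugate, slashed by any `γ` with `γ∞` a cusp of `SL(2,ℤ)`, is zero at `i∞` -/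
theorem mon_quotientFunc_zero [𝒢.IsFiniteRelIndex 𝒮ℒ] (f : CuspForm 𝒢 k)
    (q : 𝒮ℒ ⧸ 𝒢.subgroupOf 𝒮ℒ) {c : OnePoint ℝ} (hc : IsCusp c 𝒮ℒ) (γ : GL (Fin 2) ℝ)
    (hγ : γ • OnePoint.infty = c) : IsZeroAtImInfty (quotientFunc f q ∣[k] γ) := by
  induction q using Quotient.inductionOn with
  | h r =>
    obtain ⟨r, hr⟩ := r
    subst hγ
    refine (CuspForm.translate f _).zero_at_cusps' ?_ γ rfl
    simpa using hc.of_isFiniteRelIndex_conj hr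

theorem mon_esymm_zero [𝒢.IsFiniteRelIndex 𝒮ℒ] (f : CuspForm 𝒢 k) {m : ℕ} (hm : 0 < m)
    {c : OnePoint ℝ} (hc : IsCusp c 𝒮ℒ) (γ : GL (Fin 2) ℝ) (hγ : γ • OnePoint.infty = c) :
    IsZeroAtImInfty (mon_esymm f m ∣[k * m] γ) := by
  let := Fintype.ofFinite (𝒮ℒ ⧸ 𝒢.subgroupOf 𝒮ℒ)
  classical
  rw [mon_esymm_eq, SlashAction.sum_slash]
  have key : ∀ T ∈ powersetCard m (univ : Finset (𝒮ℒ ⧸ 𝒢.subgroupOf 𝒮ℒ)),
      IsZeroAtImInfty ((∏ q ∈ T, quotientFunc f q) ∣[k * m] γ) := by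
    intro T hT
    have hcard : #T = m := (mem_powersetCard.mp hT).2
    rw [← hcard, ModularForm.prod_slash]
    have hne : T.Nonempty := by
      rw [← Finset.card_pos, hcard]; exact hm
    have h0 : IsZeroAtImInfty (∏ q ∈ T, quotientFunc f q ∣[k] γ) := by
      unfold IsZeroAtImInfty Filter.ZeroAtFilter
      have h1 := tendsto_finsetProd T
        (fun q (_ : q ∈ T) => (mon_quotientFunc_zero f q hc γ hγ : Filter.Tendsto _ _ _))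
      obtain ⟨q₀, hq₀⟩ := hne
      rw [Finset.prod_eq_zero hq₀ rfl] at h1
      convert h1 using 1
      ext τ
      simp
    exact h0.smul _
  unfold IsZeroAtImInfty Filter.ZeroAtFilter
  have h1 := tendsto_finsetSum (powersetCard m (univ : Finset (𝒮ℒ ⧸ 𝒢.subgroupOf 𝒮ℒ)))
    (fun T hT => (key T hT : Filter.Tendsto _ _ _))
  rw [Finset.sum_const_zero] at h1
  convert h1 using 1
  ext τ
  simp

/-- The elementary symmetric functions of the conjugates, as level-one cusp forms. -/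
def mon_esymmForm [𝒢.IsFiniteRelIndex 𝒮ℒ] (f : CuspForm 𝒢 k) {m : ℕ} (hm : 0 < m) (w : ℤ)
    (hw : w = k * m) : CuspForm 𝒮ℒ w where
  toFun := mon_esymm f m
  slash_action_eq' h hh := by
    subst hw
    exact mon_esymm_slash f m hh
  holo' := mon_esymm_mdiff f m
  zero_at_cusps' {c} hc γ hγ := by
    subst hw
    exact mon_esymm_zero f hm hc γ hγ

@[simp]
theorem mon_coe_esymmForm [𝒢.IsFiniteRelIndex 𝒮ℒ] (f : CuspForm 𝒢 k) {m : ℕ} (hm : 0 < m)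
    (w : ℤ) (hw : w = k * m) : ⇑(mon_esymmForm f hm w hw) = mon_esymm f m := rfl

/-- `f` itself is the conjugate attached to the trivial coset. -/
theorem mon_quotientFunc_one [𝒢.IsFiniteRelIndex 𝒮ℒ] (f : CuspForm 𝒢 k) :
    quotientFunc f ((1 : 𝒮ℒ) : 𝒮ℒ ⧸ 𝒢.subgroupOf 𝒮ℒ) = ⇑f := by
  have h : quotientFunc f ((1 : 𝒮ℒ) : 𝒮ℒ ⧸ 𝒢.subgroupOf 𝒮ℒ) =
      (f : ℍ → ℂ) ∣[k] ((1 : 𝒮ℒ) : GL (Fin 2) ℝ)⁻¹ := rfl
  rw [h, OneMemClass.coe_one, inv_one, SlashAction.slash_one]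

/-- Vieta: `f` is a root of `∏_q (X - f_q) = ∑_j (-1)^j e_j X^(n-j)`. -/
theorem mon_vieta [𝒢.IsFiniteRelIndex 𝒮ℒ] (f : CuspForm 𝒢 k) (τ : ℍ) :
    ∑ j ∈ Finset.range (Nat.card (𝒮ℒ ⧸ 𝒢.subgroupOf 𝒮ℒ) + 1),
      (-1 : ℂ) ^ j * (mon_esymm f j τ * f τ ^ (Nat.card (𝒮ℒ ⧸ 𝒢.subgroupOf 𝒮ℒ) - j)) = 0 := by
  let := Fintype.ofFinite (𝒮ℒ ⧸ 𝒢.subgroupOf 𝒮ℒ)
  classical
  have hV := Multiset.prod_X_sub_X_eq_sum_esymm
    ((univ : Finset (𝒮ℒ ⧸ 𝒢.subgroupOf 𝒮ℒ)).val.map fun q => quotientFunc f q τ)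
  have hcard : Multiset.card ((univ : Finset (𝒮ℒ ⧸ 𝒢.subgroupOf 𝒮ℒ)).val.map
      fun q => quotientFunc f q τ) = Nat.card (𝒮ℒ ⧸ 𝒢.subgroupOf 𝒮ℒ) := by
    rw [Multiset.card_map, Nat.card_eq_fintype_card]
    rfl
  rw [hcard] at hV
  have hE := congrArg (Polynomial.eval (f τ)) hV
  rw [Polynomial.eval_finsetSum] at hE
  have hL : Polynomial.eval (f τ) (Multiset.map (fun t => Polynomial.X - Polynomial.C t)
      (Multiset.map (fun q => quotientFunc f q τ)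
        (univ : Finset (𝒮ℒ ⧸ 𝒢.subgroupOf 𝒮ℒ)).val)).prod = 0 := by
    rw [Multiset.map_map, Polynomial.eval_multiset_prod, Multiset.map_map]
    apply Multiset.prod_eq_zero
    rw [Multiset.mem_map]
    refine ⟨((1 : 𝒮ℒ) : 𝒮ℒ ⧸ 𝒢.subgroupOf 𝒮ℒ), Finset.mem_univ _, ?_⟩
    simp only [Function.comp_apply, Polynomial.eval_sub, Polynomial.eval_X, Polynomial.eval_C]
    rw [mon_quotientFunc_one]
    exact sub_self _
  rw [hL] at hE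
  refine Eq.trans ?_ hE.symm
  refine Finset.sum_congr rfl fun j _ => ?_
  simp only [Polynomial.eval_mul, Polynomial.eval_pow, Polynomial.eval_C, Polynomial.eval_X,
    Polynomial.eval_neg, Polynomial.eval_one]
  rw [Finset.esymm_map_val, mon_esymm_apply]

/-- The number of conjugates: the index of `𝒢 ∩ SL(2,ℤ)` in `SL(2,ℤ)`. -/
def mon_n (𝒢 : Subgroup (GL (Fin 2) ℝ)) : ℕ := Nat.card (𝒮ℒ ⧸ 𝒢.subgroupOf 𝒮ℒ)

theorem mon_n_pos (𝒢 : Subgroup (GL (Fin 2) ℝ)) [𝒢.IsFiniteRelIndex 𝒮ℒ] : 0 < mon_n 𝒢 :=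
  Nat.card_pos

theorem mon_esymm_zero_eq_one [𝒢.IsFiniteRelIndex 𝒮ℒ] (f : CuspForm 𝒢 k) (τ : ℍ) :
    mon_esymm f 0 τ = 1 := by
  let := Fintype.ofFinite (𝒮ℒ ⧸ 𝒢.subgroupOf 𝒮ℒ)
  rw [mon_esymm_apply]
  simp

/-- The coefficient of `X ^ i` (`i < n`) of the monic polynomial `∏_q (X - f_q)`, as a level-one
cusp form of weight `k (n - i)`. -/
def mon_coeffForm [𝒢.IsFiniteRelIndex 𝒮ℒ] (f : CuspForm 𝒢 k) (i : Fin (mon_n 𝒢)) :
    CuspForm 𝒮ℒ (k * ((mon_n 𝒢 : ℤ) - (i : ℕ))) :=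
  ((-1 : ℂ) ^ (mon_n 𝒢 - (i : ℕ))) •
    mon_esymmForm f (m := mon_n 𝒢 - (i : ℕ)) (Nat.sub_pos_of_lt i.2) _
      (by rw [Nat.cast_sub i.2.le])

theorem mon_coeffForm_apply [𝒢.IsFiniteRelIndex 𝒮ℒ] (f : CuspForm 𝒢 k) (i : Fin (mon_n 𝒢))
    (τ : ℍ) :
    mon_coeffForm f i τ = (-1 : ℂ) ^ (mon_n 𝒢 - (i : ℕ)) * mon_esymm f (mon_n 𝒢 - (i : ℕ)) τ := by
  simp [mon_coeffForm]

/-- **The monic relation.** -/
theorem mon_relation [𝒢.IsFiniteRelIndex 𝒮ℒ] (f : CuspForm 𝒢 k) (τ : ℍ) :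
    f τ ^ mon_n 𝒢 + ∑ i : Fin (mon_n 𝒢), mon_coeffForm f i τ * f τ ^ (i : ℕ) = 0 := by
  have hV := mon_vieta f τ
  change ∑ j ∈ Finset.range (mon_n 𝒢 + 1),
      (-1 : ℂ) ^ j * (mon_esymm f j τ * f τ ^ (mon_n 𝒢 - j)) = 0 at hV
  rw [Finset.sum_range_succ', ← Finset.sum_range_reflect] at hV
  simp only [pow_zero, one_mul, mon_esymm_zero_eq_one, Nat.sub_zero] at hV
  rw [add_comm, ← hV]
  congr 1
  rw [← Fin.sum_univ_eq_sum_range (fun j => (-1 : ℂ) ^ (mon_n 𝒢 - 1 - j + 1) *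
    (mon_esymm f (mon_n 𝒢 - 1 - j + 1) τ * f τ ^ (mon_n 𝒢 - (mon_n 𝒢 - 1 - j + 1))))]
  refine Finset.sum_congr rfl fun i _ => ?_
  have hi := i.2
  have h1 : mon_n 𝒢 - 1 - (i : ℕ) + 1 = mon_n 𝒢 - (i : ℕ) := by omega
  have h2 : mon_n 𝒢 - (mon_n 𝒢 - (i : ℕ)) = (i : ℕ) := by omega
  rw [h1, h2, mon_coeffForm_apply, mul_assoc]

/-- The twisted coefficients exist (by the level-one twist). -/
theorem mon_exists_twistForm [𝒢.IsFiniteRelIndex 𝒮ℒ] (s : ℂ →+* ℂ) (f : CuspForm 𝒢 k)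
    (i : Fin (mon_n 𝒢)) :
    ∃ g' : CuspForm 𝒮ℒ (k * ((mon_n 𝒢 : ℤ) - (i : ℕ))),
      qExpansion 1 g' = PowerSeries.map s (qExpansion 1 (mon_coeffForm f i)) :=
  lo_exists_twist_cuspForm s _ _

/-- The twisted coefficient of `X ^ i`, as a level-one cusp form. -/
def mon_twistForm [𝒢.IsFiniteRelIndex 𝒮ℒ] (s : ℂ →+* ℂ) (f : CuspForm 𝒢 k)
    (i : Fin (mon_n 𝒢)) : CuspForm 𝒮ℒ (k * ((mon_n 𝒢 : ℤ) - (i : ℕ))) :=
  (mon_exists_twistForm s f i).choose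

theorem mon_qExpansion_twistForm [𝒢.IsFiniteRelIndex 𝒮ℒ] (s : ℂ →+* ℂ) (f : CuspForm 𝒢 k)
    (i : Fin (mon_n 𝒢)) :
    qExpansion 1 (mon_twistForm s f i) = PowerSeries.map s (qExpansion 1 (mon_coeffForm f i)) :=
  (mon_exists_twistForm s f i).choose_spec

/-! ### Generic facts on level-one cusp forms, in the shapes used by the reconstruction step -/

theorem mon_levelOne_mdiff {w : ℤ} (g : CuspForm 𝒮ℒ w) : MDiff (g : ℍ → ℂ) := g.holo'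

theorem mon_levelOne_slash {w : ℤ} (g : CuspForm 𝒮ℒ w) (γ : SL(2, ℤ)) :
    (g : ℍ → ℂ) ∣[w] γ = g := by
  rw [ModularForm.SL_slash]
  exact SlashInvariantFormClass.slash_action_eq g _ ⟨γ, rfl⟩

theorem mon_levelOne_zero {w : ℤ} (g : CuspForm 𝒮ℒ w) : IsZeroAtImInfty (g : ℍ → ℂ) :=
  CuspFormClass.zero_at_infty g

/-- **Package MONIC**, general arithmetic group. -/
theorem mon_exists_of_arith [𝒢.IsFiniteRelIndex 𝒮ℒ] (f : CuspForm 𝒢 k) (s : ℂ →+* ℂ) :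
    ∃ (n : ℕ) (_ : 0 < n) (c c' : Fin n → ℍ → ℂ),
      (∀ τ, f τ ^ n + ∑ i : Fin n, c i τ * f τ ^ (i : ℕ) = 0) ∧
      (∀ i : Fin n, ∃ g : CuspForm 𝒮ℒ (k * ((n : ℤ) - (i : ℕ))), ⇑g = c i) ∧
      (∀ i : Fin n, ∃ g' : CuspForm 𝒮ℒ (k * ((n : ℤ) - (i : ℕ))), ⇑g' = c' i ∧
        qExpansion 1 (c' i) = PowerSeries.map s (qExpansion 1 (c i))) :=
  ⟨mon_n 𝒢, mon_n_pos 𝒢, fun i => ⇑(mon_coeffForm f i), fun i => ⇑(mon_twistForm s f i),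
    fun τ => mon_relation f τ, fun i => ⟨mon_coeffForm f i, rfl⟩,
    fun i => ⟨mon_twistForm s f i, rfl, mon_qExpansion_twistForm s f i⟩⟩

/-- **Package MONIC** for `Γ₀(N)`: `f` is a root of a monic polynomial whose coefficients `c i`
are level-one cusp forms of weight `k (n - i)`, and these coefficients can be twisted by any ring
endomorphism `s` of `ℂ`. -/
theorem mon_exists (N : ℕ) [NeZero N] (k : ℤ) (f : CuspForm (CongruenceSubgroup.Gamma0 N) k)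
    (s : ℂ →+* ℂ) :
    ∃ (n : ℕ) (_ : 0 < n) (c c' : Fin n → ℍ → ℂ),
      (∀ τ, f τ ^ n + ∑ i : Fin n, c i τ * f τ ^ (i : ℕ) = 0) ∧
      (∀ i : Fin n, ∃ g : CuspForm 𝒮ℒ (k * ((n : ℤ) - (i : ℕ))), ⇑g = c i) ∧
      (∀ i : Fin n, ∃ g' : CuspForm 𝒮ℒ (k * ((n : ℤ) - (i : ℕ))), ⇑g' = c' i ∧
        qExpansion 1 (c' i) = PowerSeries.map s (qExpansion 1 (c i))) :=
  mon_exists_of_arith f s

/-- The same, with the properties of the twisted coefficients spelled out in the form consumed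
by the reconstruction step. -/
theorem mon_exists' (N : ℕ) [NeZero N] (k : ℤ) (f : CuspForm (CongruenceSubgroup.Gamma0 N) k)
    (s : ℂ →+* ℂ) :
    ∃ (n : ℕ) (_ : 0 < n) (c c' : Fin n → ℍ → ℂ),
      (∀ τ, f τ ^ n + ∑ i : Fin n, c i τ * f τ ^ (i : ℕ) = 0) ∧
      (∀ i, MDiff (c i)) ∧ (∀ i, IsZeroAtImInfty (c i)) ∧
      (∀ (i : Fin n) (γ : SL(2, ℤ)), c i ∣[k * ((n : ℤ) - (i : ℕ))] γ = c i) ∧
      (∀ i, MDiff (c' i)) ∧ (∀ i, IsZeroAtImInfty (c' i)) ∧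
      (∀ (i : Fin n) (γ : SL(2, ℤ)), c' i ∣[k * ((n : ℤ) - (i : ℕ))] γ = c' i) ∧
      (∀ i, qExpansion 1 (c' i) = PowerSeries.map s (qExpansion 1 (c i))) := by
  obtain ⟨n, hn, c, c', hrel, hc, hc'⟩ := mon_exists N k f s
  refine ⟨n, hn, c, c', hrel, fun i => ?_, fun i => ?_, fun i γ => ?_, fun i => ?_, fun i => ?_,
    fun i γ => ?_, fun i => ?_⟩
  · obtain ⟨g, hg⟩ := hc i
    rw [← hg]; exact mon_levelOne_mdiff g
  · obtain ⟨g, hg⟩ := hc i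
    rw [← hg]; exact mon_levelOne_zero g
  · obtain ⟨g, hg⟩ := hc i
    rw [← hg]; exact mon_levelOne_slash g γ
  · obtain ⟨g, hg, -⟩ := hc' i
    rw [← hg]; exact mon_levelOne_mdiff g
  · obtain ⟨g, hg, -⟩ := hc' i
    rw [← hg]; exact mon_levelOne_zero g
  · obtain ⟨g, hg, -⟩ := hc' i
    rw [← hg]; exact mon_levelOne_slash g γ
  · exact (hc' i).choose_spec.2

end Fermat.Agent.S23

end
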