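import Mathlib
import Fermat.Prelude.Def_CuspForm_IntegralStructure
import Fermat.Prelude.Thm_CongruenceSubgroup_one_mem_strictPeriods_Gamma0
import Fermat.Agent.S23.QRing
import Fermat.Agent.S23.LevelOne
import Fermat.Agent.S23.Recon

/-!
# S23 (Plan Q), package GLUE: the `q`-expansion principle T1 from U1 + MONIC + RECON

`TwU1 N k f`    : shape of the interpolation statement (package U1):
                  `f * B = ∑ i, u ^ i * g i` with `B ≠ 0`, `g i` level-one forms, `u` a weight `12`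
                  form on `Γ₀(N)` whose `q`-expansion is fixed by all ring endomorphisms of `ℂ`.
`TwMon N k f s` : shape of the monic relation (package MONIC), with twisted coefficients.
`tw_T1_of`      : U1 + MONIC ⟹ the `σ`-twist of `f` exists.
-/

set_option autoImplicit false

noncomputable section

namespace Fermat.Agent.S23

open UpperHalfPlane CongruenceSubgroup ModularForm Filter Topology
open scoped MatrixGroups ModularForm Manifold

/-- the statement shape of package U1. -/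
def TwU1 (N : ℕ) (k : ℤ) (f : CuspForm (Gamma0 N) k) : Prop :=
  ∃ (u : ModularForm (Gamma0 N) 12) (w : ℤ) (m : ℕ) (B : ModularForm 𝒮ℒ w)
    (g : (i : Fin m) → ModularForm 𝒮ℒ (k + w - 12 * ((i : ℕ) : ℤ))),
    (∀ s : ℂ →+* ℂ, PowerSeries.map s (qExpansion 1 u) = qExpansion 1 u) ∧ B ≠ 0 ∧
    ∀ τ : ℍ, f τ * B τ = ∑ i : Fin m, u τ ^ (i : ℕ) * g i τ

/-- the statement shape of package MONIC. -/
def TwMon (N : ℕ) (k : ℤ) (f : CuspForm (Gamma0 N) k) (s : ℂ →+* ℂ) : Prop :=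
  ∃ (n : ℕ) (_ : 0 < n) (c c' : Fin n → ℍ → ℂ),
    (∀ τ, f τ ^ n + ∑ i : Fin n, c i τ * f τ ^ (i : ℕ) = 0) ∧
    (∀ i : Fin n, ∃ g : CuspForm 𝒮ℒ (k * ((n : ℤ) - (i : ℕ))), ⇑g = c i) ∧
    (∀ i : Fin n, ∃ g' : CuspForm 𝒮ℒ (k * ((n : ℤ) - (i : ℕ))), ⇑g' = c' i ∧
      qExpansion 1 (c' i) = PowerSeries.map s (qExpansion 1 (c i)))

theorem tw_mem_levelOne {k : ℤ} (g : ModularForm 𝒮ℒ k) : (g : ℍ → ℂ) ∈ qr_ring :=
  qr_mem_of_modularForm one_mem_strictPeriods_SL g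

theorem tw_mem_levelOne_cusp {k : ℤ} (g : CuspForm 𝒮ℒ k) : (g : ℍ → ℂ) ∈ qr_ring :=
  qr_mem_of_cuspForm one_mem_strictPeriods_SL g

theorem tw_mem_Gamma0 (N : ℕ) {k : ℤ} (g : ModularForm (Gamma0 N) k) : (g : ℍ → ℂ) ∈ qr_ring :=
  qr_mem_of_modularForm (CongruenceSubgroup.one_mem_strictPeriods_Gamma0 N) g

theorem tw_mem_Gamma0_cusp (N : ℕ) {k : ℤ} (g : CuspForm (Gamma0 N) k) :
    (g : ℍ → ℂ) ∈ qr_ring :=
  qr_mem_of_cuspForm (CongruenceSubgroup.one_mem_strictPeriods_Gamma0 N) g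

/-- slash invariance of a level-one form under `SL(2,ℤ)`. -/
theorem tw_slash_levelOne {k : ℤ} (g : ModularForm 𝒮ℒ k) (γ : SL(2, ℤ)) :
    (g : ℍ → ℂ) ∣[k] γ = g :=
  SlashInvariantFormClass.slash_action_eq g _ ⟨γ, rfl⟩

theorem tw_slash_levelOne_cusp {k : ℤ} (g : CuspForm 𝒮ℒ k) (γ : SL(2, ℤ)) :
    (g : ℍ → ℂ) ∣[k] γ = g :=
  SlashInvariantFormClass.slash_action_eq g _ ⟨γ, rfl⟩

theorem tw_slash_Gamma0 {N : ℕ} {k : ℤ} (g : ModularForm (Gamma0 N) k) (γ : SL(2, ℤ))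
    (hγ : γ ∈ Gamma0 N) : (g : ℍ → ℂ) ∣[k] γ = g :=
  SlashInvariantFormClass.slash_action_eq g _ ⟨γ, hγ, rfl⟩

/-- slash of a power, `SL(2,ℤ)`. -/
theorem tw_slash_pow (k : ℤ) (γ : SL(2, ℤ)) (F : ℍ → ℂ) (i : ℕ) :
    (F ^ i) ∣[k * (i : ℤ)] γ = (F ∣[k] γ) ^ i := by
  induction i with
  | zero =>
    simp only [Nat.cast_zero, mul_zero, pow_zero]
    exact ModularForm.is_invariant_one γ
  | succ i ih =>
    have h : k * ((i + 1 : ℕ) : ℤ) = k * (i : ℤ) + k := by push_cast; ring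
    rw [h, pow_succ, mul_slash_SL2, ih, pow_succ]

/-- **GLUE**: U1 and MONIC give the `σ`-twist. -/
theorem tw_T1_of (N : ℕ) [NeZero N] (k : ℤ) (σ : ℂ ≃+* ℂ) (f : CuspForm (Gamma0 N) k)
    (hU1 : TwU1 N k f) (hMon : TwMon N k f (σ : ℂ →+* ℂ)) :
    ∃ f' : CuspForm (Gamma0 N) k,
      qExpansion 1 f' = PowerSeries.map (σ : ℂ →+* ℂ) (qExpansion 1 f) := by
  obtain ⟨u, w, m, B, g, hu, hB, hid⟩ := hU1
  obtain ⟨n, hn, c, c', hrel, hc, hc'⟩ := hMon
  set s : ℂ →+* ℂ := (σ : ℂ →+* ℂ) with hs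
  set φ : PowerSeries ℂ := PowerSeries.map s (qExpansion 1 f) with hφ
  -- twists of `B` and of the `g i`
  obtain ⟨B', hB'⟩ := lo_exists_twist s w B
  choose g' hg' using fun i : Fin m => lo_exists_twist s _ (g i)
  choose gc hgc using hc
  choose gc' hgc' hgcq using hc'
  -- memberships
  have hfm : (f : ℍ → ℂ) ∈ qr_ring := tw_mem_Gamma0_cusp N f
  have hum : (u : ℍ → ℂ) ∈ qr_ring := tw_mem_Gamma0 N u
  have hBm : (B : ℍ → ℂ) ∈ qr_ring := tw_mem_levelOne B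
  have hB'm : (B' : ℍ → ℂ) ∈ qr_ring := tw_mem_levelOne B'
  have hgm : ∀ i, (g i : ℍ → ℂ) ∈ qr_ring := fun i => tw_mem_levelOne (g i)
  have hg'm : ∀ i, (g' i : ℍ → ℂ) ∈ qr_ring := fun i => tw_mem_levelOne (g' i)
  have hcm : ∀ i, c i ∈ qr_ring := fun i => hgc i ▸ tw_mem_levelOne_cusp (gc i)
  have hc'm : ∀ i, c' i ∈ qr_ring := fun i => hgc' i ▸ tw_mem_levelOne_cusp (gc' i)
  -- the twisted numerator
  set A' : ℍ → ℂ := ∑ i : Fin m, (u : ℍ → ℂ) ^ (i : ℕ) * (g' i : ℍ → ℂ) with hA'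
  have hA'm : A' ∈ qr_ring :=
    qr_ring.sum_mem fun i _ => qr_ring.mul_mem (qr_ring.pow_mem hum _) (hg'm i)
  -- `q`-expansion of `u` is fixed
  have hsu : PowerSeries.map s (qExpansion 1 u) = qExpansion 1 u := hu s
  -- (i) the interpolation identity on `q`-expansions
  have hidf : (f : ℍ → ℂ) * (B : ℍ → ℂ) = ∑ i : Fin m, (u : ℍ → ℂ) ^ (i : ℕ) * (g i : ℍ → ℂ) := by
    funext τ
    simp only [Pi.mul_apply, Finset.sum_apply, Pi.pow_apply]
    exact hid τ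
  have hq1 : qExpansion 1 f * qExpansion 1 B =
      ∑ i : Fin m, qExpansion 1 u ^ (i : ℕ) * qExpansion 1 (g i) := by
    rw [← qr_qExpansion_mul hfm hBm, hidf,
      qr_qExpansion_sum _ fun i _ => qr_ring.mul_mem (qr_ring.pow_mem hum _) (hgm i)]
    refine Finset.sum_congr rfl fun i _ => ?_
    rw [qr_qExpansion_mul (qr_ring.pow_mem hum _) (hgm i), qr_qExpansion_pow hum]
  -- (ii) twisted
  have hq2 : φ * qExpansion 1 B' = qExpansion 1 A' := by
    have h := congrArg (PowerSeries.map s) hq1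
    rw [map_mul, map_sum] at h
    rw [hφ, hB', h, hA',
      qr_qExpansion_sum _ fun i _ => qr_ring.mul_mem (qr_ring.pow_mem hum _) (hg'm i)]
    refine Finset.sum_congr rfl fun i _ => ?_
    rw [map_mul, map_pow, hsu, qr_qExpansion_mul (qr_ring.pow_mem hum _) (hg'm i),
      qr_qExpansion_pow hum, hg' i]
  -- (iii) the monic relation on `q`-expansions, twisted
  have hrelf : (f : ℍ → ℂ) ^ n + ∑ i : Fin n, c i * (f : ℍ → ℂ) ^ (i : ℕ) = 0 := by
    funext τ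
    simp only [Pi.add_apply, Pi.pow_apply, Finset.sum_apply, Pi.mul_apply, Pi.zero_apply]
    exact hrel τ
  have hq3 : qExpansion 1 f ^ n + ∑ i : Fin n, qExpansion 1 (c i) * qExpansion 1 f ^ (i : ℕ)
      = 0 := by
    have h := congrArg (qExpansion 1) hrelf
    rw [qr_qExpansion_add (qr_ring.pow_mem hfm _)
      (qr_ring.sum_mem fun i _ => qr_ring.mul_mem (hcm i) (qr_ring.pow_mem hfm _)),
      qr_qExpansion_pow hfm,
      qr_qExpansion_sum _ fun i _ => qr_ring.mul_mem (hcm i) (qr_ring.pow_mem hfm _),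
      qExpansion_zero] at h
    rw [← h]
    congr 1
    refine Finset.sum_congr rfl fun i _ => ?_
    rw [qr_qExpansion_mul (hcm i) (qr_ring.pow_mem hfm _), qr_qExpansion_pow hfm]
  have hq4 : φ ^ n + ∑ i : Fin n, qExpansion 1 (c' i) * φ ^ (i : ℕ) = 0 := by
    have h := congrArg (PowerSeries.map s) hq3
    rw [map_add, map_pow, map_sum, map_zero] at h
    rw [← h, hφ]
    congr 1
    refine Finset.sum_congr rfl fun i _ => ?_
    rw [map_mul, map_pow, hgcq i]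
  -- (iv) the relation for `A'`, `B'`, `c'`
  have hrel' : A' ^ n + ∑ i : Fin n, c' i * A' ^ (i : ℕ) * (B' : ℍ → ℂ) ^ (n - (i : ℕ)) = 0 := by
    have hmem : A' ^ n + ∑ i : Fin n, c' i * A' ^ (i : ℕ) * (B' : ℍ → ℂ) ^ (n - (i : ℕ))
        ∈ qr_ring :=
      qr_ring.add_mem (qr_ring.pow_mem hA'm _) (qr_ring.sum_mem fun i _ =>
        qr_ring.mul_mem (qr_ring.mul_mem (hc'm i) (qr_ring.pow_mem hA'm _))
          (qr_ring.pow_mem hB'm _))
    refine (qr_qExpansion_eq_zero_iff hmem).mp ?_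
    rw [qr_qExpansion_add (qr_ring.pow_mem hA'm _) (qr_ring.sum_mem fun i _ =>
        qr_ring.mul_mem (qr_ring.mul_mem (hc'm i) (qr_ring.pow_mem hA'm _))
          (qr_ring.pow_mem hB'm _)),
      qr_qExpansion_pow hA'm,
      qr_qExpansion_sum _ fun i _ =>
        qr_ring.mul_mem (qr_ring.mul_mem (hc'm i) (qr_ring.pow_mem hA'm _))
          (qr_ring.pow_mem hB'm _)]
    have hterm : ∀ i : Fin n,
        qExpansion 1 (c' i * A' ^ (i : ℕ) * (B' : ℍ → ℂ) ^ (n - (i : ℕ)))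
          = qExpansion 1 (c' i) * φ ^ (i : ℕ) * qExpansion 1 B' ^ n := by
      intro i
      rw [qr_qExpansion_mul (qr_ring.mul_mem (hc'm i) (qr_ring.pow_mem hA'm _))
          (qr_ring.pow_mem hB'm _),
        qr_qExpansion_mul (hc'm i) (qr_ring.pow_mem hA'm _), qr_qExpansion_pow hA'm,
        qr_qExpansion_pow hB'm, ← hq2, mul_pow]
      have hi : (i : ℕ) + (n - (i : ℕ)) = n := Nat.add_sub_cancel' i.2.le
      calc qExpansion 1 (c' i) * (φ ^ (i : ℕ) * qExpansion 1 B' ^ (i : ℕ)) *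
            qExpansion 1 B' ^ (n - (i : ℕ))
          = qExpansion 1 (c' i) * φ ^ (i : ℕ) *
              (qExpansion 1 B' ^ (i : ℕ) * qExpansion 1 B' ^ (n - (i : ℕ))) := by ring
        _ = qExpansion 1 (c' i) * φ ^ (i : ℕ) * qExpansion 1 B' ^ n := by
            rw [← pow_add, hi]
    rw [Finset.sum_congr rfl fun i _ => hterm i, ← hq2, mul_pow, ← Finset.sum_mul, ← add_mul,
      hq4, zero_mul]
  -- `B' ≠ 0`
  have hB'0 : (B' : ℍ → ℂ) ≠ 0 := by
    intro h0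
    have h1 : qExpansion 1 B' = 0 := (qr_qExpansion_eq_zero_iff hB'm).mpr h0
    rw [hB'] at h1
    have h2 : qExpansion 1 B = 0 := by
      apply qr_twist_injective σ
      rw [map_zero]
      exact h1
    have h3 : (B : ℍ → ℂ) = 0 := (qr_qExpansion_eq_zero_iff hBm).mp h2
    exact hB (DFunLike.coe_injective (by rw [h3]; rfl))
  have hB'0' : ∃ τ, B' τ ≠ 0 := by
    by_contra hne
    push Not at hne
    exact hB'0 (funext hne)
  -- invariance of `A'`
  have hAinv : ∀ γ ∈ Gamma0 N, A' ∣[k + w] (γ : SL(2, ℤ)) = A' := by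
    intro γ hγ
    rw [hA', SlashAction.sum_slash]
    refine Finset.sum_congr rfl fun i _ => ?_
    have hwt : 12 * ((i : ℕ) : ℤ) + (k + w - 12 * ((i : ℕ) : ℤ)) = k + w := by ring
    have h := mul_slash_SL2 (12 * ((i : ℕ) : ℤ)) (k + w - 12 * ((i : ℕ) : ℤ)) γ
      ((u : ℍ → ℂ) ^ (i : ℕ)) (g' i : ℍ → ℂ)
    rw [hwt] at h
    rw [h, tw_slash_pow, tw_slash_Gamma0 u γ hγ, tw_slash_levelOne (g' i) γ]
  -- apply RECON
  obtain ⟨f', hf'⟩ := rc_exists_cuspForm N k w n hn A' B' hA'm.1 hB'm.1 hB'0' hAinv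
    (fun γ => tw_slash_levelOne B' γ) c' (fun i => (hc'm i).1)
    (fun i γ => by rw [← hgc' i]; exact tw_slash_levelOne_cusp (gc' i) γ)
    (fun i => by
      rw [← hgc' i]
      exact CuspFormClass.zero_at_infty (gc' i))
    (fun τ => by
      have := congrFun hrel' τ
      simpa only [Pi.add_apply, Pi.pow_apply, Finset.sum_apply, Pi.mul_apply, Pi.zero_apply]
        using this)
  refine ⟨f', ?_⟩
  exact qr_qExpansion_eq_of_mul_eq (tw_mem_Gamma0_cusp N f') hB'm hB'0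
    (funext fun τ => by simpa only [Pi.mul_apply] using hf' τ) hq2

/-- T1 in the shape consumed by `s23_of_T1`. -/
theorem tw_T1_qCoeff_of (N : ℕ) [NeZero N] (k : ℤ) (σ : ℂ ≃+* ℂ) (f : CuspForm (Gamma0 N) k)
    (hU1 : TwU1 N k f) (hMon : TwMon N k f (σ : ℂ →+* ℂ)) :
    ∃ f' : CuspForm (Gamma0 N) k,
      ∀ n : ℕ, ModularFormClass.qCoeff (⇑f') n = σ (ModularFormClass.qCoeff (⇑f) n) := by
  obtain ⟨f', hf'⟩ := tw_T1_of N k σ f hU1 hMon
  refine ⟨f', fun n => ?_⟩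
  unfold ModularFormClass.qCoeff
  rw [hf', PowerSeries.coeff_map]
  rfl

end Fermat.Agent.S23

end
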