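import Mathlib
import Fermat.Agent.S23.QRing

/-!
# S23 (Plan Q), package DIAG: the "diagonal trick"

Weight bookkeeping for the Hankel matrix `H = (S_{i+j})` of level-one forms `S_m` of weight `12 m`
and the vector `t = (t_j)` of level-one forms of weight `k + 12 j`: for `γ ∈ SL(2,ℤ)` one has
`H(γτ) = D H(τ) D`, `t(γτ) = x^k D t(τ)` with `D = diag(x^(12 i))`, `x = cτ + d`, hence
`det H` is a level-one form of weight `12 n (n-1)` and `(adj(H) t)_i` is a level-one form of weight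
`k + 12 n (n-1) - 12 i`.
-/

set_option autoImplicit false

noncomputable section

namespace Fermat.Agent.S23

open UpperHalfPlane Filter Function Topology Matrix
open scoped Manifold MatrixGroups ModularForm

/-! ### Pure algebra -/

section Algebra

variable {R : Type*} [CommRing R] {n : ℕ}

/-- The scaling matrix `D = diag (x ^ (e i))`. -/
def dgD (n : ℕ) (e : ℕ) (x : R) : Matrix (Fin n) (Fin n) R :=
  Matrix.diagonal fun i => x ^ (e * (i : ℕ))

theorem dg_sum_fin (n : ℕ) : (∑ i : Fin n, (i : ℕ)) * 2 = n * (n - 1) := by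
  rw [Fin.sum_univ_eq_sum_range (fun i => i) n, Finset.sum_range_id_mul_two]

theorem dg_det_D_sq (e : ℕ) (x : R) :
    (dgD n e x).det ^ 2 = x ^ (e * (n * (n - 1))) := by
  rw [dgD, Matrix.det_diagonal, Finset.prod_pow_eq_pow_sum, ← pow_mul, ← Finset.mul_sum,
    mul_assoc, dg_sum_fin]

theorem dg_scale_eq (e : ℕ) (x : R) (H : Matrix (Fin n) (Fin n) R) :
    (Matrix.of fun i j : Fin n => x ^ (e * ((i : ℕ) + (j : ℕ))) * H i j)
      = dgD n e x * H * dgD n e x := by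
  ext i j
  simp only [dgD, Matrix.of_apply, Matrix.mul_diagonal, Matrix.diagonal_mul]
  rw [mul_add, pow_add]
  ring

/-- Determinant of the rescaled matrix. -/
theorem dg_det_scale (e : ℕ) (x : R) (H : Matrix (Fin n) (Fin n) R) :
    (Matrix.of fun i j : Fin n => x ^ (e * ((i : ℕ) + (j : ℕ))) * H i j).det
      = x ^ (e * (n * (n - 1))) * H.det := by
  rw [dg_scale_eq, Matrix.det_mul, Matrix.det_mul, ← dg_det_D_sq (n := n) e x]
  ring

/-- Adjugate of the rescaled matrix applied to the rescaled vector. -/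
theorem dg_adj_scale (e : ℕ) (x y : R) (H : Matrix (Fin n) (Fin n) R) (t : Fin n → R)
    (i : Fin n) :
    x ^ (e * (i : ℕ)) *
      ((Matrix.of fun i j : Fin n => x ^ (e * ((i : ℕ) + (j : ℕ))) * H i j).adjugate *ᵥ
        (fun j => y * x ^ (e * (j : ℕ)) * t j)) i
      = y * x ^ (e * (n * (n - 1))) * (H.adjugate *ᵥ t) i := by
  have hvec : (fun j : Fin n => y * x ^ (e * (j : ℕ)) * t j) = y • (dgD n e x *ᵥ t) := by
    ext j
    simp only [dgD, Pi.smul_apply, smul_eq_mul, Matrix.mulVec_diagonal]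
    ring
  have hlhs : x ^ (e * (i : ℕ)) *
      ((Matrix.of fun i j : Fin n => x ^ (e * ((i : ℕ) + (j : ℕ))) * H i j).adjugate *ᵥ
        (fun j => y * x ^ (e * (j : ℕ)) * t j)) i
      = (dgD n e x *ᵥ ((dgD n e x * H * dgD n e x).adjugate *ᵥ (y • (dgD n e x *ᵥ t)))) i := by
    rw [dg_scale_eq, hvec]
    have hD : ∀ v : Fin n → R, (dgD n e x *ᵥ v) i = x ^ (e * (i : ℕ)) * v i := by
      intro v
      rw [dgD, Matrix.mulVec_diagonal]
    rw [hD]
  rw [hlhs]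
  have hmat : dgD n e x * ((dgD n e x * H * dgD n e x).adjugate * dgD n e x)
      = ((dgD n e x).det ^ 2) • H.adjugate := by
    rw [Matrix.adjugate_mul_distrib, Matrix.adjugate_mul_distrib]
    have h1 : dgD n e x * ((dgD n e x).adjugate * (H.adjugate * (dgD n e x).adjugate))
        * dgD n e x
        = (dgD n e x * (dgD n e x).adjugate) * H.adjugate
          * ((dgD n e x).adjugate * dgD n e x) := by
      simp only [Matrix.mul_assoc]
    rw [← Matrix.mul_assoc, h1, Matrix.mul_adjugate, Matrix.adjugate_mul]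
    simp only [Matrix.smul_mul, Matrix.mul_smul, Matrix.one_mul, Matrix.mul_one, smul_smul]
    rw [pow_two]
  have : dgD n e x *ᵥ ((dgD n e x * H * dgD n e x).adjugate *ᵥ (y • (dgD n e x *ᵥ t)))
      = y • ((dgD n e x * ((dgD n e x * H * dgD n e x).adjugate * dgD n e x)) *ᵥ t) := by
    rw [Matrix.mulVec_smul, Matrix.mulVec_smul, Matrix.mulVec_mulVec, Matrix.mulVec_mulVec,
      Matrix.mul_assoc]
  rw [this, hmat, Matrix.smul_mulVec, dg_det_D_sq]
  simp only [Pi.smul_apply, smul_eq_mul]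
  ring

end Algebra

/-! ### Slash invariance -/

section Slash

/-- `F ∣[k] γ = F` in terms of the automorphy factor. -/
theorem dg_slash_eq_iff (F : ℍ → ℂ) (k : ℤ) (γ : SL(2, ℤ)) :
    F ∣[k] γ = F ↔ ∀ τ : ℍ, F (γ • τ) = denom γ τ ^ k * F τ := by
  constructor
  · intro h τ
    have h1 := congrFun h τ
    rw [ModularForm.SL_slash_apply] at h1
    have hd : denom γ τ ^ k ≠ 0 := zpow_ne_zero _ (denom_ne_zero _ τ)
    rw [_root_.zpow_neg] at h1
    rw [← h1]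
    field_simp
  · intro h
    funext τ
    rw [ModularForm.SL_slash_apply, h τ, _root_.zpow_neg]
    have hd : denom γ τ ^ k ≠ 0 := zpow_ne_zero _ (denom_ne_zero _ τ)
    field_simp

/-- The Hankel determinant `det (S_{i+j})_{i,j<n}` as a function on `ℍ`. -/
def dgB (n : ℕ) (S : ℕ → ℍ → ℂ) : ℍ → ℂ :=
  fun τ => (Matrix.of fun i j : Fin n => S ((i : ℕ) + (j : ℕ)) τ).det

/-- The components of `adj(H) t` as functions on `ℍ`. -/
def dgG (n : ℕ) (S t : ℕ → ℍ → ℂ) (i : Fin n) : ℍ → ℂ :=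
  fun τ => ((Matrix.of fun i j : Fin n => S ((i : ℕ) + (j : ℕ)) τ).adjugate *ᵥ
    fun j => t (j : ℕ) τ) i

theorem dgB_apply (n : ℕ) (S : ℕ → ℍ → ℂ) (τ : ℍ) :
    dgB n S τ = (Matrix.of fun i j : Fin n => S ((i : ℕ) + (j : ℕ)) τ).det := rfl

theorem dgG_apply (n : ℕ) (S t : ℕ → ℍ → ℂ) (i : Fin n) (τ : ℍ) :
    dgG n S t i τ = ((Matrix.of fun i j : Fin n => S ((i : ℕ) + (j : ℕ)) τ).adjugate *ᵥ
      fun j => t (j : ℕ) τ) i := rfl

theorem dg_cast_weight (n : ℕ) :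
    ((12 * (n * (n - 1)) : ℕ) : ℤ) = 12 * (n : ℤ) * ((n : ℤ) - 1) := by
  rcases Nat.eq_zero_or_pos n with h | h
  · subst h; simp
  · push_cast [Nat.cast_sub h]
    ring

/-- (a) The Hankel determinant is slash-invariant of weight `12 n (n - 1)`. -/
theorem dg_det_slash (n : ℕ) (S : ℕ → ℍ → ℂ) (γ : SL(2, ℤ))
    (hS : ∀ m : ℕ, S m ∣[(12 * (m : ℤ))] γ = S m) :
    dgB n S ∣[12 * (n : ℤ) * ((n : ℤ) - 1)] γ = dgB n S := by
  rw [dg_slash_eq_iff]
  intro τ
  have hSτ : ∀ m : ℕ, S m (γ • τ) = denom γ τ ^ (12 * m) * S m τ := by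
    intro m
    have := (dg_slash_eq_iff (S m) _ γ).mp (hS m) τ
    rw [this, ← zpow_natCast]
    push_cast
    rfl
  have hmat : (Matrix.of fun i j : Fin n => S ((i : ℕ) + (j : ℕ)) (γ • τ))
      = Matrix.of fun i j : Fin n => denom γ τ ^ (12 * ((i : ℕ) + (j : ℕ))) *
          (Matrix.of fun i j : Fin n => S ((i : ℕ) + (j : ℕ)) τ) i j := by
    ext i j
    simp only [Matrix.of_apply, hSτ]
  rw [dgB_apply, hmat, dg_det_scale, dgB_apply, ← dg_cast_weight, zpow_natCast]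

/-- (b) The `i`-th component of `adj(H) t` is slash-invariant of weight
`k + 12 n (n - 1) - 12 i`. -/
theorem dg_adj_slash (n : ℕ) (k : ℤ) (S t : ℕ → ℍ → ℂ) (γ : SL(2, ℤ))
    (hS : ∀ m : ℕ, S m ∣[(12 * (m : ℤ))] γ = S m)
    (ht : ∀ j : ℕ, t j ∣[(k + 12 * (j : ℤ))] γ = t j) (i : Fin n) :
    dgG n S t i ∣[k + 12 * (n : ℤ) * ((n : ℤ) - 1) - 12 * ((i : ℕ) : ℤ)] γ = dgG n S t i := by
  rw [dg_slash_eq_iff]
  intro τ
  have hx : denom γ τ ≠ 0 := denom_ne_zero _ τ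
  have hSτ : ∀ m : ℕ, S m (γ • τ) = denom γ τ ^ (12 * m) * S m τ := by
    intro m
    have := (dg_slash_eq_iff (S m) _ γ).mp (hS m) τ
    rw [this, ← zpow_natCast]
    push_cast
    rfl
  have htτ : ∀ j : ℕ, t j (γ • τ) = denom γ τ ^ k * denom γ τ ^ (12 * j) * t j τ := by
    intro j
    have := (dg_slash_eq_iff (t j) _ γ).mp (ht j) τ
    rw [this, zpow_add₀ hx, ← zpow_natCast]
    push_cast
    rfl
  have hmat : (Matrix.of fun i j : Fin n => S ((i : ℕ) + (j : ℕ)) (γ • τ))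
      = Matrix.of fun i j : Fin n => denom γ τ ^ (12 * ((i : ℕ) + (j : ℕ))) *
          (Matrix.of fun i j : Fin n => S ((i : ℕ) + (j : ℕ)) τ) i j := by
    ext i j
    simp only [Matrix.of_apply, hSτ]
  have hvec : (fun j : Fin n => t (j : ℕ) (γ • τ))
      = fun j : Fin n => denom γ τ ^ k * denom γ τ ^ (12 * (j : ℕ)) * t (j : ℕ) τ := by
    ext j
    exact htτ j
  have key := dg_adj_scale 12 (denom γ τ) (denom γ τ ^ k)
    (Matrix.of fun i j : Fin n => S ((i : ℕ) + (j : ℕ)) τ) (fun j => t (j : ℕ) τ) i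
  rw [dgG_apply, hmat, hvec, dgG_apply]
  have hpow : denom γ τ ^ (k + 12 * (n : ℤ) * ((n : ℤ) - 1) - 12 * ((i : ℕ) : ℤ))
      = denom γ τ ^ k * denom γ τ ^ (12 * (n * (n - 1))) / denom γ τ ^ (12 * (i : ℕ)) := by
    have hi : (12 * ((i : ℕ) : ℤ)) = ((12 * (i : ℕ) : ℕ) : ℤ) := by push_cast; rfl
    rw [zpow_sub₀ hx, zpow_add₀ hx, ← dg_cast_weight, zpow_natCast, hi, zpow_natCast]
  rw [hpow, div_mul_eq_mul_div, ← key]
  have hxi : denom γ τ ^ (12 * (i : ℕ)) ≠ 0 := pow_ne_zero _ hx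
  field_simp

end Slash

/-! ### Regularity: membership in `qr_ring` -/

section Ring

theorem dgB_mem_qr (n : ℕ) (S : ℕ → ℍ → ℂ) (hS : ∀ m, S m ∈ qr_ring) : dgB n S ∈ qr_ring := by
  let M : Matrix (Fin n) (Fin n) qr_ring := Matrix.of fun i j => ⟨S ((i : ℕ) + (j : ℕ)), hS _⟩
  have h1 : qr_ring.subtype M.det = dgB n S := by
    funext τ
    have h2 : qr_ring.subtype M.det τ
        = (Pi.evalRingHom (fun _ : ℍ => ℂ) τ).comp qr_ring.subtype M.det := rfl
    rw [h2, RingHom.map_det, dgB_apply]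
    rfl
  rw [← h1]
  exact (M.det).2

theorem dgG_mem_qr (n : ℕ) (S t : ℕ → ℍ → ℂ) (hS : ∀ m, S m ∈ qr_ring)
    (ht : ∀ j, t j ∈ qr_ring) (i : Fin n) : dgG n S t i ∈ qr_ring := by
  let M : Matrix (Fin n) (Fin n) qr_ring := Matrix.of fun i j => ⟨S ((i : ℕ) + (j : ℕ)), hS _⟩
  let T : Fin n → qr_ring := fun j => ⟨t (j : ℕ), ht _⟩
  have h1 : qr_ring.subtype ((M.adjugate *ᵥ T) i) = dgG n S t i := by
    funext τ
    have h2 : qr_ring.subtype ((M.adjugate *ᵥ T) i) τ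
        = (Pi.evalRingHom (fun _ : ℍ => ℂ) τ).comp qr_ring.subtype ((M.adjugate *ᵥ T) i) := rfl
    rw [h2, RingHom.map_mulVec, ← RingHom.mapMatrix_apply, RingHom.map_adjugate, dgG_apply]
    rfl
  rw [← h1]
  exact ((M.adjugate *ᵥ T) i).2

end Ring

/-! ### Packaging as level-one modular forms -/

section Package

/-- A holomorphic function on `ℍ`, bounded at `i∞` and invariant of weight `w` under `SL(2,ℤ)`, is
a level-one modular form. -/
theorem dg_exists_modularForm (w : ℤ) (F : ℍ → ℂ) (hF : MDiff F) (hbdd : IsBoundedAtImInfty F)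
    (hinv : ∀ γ : SL(2, ℤ), F ∣[w] γ = F) : ∃ G : ModularForm 𝒮ℒ w, ⇑G = F :=
  ⟨{ toFun := F
     slash_action_eq' := fun _ ⟨γ, hγ⟩ ↦ hγ ▸ hinv γ
     holo' := hF
     bdd_at_cusps' := fun {c} hc => by
       rw [OnePoint.isBoundedAt_iff_forall_SL2Z hc]
       intro γ _
       rw [hinv γ]
       exact hbdd }, rfl⟩

/-- **DIAG**, function-level hypotheses: if the `S m` are holomorphic, bounded at `i∞`,
`1`-periodic (i.e. in `qr_ring`) and `SL(2,ℤ)`-invariant of weight `12 m`, and the `t j` likewise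
of weight `k + 12 j`, then `det H` and the components of `adj(H) t` are level-one modular forms of
weights `12 n (n - 1)` and `k + 12 n (n - 1) - 12 i`. -/
theorem dg_exists_forms' (n : ℕ) (k : ℤ) (S t : ℕ → ℍ → ℂ)
    (hSq : ∀ m, S m ∈ qr_ring) (htq : ∀ j, t j ∈ qr_ring)
    (hS : ∀ (m : ℕ) (γ : SL(2, ℤ)), S m ∣[(12 * (m : ℤ))] γ = S m)
    (ht : ∀ (j : ℕ) (γ : SL(2, ℤ)), t j ∣[(k + 12 * (j : ℤ))] γ = t j) :
    ∃ (B : ModularForm 𝒮ℒ (12 * (n : ℤ) * ((n : ℤ) - 1)))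
      (g : (i : Fin n) →
        ModularForm 𝒮ℒ (k + 12 * (n : ℤ) * ((n : ℤ) - 1) - 12 * ((i : ℕ) : ℤ))),
      (∀ τ, B τ = (Matrix.of fun i j : Fin n => S ((i : ℕ) + (j : ℕ)) τ).det) ∧
      (∀ i τ, g i τ = ((Matrix.of fun i j : Fin n => S ((i : ℕ) + (j : ℕ)) τ).adjugate *ᵥ
        fun j => t (j : ℕ) τ) i) := by
  obtain ⟨B, hB⟩ := dg_exists_modularForm (12 * (n : ℤ) * ((n : ℤ) - 1)) (dgB n S)
    (dgB_mem_qr n S hSq).1 (dgB_mem_qr n S hSq).2.2 (fun γ => dg_det_slash n S γ (fun m => hS m γ))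
  have hg : ∀ i : Fin n, ∃ G : ModularForm 𝒮ℒ
      (k + 12 * (n : ℤ) * ((n : ℤ) - 1) - 12 * ((i : ℕ) : ℤ)), ⇑G = dgG n S t i := fun i =>
    dg_exists_modularForm _ (dgG n S t i) (dgG_mem_qr n S t hSq htq i).1
      (dgG_mem_qr n S t hSq htq i).2.2
      (fun γ => dg_adj_slash n k S t γ (fun m => hS m γ) (fun j => ht j γ) i)
  choose g hg using hg
  refine ⟨B, g, fun τ => ?_, fun i τ => ?_⟩
  · rw [show B τ = (⇑B) τ from rfl, hB, dgB_apply]
  · rw [show g i τ = (⇑(g i)) τ from rfl, hg i, dgG_apply]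

/-- **DIAG**, packaged form: from level-one forms `S m` of weight `12 m` and `t j` of weight
`k + 12 j` one gets level-one forms `B = det H` of weight `12 n (n - 1)` and
`g i = (adj(H) t)_i` of weight `k + 12 n (n - 1) - 12 i`. -/
theorem dg_exists_forms (n : ℕ) (k : ℤ) (S t : ℕ → ℍ → ℂ)
    (hS : ∀ m : ℕ, ∃ F : ModularForm 𝒮ℒ (12 * (m : ℤ)), ⇑F = S m)
    (ht : ∀ j : ℕ, ∃ F : ModularForm 𝒮ℒ (k + 12 * (j : ℤ)), ⇑F = t j) :
    ∃ (B : ModularForm 𝒮ℒ (12 * (n : ℤ) * ((n : ℤ) - 1)))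
      (g : (i : Fin n) →
        ModularForm 𝒮ℒ (k + 12 * (n : ℤ) * ((n : ℤ) - 1) - 12 * ((i : ℕ) : ℤ))),
      (∀ τ, B τ = (Matrix.of fun i j : Fin n => S ((i : ℕ) + (j : ℕ)) τ).det) ∧
      (∀ i τ, g i τ = ((Matrix.of fun i j : Fin n => S ((i : ℕ) + (j : ℕ)) τ).adjugate *ᵥ
        fun j => t (j : ℕ) τ) i) := by
  have h1 : (1 : ℝ) ∈ (𝒮ℒ : Subgroup (GL (Fin 2) ℝ)).strictPeriods := by
    simp
  apply dg_exists_forms' n k S t
  · intro m
    obtain ⟨F, hF⟩ := hS m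
    rw [← hF]
    exact qr_mem_of_modularForm h1 F
  · intro j
    obtain ⟨F, hF⟩ := ht j
    rw [← hF]
    exact qr_mem_of_modularForm h1 F
  · intro m γ
    obtain ⟨F, hF⟩ := hS m
    rw [← hF]
    exact SlashInvariantForm.slash_action_eqn F _ ⟨γ, rfl⟩
  · intro j γ
    obtain ⟨F, hF⟩ := ht j
    rw [← hF]
    exact SlashInvariantForm.slash_action_eqn F _ ⟨γ, rfl⟩

end Package

end Fermat.Agent.S23
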