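import Mathlib
import Fermat.Agent.S23.Twist
import Fermat.Agent.S23.Conj
import Fermat.Agent.S23.Diag
import Fermat.Agent.S23.PrimElt

/-!
# S23 (Plan Q), package U1: the interpolation identity `f * B = ∑ i, u ^ i * g i`

For a cusp form `f` on `Γ₀(N)` and the primitive element `u = Δ(N z)`, with
`S m = ∑ q, u_q ^ m`, `t j = ∑ q, u_q ^ j * f_q` (level-one forms), `B = det (S (i + j))` and
`g i = (adj (S (i + j)) *ᵥ t) i`, one has `f * B = ∑ i, u ^ i * g i`, `B ≠ 0`, and `B`, `g i` are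
level-one modular forms.
-/

set_option autoImplicit false

noncomputable section

namespace Fermat.Agent.S23

open UpperHalfPlane CongruenceSubgroup Matrix
open scoped MatrixGroups ModularForm Manifold

theorem u1_exists (N : ℕ) [NeZero N] (k : ℤ) (f : CuspForm (Gamma0 N) k) : TwU1 N k f := by
  classical
  set n := cj_index N with hn
  have hcard : Fintype.card (cj_Q N) = n := rfl
  set S : ℕ → ℍ → ℂ := fun m => ∑ q : cj_Q N, cj_conj (pe_u N) q ^ m with hSdef
  set t : ℕ → ℍ → ℂ := fun j => ∑ q : cj_Q N, cj_conj (pe_u N) q ^ j * cj_conj f q with htdef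
  have hS : ∀ m : ℕ, ∃ F : ModularForm 𝒮ℒ (12 * (m : ℤ)), ⇑F = S m :=
    fun m => cj_exists_trace_pow (pe_u N) m
  have ht : ∀ j : ℕ, ∃ F : ModularForm 𝒮ℒ (k + 12 * (j : ℤ)), ⇑F = t j :=
    fun j => cj_exists_trace_pow_mul_modularForm (pe_u N) f j
  obtain ⟨B, g, hB, hg⟩ := dg_exists_forms n k S t hS ht
  -- pointwise description of the Hankel matrix and of the vector `t`
  have hH : ∀ τ : ℍ, (Matrix.of fun i j : Fin n => S ((i : ℕ) + (j : ℕ)) τ) =
      hk_HQ n (fun q : cj_Q N => cj_conj (pe_u N) q τ) := by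
    intro τ
    ext i j
    simp [hSdef, hk_HQ_apply, Finset.sum_apply]
  have hT : ∀ τ : ℍ, (fun j : Fin n => t (j : ℕ) τ) =
      hk_tQ n (fun q : cj_Q N => cj_conj (pe_u N) q τ) (fun q : cj_Q N => cj_conj f q τ) := by
    intro τ
    ext j
    simp [htdef, hk_tQ_apply, Finset.sum_apply]
  refine ⟨ModularFormClass.modularForm (pe_u N), 12 * (n : ℤ) * ((n : ℤ) - 1), n, B, g,
    ?_, ?_, ?_⟩
  · intro s
    exact pe_map_qExpansion N s
  · obtain ⟨τ₀, hτ₀⟩ := pe_exists_injective N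
    intro hB0
    have h1 := hB τ₀
    rw [hB0, hH τ₀] at h1
    exact hk_detQ_ne_zero (R := ℂ) hcard (fun q : cj_Q N => cj_conj (pe_u N) q τ₀) hτ₀ h1.symm
  · intro τ
    have h1 := hk_mainQ (R := ℂ) hcard (fun q : cj_Q N => cj_conj (pe_u N) q τ)
      (fun q : cj_Q N => cj_conj f q τ) (cj_one N)
    simp only [cj_conj_one] at h1
    rw [hB τ, hH τ, mul_comm, h1]
    refine Finset.sum_congr rfl fun i _ => ?_
    rw [hg i τ, hH τ, hT τ]
    rfl

end Fermat.Agent.S23
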